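import Fermat.Agent.S24.Degree
import Fermat.Agent.S20.CountIndex

/-!
# S18/M-I (descent `M → N`)

`F_N ≤ F_M` for `N ∣ M`, `[F_M : F_N] * ψ(N) = ψ(M)`, and: if `u ∈ F_M`, `u ^ p ∈ F_N`, `p` prime not
dividing `ψ(M)/ψ(N)`, then `u ∈ F_N`.
-/

set_option autoImplicit false

open ModularCurve IntermediateField Polynomial
open scoped MatrixGroups

namespace Fermat.Agent.S18.Descent

open Fermat.Agent.S24

theorem bar_le {N M : ℕ} [NeZero N] [NeZero M] (h : N ∣ M) :
    modularFunctionFieldBar N ≤ modularFunctionFieldBar M :=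
  IntermediateField.adjoin.mono _ _ _ (Set.image_mono (full_degeneracy_le h))

/-- `j` as a Laurent series over `Kb` -/
noncomputable def jL : LaurentSeries Kb := coeffEmb Kb (qExpand ℚ 1 jq)

theorem relfinrank_j (N : ℕ) [NeZero N] :
    relfinrank Kb⟮jL⟯ (modularFunctionFieldBar N) = Nat.card (QN N) := by
  rw [← finrank_FN N, ← relfinrank_top_right,
    ← relfinrank_map_map _ _ (modularFunctionFieldBar N).val, adjoin_map, Set.image_singleton,
    ← AlgHom.fieldRange_eq_map, fieldRange_val]
  rfl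

theorem adjoin_j_le (N : ℕ) [NeZero N] : Kb⟮jL⟯ ≤ modularFunctionFieldBar N := by
  rw [adjoin_simple_le_iff]
  exact (jN N).2

theorem relfinrank_mul {N M : ℕ} [NeZero N] [NeZero M] (h : N ∣ M) :
    Nat.card (QN N) * relfinrank (modularFunctionFieldBar N) (modularFunctionFieldBar M)
      = Nat.card (QN M) := by
  rw [← relfinrank_j N, ← relfinrank_j M]
  exact relfinrank_mul_relfinrank (adjoin_j_le N) (bar_le h)

/-- a root of unity in a field extension of an algebraically closed field is a constant -/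
theorem mem_of_pow_eq_one {K L : Type*} [Field K] [IsAlgClosed K] [Field L] [Algebra K L]
    (F : IntermediateField K L) {z : L} {n : ℕ} (hn : 0 < n) (hz : z ^ n = 1) : z ∈ F := by
  have hint : IsIntegral K z := ⟨X ^ n - 1, monic_X_pow_sub_C 1 hn.ne', by simp [hz]⟩
  have : Algebra.IsAlgebraic K K⟮z⟯ := isAlgebraic_adjoin_simple hint
  obtain ⟨a, ha⟩ := (IsAlgClosed.algebraMap_bijective_of_isIntegral
    (k := K) (K := K⟮z⟯)).2 (AdjoinSimple.gen K z)
  have : z = algebraMap K L a := by
    have := congrArg (algebraMap K⟮z⟯ L) ha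
    rw [AdjoinSimple.algebraMap_gen] at this
    rw [← this]
    rfl
  rw [this]
  exact F.algebraMap_mem a

theorem mem_of_pow_mem {N M : ℕ} [NeZero N] [NeZero M] (h : N ∣ M) {p : ℕ} (hp : p.Prime)
    (c : ℕ) (hc : Nat.card (QN M) = c * Nat.card (QN N)) (hpc : ¬ p ∣ c)
    {u : LaurentSeries Kb} (hu : u ∈ modularFunctionFieldBar M)
    (hup : u ^ p ∈ modularFunctionFieldBar N) : u ∈ modularFunctionFieldBar N := by
  set FN' := modularFunctionFieldBar N with hFN
  set FM' := modularFunctionFieldBar M with hFM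
  have hle : FN' ≤ FM' := bar_le h
  have hN0 : 0 < Nat.card (QN N) := card_QN_pos N
  have hrel : relfinrank FN' FM' = c := by
    have h1 := relfinrank_mul h
    rw [hc, mul_comm] at h1
    exact Nat.eq_of_mul_eq_mul_right hN0 h1
  have hc0 : c ≠ 0 := by
    rintro rfl
    exact hpc (dvd_zero p)
  rw [relfinrank_eq_finrank_of_le hle] at hrel
  have hfd : FiniteDimensional FN' (extendScalars hle) :=
    Module.finite_of_finrank_pos (by rw [hrel]; exact Nat.pos_of_ne_zero hc0)
  by_cases hirr : ∀ b : FN', b ^ p ≠ ⟨u ^ p, hup⟩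
  · exfalso
    have h1 : Irreducible (X ^ p - C (⟨u ^ p, hup⟩ : FN')) :=
      X_pow_sub_C_irreducible_of_prime hp hirr
    let x : extendScalars hle := ⟨u, hu⟩
    have h2 : aeval x (X ^ p - C (⟨u ^ p, hup⟩ : FN')) = 0 := by
      apply Subtype.ext
      simp only [map_sub, map_pow, aeval_X, aeval_C]
      show u ^ p - u ^ p = 0
      exact sub_self _
    have h3 := minpoly.eq_of_irreducible_of_monic h1 h2 (monic_X_pow_sub_C _ hp.ne_zero)
    have h4 := minpoly.degree_dvd (K := FN') (x := x) (Algebra.IsIntegral.isIntegral x)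
    rw [← h3, natDegree_X_pow_sub_C, hrel] at h4
    exact hpc h4
  · push Not at hirr
    obtain ⟨b, hb⟩ := hirr
    have hb' : (b : LaurentSeries Kb) ^ p = u ^ p := congrArg Subtype.val hb
    by_cases hb0 : (b : LaurentSeries Kb) = 0
    · rw [hb0, zero_pow hp.ne_zero] at hb'
      have : u = 0 := pow_eq_zero_iff hp.ne_zero |>.mp hb'.symm
      rw [this]
      exact FN'.zero_mem
    · have h1 : (u / (b : LaurentSeries Kb)) ^ p = 1 := by
        rw [div_pow, hb', div_self]
        rw [← hb']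
        exact pow_ne_zero _ hb0
      have h2 := mem_of_pow_eq_one FN' hp.pos h1
      have h3 : u = u / (b : LaurentSeries Kb) * b := by field_simp
      rw [h3]
      exact FN'.mul_mem h2 b.2

/-- the form used for (KL): auxiliary level `lcm N r`, `r` prime, `p ∤ r + 1`. -/
theorem mem_of_pow_mem_lcm {N r : ℕ} [NeZero N] (hr : r.Prime) {p : ℕ} (hp : p.Prime)
    (hpr : ¬ p ∣ r + 1) {u : LaurentSeries Kb} (hu : u ∈ modularFunctionFieldBar (Nat.lcm N r))
    (hup : u ^ p ∈ modularFunctionFieldBar N) : u ∈ modularFunctionFieldBar N := by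
  by_cases hrN : r ∣ N
  · rw [Nat.lcm_eq_left hrN] at hu
    exact hu
  · have hcop : Nat.Coprime N r := ((Nat.Prime.coprime_iff_not_dvd hr).mpr hrN).symm
    have hlcm : Nat.lcm N r = N * r := hcop.lcm_eq_mul
    rw [hlcm] at hu
    have : NeZero (N * r) := ⟨Nat.mul_ne_zero (NeZero.ne N) hr.ne_zero⟩
    have hidx := Fermat.Agent.S20.Count.index_Gamma0_mul_prime (N := N) hr
      (Nat.pos_of_ne_zero (NeZero.ne N))
    rw [if_neg hrN] at hidx
    exact mem_of_pow_mem (dvd_mul_right N r) hp (r + 1) hidx hpr hu hup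

end Fermat.Agent.S18.Descent
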