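import Mathlib
import Fermat.Prelude.Def_ModularCurve_X0ModL
import Fermat.Prelude.Def_AlgebraicCurve_DivisorClassGroup
import Fermat.Prelude.Thm_ModularCurve_coeff_jqModC_neg_one
import Fermat.Agent.S24.PlacesCore

/-!
# The place at infinity of the function field of `X₀(N)` in any characteristic
-/

set_option autoImplicit false

open HahnSeries IntermediateField AlgebraicCurve ModularCurve

noncomputable section

namespace Fermat.Agent.S18

open Fermat.Agent.S24

variable (k : Type*) [Field k] (N : ℕ) [NeZero N]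

/-- the function field in characteristic `ℓ` -/
abbrev Fk : Type _ := ↥(modularFunctionFieldFullC k N)

variable {k}

theorem order_inv' {x : LaurentSeries k} (hx : x ≠ 0) : x⁻¹.order = - x.order := by
  have h := HahnSeries.order_mul hx (inv_ne_zero hx)
  rw [mul_inv_cancel₀ hx, HahnSeries.order_one] at h
  omega

variable (k)

/-- the valuation ring of the cusp infinity -/
def Oinf : ValuationSubring (Fk k N) where
  carrier := {x | 0 ≤ (x : LaurentSeries k).order}
  mul_mem' := by
    intro x y hx hy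
    simp only [Set.mem_setOf_eq] at hx hy ⊢
    by_cases hx0 : (x : LaurentSeries k) = 0
    · simp [hx0]
    by_cases hy0 : (y : LaurentSeries k) = 0
    · simp [hy0]
    rw [MulMemClass.coe_mul, HahnSeries.order_mul hx0 hy0]
    omega
  one_mem' := by simp
  add_mem' := by
    intro x y hx hy
    simp only [Set.mem_setOf_eq] at hx hy ⊢
    by_cases h0 : (x : LaurentSeries k) + y = 0
    · simp [h0]
    have := HahnSeries.min_order_le_order_add h0
    rw [AddMemClass.coe_add]
    exact le_trans (le_min hx hy) this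
  zero_mem' := by simp
  neg_mem' := by
    intro x hx
    simp only [Set.mem_setOf_eq] at hx ⊢
    rw [NegMemClass.coe_neg, HahnSeries.order_neg]
    exact hx
  mem_or_inv_mem' := by
    intro x
    simp only [Set.mem_setOf_eq]
    by_cases hx0 : (x : LaurentSeries k) = 0
    · left; simp [hx0]
    have h : ((x⁻¹ : Fk k N) : LaurentSeries k) = (x : LaurentSeries k)⁻¹ := rfl
    rw [h, order_inv' hx0]
    omega

theorem mem_Oinf {x : Fk k N} : x ∈ Oinf k N ↔ 0 ≤ (x : LaurentSeries k).order := Iff.rfl

/-- `j` as an element of the function field -/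
def jk : Fk k N := ⟨jqModC k, jqModC_mem_full k N⟩

theorem order_jk : ((jk k N : Fk k N) : LaurentSeries k).order = -1 :=
  P2MW.S_ModularCurve_coeff_jqModC_neg_one.ModularCurve.CharLRows.order_jqModC k

theorem jk_ne_zero : jk k N ≠ 0 := by
  intro h
  have := order_jk k N
  rw [h] at this
  simp at this

theorem coe_ne_zero {x : Fk k N} (hx : x ≠ 0) : (x : LaurentSeries k) ≠ 0 := fun h =>
  hx (Subtype.ext h)

theorem order_zpow_jk (n : ℤ) : (((jk k N) ^ n : Fk k N) : LaurentSeries k).order = -n := by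
  have hj := coe_ne_zero k N (jk_ne_zero k N)
  have hnat : ∀ m : ℕ, (((jk k N) ^ m : Fk k N) : LaurentSeries k).order = -(m : ℤ) := by
    intro m
    induction m with
    | zero => simp
    | succ m ih =>
      have hm : (((jk k N) ^ m : Fk k N) : LaurentSeries k) ≠ 0 :=
        coe_ne_zero k N (pow_ne_zero _ (jk_ne_zero k N))
      rw [pow_succ, MulMemClass.coe_mul, HahnSeries.order_mul hm hj, ih, order_jk]
      push_cast; ring
  rcases n with m | m
  · simpa using hnat m
  · rw [zpow_negSucc]
    have h : ((((jk k N) ^ (m + 1))⁻¹ : Fk k N) : LaurentSeries k) =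
        (((jk k N) ^ (m + 1) : Fk k N) : LaurentSeries k)⁻¹ := rfl
    rw [h, order_inv' (coe_ne_zero k N (pow_ne_zero _ (jk_ne_zero k N))), hnat]
    simp [Int.negSucc_eq]

theorem isPrincipalIdealRing_Oinf : IsPrincipalIdealRing (Oinf k N) := by
  classical
  refine ⟨fun I => ?_⟩
  by_cases hI : I = ⊥
  · rw [hI]; exact bot_isPrincipal
  obtain ⟨x0, hx0I, hx00⟩ := Submodule.exists_mem_ne_zero_of_ne_bot hI
  -- the set of orders
  let S : Set ℕ := {n | ∃ x ∈ I, x ≠ 0 ∧ ((x : Fk k N) : LaurentSeries k).order = n}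
  have hS : S.Nonempty := by
    refine ⟨(((x0 : Fk k N) : LaurentSeries k).order).toNat, x0, hx0I, hx00, ?_⟩
    exact (Int.toNat_of_nonneg x0.2).symm
  let n0 := sInf S
  obtain ⟨x1, hx1I, hx10, hx1⟩ : n0 ∈ S := Nat.sInf_mem hS
  have hmin : ∀ x ∈ I, x ≠ 0 → (n0 : ℤ) ≤ ((x : Fk k N) : LaurentSeries k).order := by
    intro x hx hx0
    have : (((x : Fk k N) : LaurentSeries k).order).toNat ∈ S :=
      ⟨x, hx, hx0, (Int.toNat_of_nonneg x.2).symm⟩
    have h2 := Nat.sInf_le this
    have h3 := Int.toNat_of_nonneg x.2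
    have h4 : (n0 : ℤ) ≤ ((((x : Fk k N) : LaurentSeries k).order).toNat : ℤ) := by
      exact_mod_cast h2
    omega
  refine ⟨⟨x1, le_antisymm ?_ ?_⟩⟩
  · intro x hx
    by_cases hx0 : x = 0
    · rw [hx0]; exact zero_mem _
    have hx1' : (x1 : Fk k N) ≠ 0 := fun h => hx10 (Subtype.ext h)
    have hx' : (x : Fk k N) ≠ 0 := fun h => hx0 (Subtype.ext h)
    have hq : (x : Fk k N) * (x1 : Fk k N)⁻¹ ∈ Oinf k N := by
      rw [mem_Oinf, MulMemClass.coe_mul]
      have h : (((x1 : Fk k N)⁻¹ : Fk k N) : LaurentSeries k) =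
        ((x1 : Fk k N) : LaurentSeries k)⁻¹ := rfl
      rw [h, HahnSeries.order_mul (coe_ne_zero k N hx') (inv_ne_zero (coe_ne_zero k N hx1')),
        order_inv' (coe_ne_zero k N hx1'), hx1]
      have := hmin x hx hx0
      omega
    rw [Submodule.mem_span_singleton]
    refine ⟨⟨_, hq⟩, ?_⟩
    apply Subtype.ext
    simp only [smul_eq_mul, MulMemClass.coe_mul]
    field_simp
  · rw [Submodule.span_singleton_le_iff_mem]
    exact hx1I

/-- the place at infinity -/
def Qinf : Place k (Fk k N) where
  toValuationSubring := Oinf k N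
  algebraMap_mem' := by
    intro a
    rw [mem_Oinf]
    have h : ((algebraMap k (Fk k N) a : Fk k N) : LaurentSeries k) =
        algebraMap k (LaurentSeries k) a := rfl
    rw [h, algebraMap_laurentSeries_eq_single]
    by_cases ha : a = 0
    · simp [ha]
    · rw [HahnSeries.order_single ha]
  ne_top' := by
    intro h
    have h1 : jk k N ∈ Oinf k N := by rw [h]; exact ValuationSubring.mem_top _
    rw [mem_Oinf, order_jk] at h1
    omega
  isPrincipalIdealRing' := isPrincipalIdealRing_Oinf k N

theorem Qinf_ord_nonneg_iff {x : Fk k N} :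
    0 ≤ (Qinf k N).ord x ↔ 0 ≤ (x : LaurentSeries k).order :=
  (mem_iff_ord_nonneg (Qinf k N)).symm

theorem Qinf_ord_pos_iff {x : Fk k N} (hx : x ≠ 0) :
    0 < (Qinf k N).ord x ↔ 0 < (x : LaurentSeries k).order := by
  have h1 := Qinf_ord_nonneg_iff k N (x := x⁻¹)
  rw [Place.ord_inv] at h1
  have h : ((x⁻¹ : Fk k N) : LaurentSeries k) = (x : LaurentSeries k)⁻¹ := rfl
  rw [h, order_inv' (coe_ne_zero k N hx)] at h1
  constructor
  · intro h2
    by_contra h3
    have : 0 ≤ -(Qinf k N).ord x := h1.mpr (by omega)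
    omega
  · intro h2
    by_contra h3
    have : 0 ≤ -(x : LaurentSeries k).order := h1.mp (by omega)
    omega

theorem order_eq_zero_of_Qinf_ord_eq_zero {x : Fk k N} (hx : x ≠ 0) (h : (Qinf k N).ord x = 0) :
    (x : LaurentSeries k).order = 0 := by
  have h1 := (Qinf_ord_nonneg_iff k N (x := x)).mp (by omega)
  have h2 := (Qinf_ord_pos_iff k N hx).not.mp (by omega)
  omega

end Fermat.Agent.S18
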