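import Mathlib
import Fermat.Prelude.Def_ModularCurve_ReductionModL
import Fermat.Prelude.Def_EllipticCurve_FrobeniusTrace
import Fermat.Agent.S24.DiffGlobal
import Fermat.Agent.S24.Degree
import Fermat.Agent.S18.GlueInf
import Fermat.Prelude.Thm_ModularCurve_coeffMap_qExpand

/-!
# S18 from the Kummer lemma (KL')

`KLStatement N ℓ A` is the statement (KL') (owner: helper27).  This file proves the frozen statement
S18 from it (`result_of_KL`).
-/

set_option autoImplicit false
set_option synthInstance.maxHeartbeats 400000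

open HahnSeries IntermediateField AlgebraicCurve ModularCurve

noncomputable section

namespace Fermat.Agent.S18

open Fermat.Agent.S24

/-- the statement (KL') -/
def KLStatement (N : ℕ) [NeZero N] (ℓ : ℕ) (A : ValuationSubring Kb) : Prop :=
  ∀ p : ℕ, p.Prime → p ≠ ℓ → ∀ f : FN N, f ≠ 0 →
    (∀ P : Place Kb (FN N), (p : ℤ) ∣ P.ord f) →
    ∀ y1 y2 : LaurentSeries A,
      coeffMap A.subtype y1 ∈ modularFunctionFieldBar N →
      coeffMap A.subtype y2 ∈ modularFunctionFieldBar N →
      (f : LaurentSeries Kb) * coeffMap A.subtype y2 = coeffMap A.subtype y1 →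
      coeffMap (IsLocalRing.residue A) y1 = coeffMap (IsLocalRing.residue A) y2 →
      coeffMap (IsLocalRing.residue A) y2 ≠ 0 → ∃ g : FN N, g ^ p = f

/-! ### divisors of functions in characteristic zero -/

section DivF

variable (N : ℕ) [NeZero N]

theorem finite_support_ord (f : FN N) (hf : f ≠ 0) :
    (Function.support fun P : Place Kb (FN N) => P.ord f).Finite :=
  (Diff.finsum_ord_eq_zero (jN N) (finiteDimensional_FN N) f hf).1

/-- the divisor of a nonzero function -/
def divF (f : FN N) (hf : f ≠ 0) : Divisor Kb (FN N) :=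
  Finsupp.ofSupportFinite (fun P : Place Kb (FN N) => P.ord f) (finite_support_ord N f hf)

theorem divF_apply (f : FN N) (hf : f ≠ 0) (P : Place Kb (FN N)) : divF N f hf P = P.ord f := rfl

theorem sum_divF (f : FN N) (hf : f ≠ 0) : ((divF N f hf).sum fun _ n => n) = 0 := by
  have h := (Diff.finsum_ord_eq_zero (jN N) (finiteDimensional_FN N) f hf).2
  rw [← h, finsum_eq_sum_of_support_subset (s := (divF N f hf).support)]
  · rfl
  · intro P hP
    simpa [divF_apply] using hP

end DivF


/-! ### good integral elements -/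

section Good

variable (A : ValuationSubring Kb) (N : ℕ) [NeZero N]

/-- the residue field -/
abbrev kA : Type := IsLocalRing.ResidueField A

/-- integral series lying in the function field, with nonzero reduction in the function field of
the special fibre -/
structure Good (y : LaurentSeries A) : Prop where
  memF : coeffMap A.subtype y ∈ modularFunctionFieldBar N
  memk : coeffMap (IsLocalRing.residue A) y ∈ modularFunctionFieldFullC (kA A) N
  ne : coeffMap (IsLocalRing.residue A) y ≠ 0

variable {A N}

/-- the function in characteristic zero -/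
def Good.up {y : LaurentSeries A} (h : Good A N y) : FN N := ⟨_, h.memF⟩

/-- the reduction -/
def Good.dn {y : LaurentSeries A} (h : Good A N y) : Fk (kA A) N := ⟨_, h.memk⟩

theorem Good.dn_ne_zero {y : LaurentSeries A} (h : Good A N y) : h.dn ≠ 0 := fun h0 =>
  h.ne (congrArg Subtype.val h0)

theorem Good.up_ne_zero {y : LaurentSeries A} (h : Good A N y) : h.up ≠ 0 := by
  intro h0
  have h1 : coeffMap A.subtype y = 0 := congrArg Subtype.val h0
  have h2 : y = 0 := by
    ext n
    have := congrArg (fun s => s.coeff n) h1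
    simpa using this
  exact h.ne (by rw [h2, map_zero])

theorem Good.one : Good A N 1 :=
  ⟨by rw [map_one]; exact one_mem _, by rw [map_one]; exact one_mem _,
    by rw [map_one]; exact one_ne_zero⟩

theorem Good.mul {y y' : LaurentSeries A} (h : Good A N y) (h' : Good A N y') :
    Good A N (y * y') :=
  ⟨by rw [map_mul]; exact mul_mem h.memF h'.memF, by rw [map_mul]; exact mul_mem h.memk h'.memk,
    by rw [map_mul]; exact mul_ne_zero h.ne h'.ne⟩

theorem Good.pow {y : LaurentSeries A} (h : Good A N y) (n : ℕ) : Good A N (y ^ n) :=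
  ⟨by rw [map_pow]; exact pow_mem h.memF n, by rw [map_pow]; exact pow_mem h.memk n,
    by rw [map_pow]; exact pow_ne_zero n h.ne⟩

theorem Good.up_mul {y y' : LaurentSeries A} (h : Good A N y) (h' : Good A N y') :
    (h.mul h').up = h.up * h'.up := Subtype.ext (map_mul _ _ _)

theorem Good.dn_mul {y y' : LaurentSeries A} (h : Good A N y) (h' : Good A N y') :
    (h.mul h').dn = h.dn * h'.dn := Subtype.ext (map_mul _ _ _)

theorem Good.up_pow {y : LaurentSeries A} (h : Good A N y) (n : ℕ) :
    (h.pow n).up = h.up ^ n := Subtype.ext (map_pow _ _ _)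

theorem Good.dn_pow {y : LaurentSeries A} (h : Good A N y) (n : ℕ) :
    (h.pow n).dn = h.dn ^ n := Subtype.ext (map_pow _ _ _)

theorem Good.up_one : (Good.one : Good A N 1).up = 1 := Subtype.ext (map_one _)

theorem ord_pow' {K F : Type*} [Field K] [Field F] [Algebra K F] (P : Place K F) (f : F) (n : ℕ) :
    P.ord (f ^ n) = n * P.ord f := by
  rw [← zpow_natCast, P.ord_zpow]

theorem memF_single (c : A) :
    coeffMap A.subtype (HahnSeries.single 0 c) ∈ modularFunctionFieldBar N := by
  rw [coeffMap_single, ← algebraMap_laurentSeries_eq_single]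
  exact (modularFunctionFieldBar N).algebraMap_mem _

theorem memk_single (c : A) : coeffMap (IsLocalRing.residue A) (HahnSeries.single 0 c) ∈
    modularFunctionFieldFullC (kA A) N := by
  rw [coeffMap_single, ← algebraMap_laurentSeries_eq_single]
  exact (modularFunctionFieldFullC (kA A) N).algebraMap_mem _

/-- lifting elements of the algebra generated by the `j(q^d)` -/
theorem exists_lift_of_mem_adjoin (x : LaurentSeries (kA A))
    (hx : x ∈ Algebra.adjoin (kA A) (divisorExpansionsC (kA A) N)) :
    ∃ y : LaurentSeries A, coeffMap A.subtype y ∈ modularFunctionFieldBar N ∧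
      coeffMap (IsLocalRing.residue A) y = x := by
  induction hx using Algebra.adjoin_induction with
  | mem x hx =>
    obtain ⟨d, hd0, hd, rfl⟩ := hx
    refine ⟨qExpand A d (jqModC A), ?_, ?_⟩
    · rw [coeffMap_qExpand, coeffMap_jqModC]
      have h := (jF N d hd).2
      have e : ((jF N d hd : FN N) : LaurentSeries Kb) = qExpand Kb d (jqModC Kb) := by
        show coeffEmb Kb (qExpand ℚ d jq) = _
        rw [coeffEmb, coeffMap_qExpand, ← jqModC_rat, coeffMap_jqModC]
      rw [← e]
      exact h
    · rw [coeffMap_qExpand, coeffMap_jqModC]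
  | algebraMap c =>
    obtain ⟨c', rfl⟩ := IsLocalRing.residue_surjective c
    refine ⟨HahnSeries.single 0 c', memF_single c', ?_⟩
    rw [coeffMap_single, algebraMap_laurentSeries_eq_single]
  | add x y _ _ hx hy =>
    obtain ⟨x', hx1, rfl⟩ := hx
    obtain ⟨y', hy1, rfl⟩ := hy
    exact ⟨x' + y', by rw [map_add]; exact add_mem hx1 hy1, map_add _ _ _⟩
  | mul x y _ _ hx hy =>
    obtain ⟨x', hx1, rfl⟩ := hx
    obtain ⟨y', hy1, rfl⟩ := hy
    exact ⟨x' * y', by rw [map_mul]; exact mul_mem hx1 hy1, map_mul _ _ _⟩

/-- every nonzero element of the function field of the special fibre is a quotient of reductions -/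
theorem exists_good_div (g : Fk (kA A) N) (hg : g ≠ 0) :
    ∃ (G1 G2 : LaurentSeries A) (h1 : Good A N G1) (h2 : Good A N G2), g * h2.dn = h1.dn := by
  obtain ⟨r, hr, s, hs, hrs⟩ := IntermediateField.mem_adjoin_iff_div.mp g.2
  have hg' : (g : LaurentSeries (kA A)) ≠ 0 := fun h => hg (Subtype.ext h)
  have hs0 : s ≠ 0 := by
    rintro rfl
    rw [div_zero] at hrs
    exact hg' hrs
  have hr0 : r ≠ 0 := by
    rintro rfl
    rw [zero_div] at hrs
    exact hg' hrs
  obtain ⟨G1, hG1, rfl⟩ := exists_lift_of_mem_adjoin (N := N) r hr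
  obtain ⟨G2, hG2, rfl⟩ := exists_lift_of_mem_adjoin (N := N) s hs
  refine ⟨G1, G2, ⟨hG1, IntermediateField.algebra_adjoin_le_adjoin _ _ hr, hr0⟩,
    ⟨hG2, IntermediateField.algebra_adjoin_le_adjoin _ _ hs, hs0⟩, ?_⟩
  apply Subtype.ext
  show (g : LaurentSeries (kA A)) * _ = _
  rw [hrs]
  exact div_mul_cancel₀ _ hs0

end Good

end Fermat.Agent.S18
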