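import Mathlib

/-!
# S18 / KL / (a) : Gauss' lemma over a valuation ring and saturation

`A` is a valuation ring with fraction field `K` and residue field `k`.
A polynomial `s : A[X]` is *primitive* if `s.map (residue A) ≠ 0`.
-/

set_option autoImplicit false

namespace Fermat.Agent.S18.KLGauss

open Polynomial IsLocalRing

section Gauss

variable {A K : Type*} [CommRing A] [IsDomain A] [ValuationRing A] [Field K] [Algebra A K]
  [IsFractionRing A K]

/-- among finitely many elements of `K`, not all zero, one divides all the others -/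
theorem exists_dominant {ι : Type*} (s : Finset ι) (f : ι → K) (h : ∃ i ∈ s, f i ≠ 0) :
    ∃ j ∈ s, f j ≠ 0 ∧ ∀ i ∈ s, ∃ a : A, algebraMap A K a = f i / f j := by
  obtain ⟨i0, hi0, hf0⟩ := h
  obtain ⟨j, hj, hmax⟩ := Finset.exists_max_image s
    (fun i => ValuationRing.valuation A K (f i)) ⟨i0, hi0⟩
  have hj0 : f j ≠ 0 := by
    intro h0
    have := hmax i0 hi0
    simp only [h0, map_zero, le_zero_iff, map_eq_zero] at this
    exact hf0 this
  refine ⟨j, hj, hj0, fun i hi => ?_⟩
  rw [← ValuationRing.mem_integer_iff, Valuation.mem_integer_iff, map_div₀]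
  exact div_le_one_of_le₀ (hmax i hi) zero_le

/-- **normalisation**: a nonzero polynomial over `K` is a constant times a primitive polynomial -/
theorem exists_eq_C_mul_primitive (b : K[X]) (hb : b ≠ 0) :
    ∃ (c : K) (b' : A[X]), c ≠ 0 ∧ b'.map (residue A) ≠ 0 ∧ b = C c * b'.map (algebraMap A K) := by
  obtain ⟨j, hj, hj0, hdiv⟩ := exists_dominant (A := A) b.support b.coeff
    ⟨b.natDegree, by simpa using hb, by simpa using hb⟩
  have hl : C (b.coeff j)⁻¹ * b ∈ lifts (algebraMap A K) := by
    rw [lifts_iff_coeff_lifts]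
    intro n
    rw [coeff_C_mul]
    by_cases hn : n ∈ b.support
    · obtain ⟨a, ha⟩ := hdiv n hn
      exact ⟨a, by rw [ha]; field_simp⟩
    · rw [notMem_support_iff.mp hn, mul_zero]
      exact ⟨0, map_zero _⟩
  obtain ⟨b', hb'⟩ := (mem_lifts _).mp hl
  refine ⟨b.coeff j, b', hj0, ?_, ?_⟩
  · intro h
    have h1 : b'.coeff j = 1 := by
      apply IsFractionRing.injective A K
      rw [← coeff_map, hb', coeff_C_mul, map_one, inv_mul_cancel₀ hj0]
    have h2 := congrArg (fun p => p.coeff j) h
    simp only [coeff_map, h1, map_one, coeff_zero] at h2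
    exact one_ne_zero h2
  · rw [hb', ← mul_assoc, ← C_mul, mul_inv_cancel₀ hj0, C_1, one_mul]

/-- **Gauss' lemma** -/
theorem mem_lifts_of_mul_primitive {b : K[X]} {s : A[X]} (hs : s.map (residue A) ≠ 0)
    (h : b * s.map (algebraMap A K) ∈ lifts (algebraMap A K)) : b ∈ lifts (algebraMap A K) := by
  by_cases hb : b = 0
  · rw [hb]; exact Subsemiring.zero_mem _
  obtain ⟨c, b', hc, hb', rfl⟩ := exists_eq_C_mul_primitive (A := A) b hb
  obtain ⟨r, hr⟩ := (mem_lifts _).mp h
  rcases ValuationRing.isInteger_or_isInteger A c with ⟨a, ha⟩ | ⟨a, ha⟩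
  · rw [mem_lifts]
    exact ⟨C a * b', by rw [Polynomial.map_mul, map_C, ha]⟩
  · by_cases hu : IsUnit a
    · obtain ⟨u, rfl⟩ := hu
      rw [mem_lifts]
      refine ⟨C (↑u⁻¹ : A) * b', ?_⟩
      rw [Polynomial.map_mul, map_C]
      congr 2
      have h1 : algebraMap A K (↑u⁻¹ : A) * algebraMap A K (u : A) = 1 := by
        rw [← map_mul, Units.inv_mul, map_one]
      rw [ha] at h1
      exact (eq_of_mul_inv_eq_one h1)
    exfalso
    have hinj := Polynomial.map_injective _ (IsFractionRing.injective A K)
    have h1 : b' * s = C a * r := by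
      apply hinj
      rw [Polynomial.map_mul, Polynomial.map_mul, map_C, ha, hr, ← mul_assoc, ← mul_assoc, ← C_mul,
        inv_mul_cancel₀ hc, C_1, one_mul]
    have ha' : residue A a = 0 := by
      rw [residue_eq_zero_iff, mem_maximalIdeal, mem_nonunits_iff]
      exact hu
    have h2 := congrArg (Polynomial.map (residue A)) h1
    rw [Polynomial.map_mul, Polynomial.map_mul, map_C, ha', C_0, zero_mul] at h2
    exact (mul_ne_zero hb' hs) h2

theorem map_pow_residue_ne_zero {s : A[X]} (hs : s.map (residue A) ≠ 0) (n : ℕ) :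
    (s ^ n).map (residue A) ≠ 0 := by
  rw [Polynomial.map_pow]; exact pow_ne_zero n hs

end Gauss

section FracRing

variable (A K : Type*) [CommRing A] [IsDomain A] [Field K] [Algebra A K] [IsFractionRing A K]
variable (Q : Type*) [Field Q] [Algebra K[X] Q] [IsFractionRing K[X] Q]

/-- `Frac K[X]` is also the fraction field of `A[X]` -/
theorem isFractionRing_polynomial [Algebra A[X] Q]
    (h : algebraMap A[X] Q = (algebraMap K[X] Q).comp (mapRingHom (algebraMap A K))) :
    IsFractionRing A[X] Q := by
  have hinj : Function.Injective (algebraMap A[X] Q) := by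
    rw [h]
    exact (IsFractionRing.injective K[X] Q).comp
      (Polynomial.map_injective _ (IsFractionRing.injective A K))
  have : FaithfulSMul A[X] Q := (faithfulSMul_iff_algebraMap_injective _ _).mpr hinj
  refine IsFractionRing.of_field A[X] Q fun z => ?_
  obtain ⟨f, g, hg, rfl⟩ := IsFractionRing.div_surjective (A := K[X]) z
  obtain ⟨b, hb, hf'⟩ := IsLocalization.integerNormalization_spec (nonZeroDivisors A) f
  obtain ⟨c, hc, hg'⟩ := IsLocalization.integerNormalization_spec (nonZeroDivisors A) g
  set f' := IsLocalization.integerNormalization (nonZeroDivisors A) f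
  set g' := IsLocalization.integerNormalization (nonZeroDivisors A) g
  have hb0 : algebraMap A K b ≠ 0 := by
    rw [Ne, map_eq_zero_iff _ (IsFractionRing.injective A K)]
    exact nonZeroDivisors.ne_zero hb
  have hc0 : algebraMap A K c ≠ 0 := by
    rw [Ne, map_eq_zero_iff _ (IsFractionRing.injective A K)]
    exact nonZeroDivisors.ne_zero hc
  have hCb : algebraMap K[X] Q (C (algebraMap A K b)) ≠ 0 := by
    rw [Ne, map_eq_zero_iff _ (IsFractionRing.injective K[X] Q), C_eq_zero]; exact hb0
  have hCc : algebraMap K[X] Q (C (algebraMap A K c)) ≠ 0 := by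
    rw [Ne, map_eq_zero_iff _ (IsFractionRing.injective K[X] Q), C_eq_zero]; exact hc0
  have hg0 : algebraMap K[X] Q g ≠ 0 := by
    rw [Ne, map_eq_zero_iff _ (IsFractionRing.injective K[X] Q)]
    exact nonZeroDivisors.ne_zero hg
  refine ⟨C c * f', C b * g', ?_⟩
  rw [h]
  simp only [RingHom.comp_apply, coe_mapRingHom, map_C, hf', hg', map_mul,
    Algebra.smul_def, Polynomial.algebraMap_apply]
  field_simp

end FracRing

section Sat

variable (A K : Type*) [CommRing A] [IsDomain A] [ValuationRing A] [Field K] [Algebra A K]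
  [IsFractionRing A K]
variable (E : Type*) [Field E] [Algebra K[X] E] [FaithfulSMul K[X] E]

/-- the structure map `A[X] → K[X] → E` -/
noncomputable def phi : A[X] →+* E := (algebraMap K[X] E).comp (mapRingHom (algebraMap A K))

omit [IsDomain A] [ValuationRing A] [IsFractionRing A K] [FaithfulSMul K[X] E] in
theorem phi_apply (s : A[X]) : phi A K E s = algebraMap K[X] E (s.map (algebraMap A K)) := rfl

variable {A K E}

omit [IsDomain A] [ValuationRing A] [IsFractionRing A K] [FaithfulSMul K[X] E] in
/-- an element integral over `A[X]` is integral over `K[X]` -/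
theorem isIntegral_of_phi {z : E} (hz : (phi A K E).IsIntegralElem z) : IsIntegral K[X] z := by
  obtain ⟨p, hp, hpz⟩ := hz
  refine ⟨p.map (mapRingHom (algebraMap A K)), hp.map _, ?_⟩
  rw [eval₂_map]
  exact hpz

/-- the minimal polynomial over `K[X]` of an element integral over `A[X]` has coefficients in
`A[X]` -/
theorem minpoly_coeff_mem_lifts {z : E} (hz : (phi A K E).IsIntegralElem z) (i : ℕ) :
    (minpoly K[X] z).coeff i ∈ lifts (algebraMap A K) := by
  let _ : Algebra A[X] K[X] := (mapRingHom (algebraMap A K)).toAlgebra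
  let _ : Algebra A[X] E := (phi A K E).toAlgebra
  have : IsScalarTower A[X] K[X] E := .of_algebraMap_eq' rfl
  let Q := FractionRing K[X]
  let _ : Algebra Q E := FractionRing.liftAlgebra K[X] E
  have : IsScalarTower K[X] Q E := FractionRing.isScalarTower_liftAlgebra K[X] E
  have : IsScalarTower A[X] Q E := by
    refine .of_algebraMap_eq fun x => ?_
    rw [IsScalarTower.algebraMap_apply A[X] K[X] Q, ← IsScalarTower.algebraMap_apply K[X] Q E,
      ← IsScalarTower.algebraMap_apply A[X] K[X] E]
  have : IsFractionRing A[X] Q :=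
    isFractionRing_polynomial A K Q (IsScalarTower.algebraMap_eq A[X] K[X] Q)
  have hz' : IsIntegral A[X] z := hz
  have h1 := minpoly.isIntegrallyClosed_eq_field_fractions' Q hz'
  have h2 := minpoly.isIntegrallyClosed_eq_field_fractions' Q (isIntegral_of_phi hz)
  rw [h1] at h2
  have h3 : (minpoly K[X] z) = (minpoly A[X] z).map (mapRingHom (algebraMap A K)) := by
    apply Polynomial.map_injective _ (IsFractionRing.injective K[X] Q)
    rw [← h2, Polynomial.map_map]
    congr 1
  rw [h3, coeff_map, mem_lifts]
  exact ⟨_, rfl⟩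

omit [IsDomain A] [ValuationRing A] [IsFractionRing A K] [FaithfulSMul K[X] E] in
/-- conversely -/
theorem isIntegralElem_of_coeff_mem_lifts {z : E} (hz : IsIntegral K[X] z)
    (h : ∀ i, (minpoly K[X] z).coeff i ∈ lifts (algebraMap A K)) :
    (phi A K E).IsIntegralElem z := by
  have hl : minpoly K[X] z ∈ lifts (mapRingHom (algebraMap A K)) := by
    rw [lifts_iff_coeff_lifts]
    intro i
    obtain ⟨q, hq⟩ := (mem_lifts _).mp (h i)
    exact ⟨q, hq⟩
  obtain ⟨p, hp, -, hmonic⟩ := lifts_and_natDegree_eq_and_monic hl (minpoly.monic hz)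
  refine ⟨p, hmonic, ?_⟩
  have := minpoly.aeval K[X] z
  rw [← hp, aeval_def, eval₂_map] at this
  exact this

/-- **(a) saturation.** If `y` is integral over `K[X]` and `s y` is integral over `A[X]` for a
primitive `s : A[X]`, then `y` is integral over `A[X]`. -/
theorem isIntegralElem_of_primitive_mul {y : E} (hy : IsIntegral K[X] y) {s : A[X]}
    (hs : s.map (residue A) ≠ 0) (hsy : (phi A K E).IsIntegralElem (phi A K E s * y)) :
    (phi A K E).IsIntegralElem y := by
  refine isIntegralElem_of_coeff_mem_lifts hy fun i => ?_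
  have hs0 : s.map (algebraMap A K) ≠ 0 := by
    intro h
    apply hs
    have : s = 0 := Polynomial.map_injective _ (IsFractionRing.injective A K) (by simpa using h)
    rw [this, Polynomial.map_zero]
  have h1 := minpoly_coeff_mem_lifts hsy i
  have h2 : phi A K E s * y = (s.map (algebraMap A K)) • y := by
    rw [Algebra.smul_def, phi_apply]
  rw [h2, IsIntegrallyClosed.minpoly_smul hs0 hy, coeff_scaleRoots, ← Polynomial.map_pow] at h1
  exact mem_lifts_of_mul_primitive (map_pow_residue_ne_zero hs _) h1

end Sat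

end Fermat.Agent.S18.KLGauss
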