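import Fermat.Agent.S18.GlueMain

/-!
# S18 from the Kummer lemma (KL'), conclusion
-/

set_option autoImplicit false
set_option synthInstance.maxHeartbeats 400000

open HahnSeries IntermediateField AlgebraicCurve ModularCurve

noncomputable section

namespace Fermat.Agent.S18

open Fermat.Agent.S24

variable {A : ValuationSubring Kb} {N : ℕ} [NeZero N]

theorem prime_case {ℓ : ℕ} (hKL : KLStatement N ℓ A) (h : ReductionInputsModL A N) (p : ℕ)
    (hp : p.Prime) (hpl : p ≠ ℓ) (z : JZero N) (hpz : p • z = 0)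
    (hz : reductionModL A N z = 0) : z = 0 := by
  obtain ⟨D, rfl⟩ := Pic0.mk_surjective z
  have hr := isPlaceReductionModL_placeReductionModL h
  set r := placeReductionModL h with hrdef
  have hgen : PrincipalGeneratedByIntegral A (IsLocalRing.residue A) N := h.choose_spec.2
  have hp0 : (p : ℤ) ≠ 0 := by exact_mod_cast hp.ne_zero
  -- `p D` is principal
  have h1 : (p • (D : Divisor Kb (FN N))) ∈ Divisor.principal (K := Kb) (F := FN N) := by
    have h0 : Pic0.mk (p • D) = 0 := hpz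
    rw [Pic0.mk, QuotientAddGroup.eq_zero_iff, AddSubgroup.mem_addSubgroupOf] at h0
    simpa using h0
  obtain ⟨y1, y2, hy1, hy2, hy⟩ := exists_good_of_mem_closure _ (hgen h1)
  -- the reduction of `D` is principal
  rw [reductionModL_mk h D] at hz
  have h2 : Finsupp.mapDomain r (D : Divisor Kb (FN N)) ∈
      Divisor.principal (K := kA A) (F := Fk (kA A) N) := by
    rw [Pic0.mk, QuotientAddGroup.eq_zero_iff, AddSubgroup.mem_addSubgroupOf] at hz
    exact hz
  obtain ⟨g, hg0, hg⟩ := h2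
  obtain ⟨G1, G2, hG1, hG2, hG⟩ := exists_good_div g hg0
  have ha := hy1.mul (hG2.pow p)
  have hb := hy2.mul (hG1.pow p)
  have hab : ∀ Q : Place (kA A) (Fk (kA A) N), Q.ord ha.dn = Q.ord hb.dn := by
    intro Q
    rw [Good.dn_mul hy1 (hG2.pow p), Good.dn_mul hy2 (hG1.pow p), Good.dn_pow hG2 p, Good.dn_pow hG1 p,
      Q.ord_mul hy1.dn_ne_zero (pow_ne_zero _ hG2.dn_ne_zero),
      Q.ord_mul hy2.dn_ne_zero (pow_ne_zero _ hG1.dn_ne_zero), ord_pow', ord_pow']
    have e1 : p • (D : Divisor Kb (FN N)) =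
        divF N hy1.up hy1.up_ne_zero - divF N hy2.up hy2.up_ne_zero := by
      ext P
      rw [hy P, Finsupp.sub_apply, divF_apply, divF_apply]
    have e2 : Finsupp.mapDomain r (p • (D : Divisor Kb (FN N))) Q = p * Q.ord g := by
      rw [Finsupp.mapDomain_smul, Finsupp.smul_apply, hg Q, nsmul_eq_mul]
    rw [e1, Finsupp.mapDomain_sub, Finsupp.sub_apply, mapDomain_divF hr hy1,
      mapDomain_divF hr hy2] at e2
    have e3 : Q.ord g + Q.ord hG2.dn = Q.ord hG1.dn := by
      rw [← Q.ord_mul hg0 hG2.dn_ne_zero, hG]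
    rw [← e3]
    linarith
  obtain ⟨c, hc⟩ := exists_const hr ha hb hab
  have hcb : Good A N (HahnSeries.single 0 c * (y2 * G1 ^ p)) :=
    ⟨by rw [map_mul]; exact mul_mem (memF_single c) hb.memF,
      by rw [map_mul]; exact mul_mem (memk_single c) hb.memk, by rw [← hc]; exact ha.ne⟩
  have hcb_up : hcb.up = algebraMap Kb (FN N) (c : Kb) * hb.up := by
    apply Subtype.ext
    show coeffMap A.subtype (HahnSeries.single 0 c * (y2 * G1 ^ p)) =
      algebraMap Kb (LaurentSeries Kb) (c : Kb) * coeffMap A.subtype (y2 * G1 ^ p)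
    rw [map_mul, coeffMap_single, algebraMap_laurentSeries_eq_single]
    rfl
  have hc0 : algebraMap Kb (FN N) (c : Kb) ≠ 0 := by
    intro h0
    apply hcb.up_ne_zero
    rw [hcb_up, h0, zero_mul]
  have hordf : ∀ P : Place Kb (FN N), P.ord (ha.up * hcb.up⁻¹) =
      p * ((D : Divisor Kb (FN N)) P + P.ord hG2.up - P.ord hG1.up) := by
    intro P
    rw [P.ord_mul ha.up_ne_zero (inv_ne_zero hcb.up_ne_zero), P.ord_inv, hcb_up,
      P.ord_mul hc0 hb.up_ne_zero, Diff.ord_algebraMap, Good.up_mul hy1 (hG2.pow p),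
      Good.up_mul hy2 (hG1.pow p), Good.up_pow hG2 p, Good.up_pow hG1 p,
      P.ord_mul hy1.up_ne_zero (pow_ne_zero _ hG2.up_ne_zero),
      P.ord_mul hy2.up_ne_zero (pow_ne_zero _ hG1.up_ne_zero), ord_pow', ord_pow']
    have := hy P
    rw [Finsupp.smul_apply, nsmul_eq_mul] at this
    linarith
  obtain ⟨w, hw⟩ := hKL p hp hpl (ha.up * hcb.up⁻¹)
    (mul_ne_zero ha.up_ne_zero (inv_ne_zero hcb.up_ne_zero))
    (fun P => ⟨_, hordf P⟩) _ _ ha.memF hcb.memF
    (by
      have : ha.up * hcb.up⁻¹ * hcb.up = ha.up := by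
        rw [mul_assoc, inv_mul_cancel₀ hcb.up_ne_zero, mul_one]
      exact congrArg Subtype.val this)
    hc hcb.ne
  have hw0 : w ≠ 0 := by
    rintro rfl
    rw [zero_pow hp.ne_zero] at hw
    exact (mul_ne_zero ha.up_ne_zero (inv_ne_zero hcb.up_ne_zero)) hw.symm
  -- conclusion
  rw [Pic0.mk, QuotientAddGroup.eq_zero_iff, AddSubgroup.mem_addSubgroupOf]
  refine ⟨w * hG1.up * hG2.up⁻¹,
    mul_ne_zero (mul_ne_zero hw0 hG1.up_ne_zero) (inv_ne_zero hG2.up_ne_zero), fun P => ?_⟩
  rw [P.ord_mul (mul_ne_zero hw0 hG1.up_ne_zero) (inv_ne_zero hG2.up_ne_zero),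
    P.ord_mul hw0 hG1.up_ne_zero, P.ord_inv]
  have h3 := hordf P
  rw [← hw, ord_pow'] at h3
  have h4 := mul_left_cancel₀ hp0 h3
  linarith

theorem result_of_KL {ℓ : ℕ} (hKL : KLStatement N ℓ A) (h : ReductionInputsModL A N) :
    ∀ m : ℕ, ¬ ℓ ∣ m → ∀ z : JZero N, m • z = 0 → reductionModL A N z = 0 → z = 0 := by
  intro m
  induction m using Nat.strong_induction_on with
  | _ m ih =>
    intro hm z hmz hz
    rcases Nat.lt_or_ge m 2 with h2 | h2
    · interval_cases m
      · exact absurd (dvd_zero ℓ) hm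
      · simpa using hmz
    · obtain ⟨p, hp, m', rfl⟩ := Nat.exists_prime_and_dvd (show m ≠ 1 by omega)
      have hpl : p ≠ ℓ := by
        rintro rfl
        exact hm (dvd_mul_right _ _)
      have hm' : ¬ ℓ ∣ m' := fun hd => hm (dvd_mul_of_dvd_right hd _)
      have h3 : m' • z = 0 := prime_case hKL h p hp hpl (m' • z)
        (by rw [smul_smul]; exact hmz) (by rw [map_nsmul, hz, smul_zero])
      have hm0 : 0 < m' := by
        rcases Nat.eq_zero_or_pos m' with rfl | h0
        · exact absurd (dvd_zero ℓ) hm'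
        · exact h0
      exact ih m' (by nlinarith [hp.two_le]) hm' z h3 hz

end Fermat.Agent.S18
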