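import Fermat.Agent.S18.ModInputStub
import Fermat.Agent.S18.GlueFinal

/-!
# S18 : `KLStatement` (helper27)
-/

set_option autoImplicit false
set_option synthInstance.maxHeartbeats 400000

namespace Fermat.Agent.S18

open Fermat.Agent.S24

theorem exists_aux_level {ℓ p : ℕ} (hℓ : ℓ.Prime) (hp : p.Prime) (hpℓ : p ≠ ℓ) :
    ∃ r : ℕ, (r = 2 ∨ r = 3) ∧ r ≠ ℓ ∧ ¬ p ∣ r + 1 := by
  by_cases h2 : ℓ = 2
  · subst h2
    refine ⟨3, Or.inr rfl, by norm_num, fun h => ?_⟩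
    have h4 : p ∣ 2 ^ 2 := by simpa using h
    exact hpℓ ((Nat.prime_dvd_prime_iff_eq hp Nat.prime_two).mp (hp.dvd_of_dvd_pow h4))
  · by_cases hp3 : p = 3
    · subst hp3
      exact ⟨3, Or.inr rfl, hpℓ, by norm_num⟩
    · refine ⟨2, Or.inl rfl, fun h => h2 h.symm, fun h => ?_⟩
      exact hp3 ((Nat.prime_dvd_prime_iff_eq hp Nat.prime_three).mp (by simpa using h))

theorem KL (N : ℕ) [NeZero N] {ℓ : ℕ} (hℓ : ℓ.Prime) (hℓN : ¬ ℓ ∣ N) (A : ValuationSubring Kb)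
    (hA : A.LiesOverPrime ℓ) : KLStatement N ℓ A := by
  intro p hp hpℓ f hf hdiv y1 y2 h1 h2 hmul hred hne
  obtain ⟨r, hr, hrℓ, hpr⟩ := exists_aux_level hℓ hp hpℓ
  have hrp : r.Prime := by
    rcases hr with rfl | rfl
    · exact Nat.prime_two
    · exact Nat.prime_three
  haveI : NeZero (Nat.lcm N r) := ⟨Nat.lcm_ne_zero (NeZero.ne N) hrp.ne_zero⟩
  have hℓM : ¬ ℓ ∣ Nat.lcm N r := by
    intro h
    have h1 : ℓ ∣ N * r := h.trans (Nat.lcm_dvd_mul N r)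
    rcases (Nat.Prime.dvd_mul hℓ).mp h1 with h2 | h2
    · exact hℓN h2
    · exact hrℓ ((Nat.prime_dvd_prime_iff_eq hℓ hrp).mp h2).symm
  obtain ⟨I⟩ := exists_modInput (Nat.lcm N r) r hr (Nat.dvd_lcm_right N r) hℓ hℓM A hA
  exact KL_of_modInput hℓ A hA hrp I p hp hpℓ hpr f hf hdiv y1 y2 h1 h2 hmul hred hne

end Fermat.Agent.S18
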