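import Mathlib
import Fermat.Prelude.Def_FLTPrelim_Ramification

/-!
# S18/M-I (Arch): a valuation subring of `ℚ̄` over a prime `l` has rank one

`∀ b ∈ 𝔪_A, ∀ c ≠ 0, ∃ n, c ∣ b ^ n`.
-/

set_option autoImplicit false

open Polynomial

namespace Fermat.Agent.S18.Arch

local notation "Qbar" => AlgebraicClosure ℚ

variable (A : ValuationSubring Qbar) {l : ℕ}

theorem natCast_mem_maximalIdeal (hA : A.LiesOverPrime l) :
    (l : A) ∈ IsLocalRing.maximalIdeal A := by
  obtain ⟨h1, h2⟩ := (ValuationSubring.mem_nonunits_iff_exists_mem_maximalIdeal).mp hA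
  convert h2 using 1
  exact Subtype.ext (by simp)

/-- integers prime to `l` are units of `A` -/
theorem isUnit_intCast (hl : l.Prime) (hA : A.LiesOverPrime l) {m : ℤ} (hm : ¬ (l : ℤ) ∣ m) :
    IsUnit (m : A) := by
  by_contra hu
  have h1 : (m : A) ∈ IsLocalRing.maximalIdeal A := hu
  have h2 := natCast_mem_maximalIdeal A hA
  have hcop : IsCoprime (l : ℤ) m :=
    (Nat.prime_iff_prime_int.mp hl).coprime_iff_not_dvd.mpr hm
  obtain ⟨u, w, huw⟩ := hcop
  have h3 : (1 : A) ∈ IsLocalRing.maximalIdeal A := by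
    have : (1 : A) = (u : A) * (l : A) + (w : A) * (m : A) := by
      have := congrArg (Int.cast : ℤ → A) huw
      push_cast at this
      exact this.symm
    rw [this]
    exact Ideal.add_mem _ (Ideal.mul_mem_left _ _ h2) (Ideal.mul_mem_left _ _ h1)
  exact (Ideal.ne_top_iff_one _).mp (IsLocalRing.maximalIdeal.isMaximal A).ne_top h3

theorem exists_int_poly (x : A) : ∃ p : ℤ[X], p ≠ 0 ∧ aeval x p = 0 := by
  have halg : IsAlgebraic ℚ (x : Qbar) := (AlgebraicClosure.isAlgebraic ℚ).isAlgebraic _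
  have halg' : IsAlgebraic ℤ (x : Qbar) := (IsFractionRing.isAlgebraic_iff ℤ ℚ Qbar).mpr halg
  obtain ⟨p, hp, h0⟩ := halg'
  refine ⟨p, hp, Subtype.ext ?_⟩
  have : ((aeval x p : A) : Qbar) = aeval (x : Qbar) p := by
    have := Polynomial.aeval_algebraMap_apply Qbar x p
    exact this.symm
  rw [this, h0]
  rfl

/-- every nonzero element of `A` divides a nonzero integer -/
theorem exists_int_dvd {c : A} (hc : c ≠ 0) : ∃ a : ℤ, a ≠ 0 ∧ c ∣ (a : A) := by
  obtain ⟨p, hp, h0⟩ := exists_int_poly A c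
  obtain ⟨q, hq, hX⟩ := exists_eq_pow_rootMultiplicity_mul_and_not_dvd p hp 0
  rw [C_0, sub_zero] at hq hX
  rw [X_dvd_iff] at hX
  rw [hq, map_mul, map_pow, aeval_X] at h0
  have h1 : aeval c q = 0 := (mul_eq_zero.mp h0).resolve_left (pow_ne_zero _ hc)
  refine ⟨q.coeff 0, hX, ?_⟩
  rw [← divX_mul_X_add q, map_add, map_mul, aeval_X, aeval_C] at h1
  have h2 : ((q.coeff 0 : ℤ) : A) = - (aeval c q.divX * c) := by
    have : algebraMap ℤ A (q.coeff 0) = ((q.coeff 0 : ℤ) : A) := rfl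
    rw [this] at h1
    exact eq_neg_of_add_eq_zero_right h1
  rw [h2]
  exact (dvd_mul_left c _).neg_right

/-- every nonzero element of `A` divides a power of `l` -/
theorem exists_dvd_pow (hl : l.Prime) (hA : A.LiesOverPrime l) {c : A} (hc : c ≠ 0) :
    ∃ s : ℕ, c ∣ (l : A) ^ s := by
  obtain ⟨a, ha, hca⟩ := exists_int_dvd A hc
  have hl' : Prime (l : ℤ) := Nat.prime_iff_prime_int.mp hl
  obtain ⟨s, m, hm, rfl⟩ := WfDvdMonoid.max_power_factor ha hl'.irreducible
  refine ⟨s, ?_⟩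
  have hu := isUnit_intCast A hl hA hm
  push_cast at hca
  exact (hu.dvd_mul_right).mp hca

/-- `l` divides a power of every element of the maximal ideal -/
theorem exists_dvd_pow' (hl : l.Prime) (hA : A.LiesOverPrime l) {b : A}
    (hb : b ∈ IsLocalRing.maximalIdeal A) : ∃ k : ℕ, (l : A) ∣ b ^ k := by
  have : Fact l.Prime := ⟨hl⟩
  obtain ⟨p, hp, h0⟩ := exists_int_poly A b
  -- make `p` primitive
  have hprim := p.isPrimitive_primPart
  have h0' : aeval b p.primPart = 0 := by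
    have h1 := p.eq_C_content_mul_primPart
    rw [h1, map_mul, aeval_C] at h0
    refine (mul_eq_zero.mp h0).resolve_left ?_
    have : algebraMap ℤ A p.content = ((p.content : ℤ) : A) := rfl
    rw [this]
    exact_mod_cast (content_eq_zero_iff.not.mpr hp)
  set P := p.primPart with hP
  have hPbar : P.map (Int.castRingHom (ZMod l)) ≠ 0 := by
    intro h
    have h1 : C (l : ℤ) ∣ P := by
      rw [C_dvd_iff_dvd_coeff]
      intro i
      have := congrArg (fun f ↦ f.coeff i) h
      simp only [coeff_map, coeff_zero, eq_intCast] at this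
      exact (ZMod.intCast_zmod_eq_zero_iff_dvd _ _).mp this
    have h2 := hprim (l : ℤ) h1
    exact (Nat.prime_iff_prime_int.mp hl).not_isUnit h2
  obtain ⟨gbar, hg, hX⟩ := exists_eq_pow_rootMultiplicity_mul_and_not_dvd _ hPbar 0
  rw [C_0, sub_zero] at hg hX
  rw [X_dvd_iff] at hX
  set k := rootMultiplicity 0 (P.map (Int.castRingHom (ZMod l))) with hk
  obtain ⟨g, rfl⟩ := map_surjective (Int.castRingHom (ZMod l)) (ZMod.ringHom_surjective _) gbar
  have hdiff : C (l : ℤ) ∣ P - X ^ k * g := by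
    rw [C_dvd_iff_dvd_coeff]
    intro i
    have h1 : (P - X ^ k * g).map (Int.castRingHom (ZMod l)) = 0 := by
      rw [Polynomial.map_sub, hg, Polynomial.map_mul, Polynomial.map_pow, map_X, sub_self]
    have := congrArg (fun f ↦ f.coeff i) h1
    simp only [coeff_map, coeff_zero, eq_intCast] at this
    exact (ZMod.intCast_zmod_eq_zero_iff_dvd _ _).mp this
  obtain ⟨h, hh⟩ := hdiff
  have hg0 : ¬ (l : ℤ) ∣ g.coeff 0 := by
    intro hd
    apply hX
    rw [coeff_map, eq_intCast]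
    exact (ZMod.intCast_zmod_eq_zero_iff_dvd _ _).mpr hd
  have hgu : IsUnit (aeval b g) := by
    by_contra hu
    have h1 : aeval b g ∈ IsLocalRing.maximalIdeal A := hu
    rw [← divX_mul_X_add g, map_add, map_mul, aeval_X, aeval_C] at h1
    have h2 : algebraMap ℤ A (g.coeff 0) ∈ IsLocalRing.maximalIdeal A :=
      (Ideal.add_mem_iff_right _ (Ideal.mul_mem_left _ _ hb)).mp h1
    exact h2 (isUnit_intCast A hl hA hg0)
  have h3 : aeval b (P - X ^ k * g) = aeval b (C (l : ℤ) * h) := by rw [hh]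
  rw [map_sub, h0', map_mul, map_pow, aeval_X, map_mul, aeval_C, zero_sub] at h3
  refine ⟨k, ?_⟩
  have h4 : (l : A) ∣ b ^ k * aeval b g := by
    refine ⟨- aeval b h, ?_⟩
    have : algebraMap ℤ A (l : ℤ) = (l : A) := by simp
    rw [this] at h3
    rw [mul_neg, ← h3, neg_neg]
  exact (hgu.dvd_mul_right).mp h4

/-- **Arch**: `A` has rank one. -/
theorem arch (hl : l.Prime) (hA : A.LiesOverPrime l) :
    ∀ b ∈ IsLocalRing.maximalIdeal A, ∀ c : A, c ≠ 0 → ∃ n : ℕ, c ∣ b ^ n := by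
  intro b hb c hc
  obtain ⟨s, hs⟩ := exists_dvd_pow A hl hA hc
  obtain ⟨k, hk⟩ := exists_dvd_pow' A hl hA hb
  exact ⟨k * s, hs.trans (by rw [pow_mul]; exact pow_dvd_pow_of_dvd hk s)⟩

end Fermat.Agent.S18.Arch
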