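import Fermat.Agent.S18.BranchRel
import Fermat.Agent.S18.Z.Defs

set_option autoImplicit false

open UpperHalfPlane ModularForm ModularCurve Polynomial WithZero AlgebraicCurve
open scoped MatrixGroups Real

noncomputable section

namespace Fermat.Agent.S18.Branch

open Fermat.Agent.S24 Fermat.Agent.S28

variable {M : ℕ} [NeZero M] {r : ℕ}

theorem ord_eq_one (hr : r = 2 ∨ r = 3) (hrM : r ∣ M) (H : Haupt M r) (c0 : Kb)
    (hS : ∀ x : QN r, ModularGroup.S • x = x → evPt I (tO H x) = kappa c0)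
    (hU : ∀ x : QN r, (ModularGroup.S * ModularGroup.T) • x = x →
      evPt rho (tO H x) = kappa c0)
    (t : FN M) (ht : iota M t = algebraMap Hol Mer (H.tA : Hol))
    (P : Place Kb (FN M)) (c : Kb) (hc : c ≠ 0) (hc0 : c ≠ c0)
    (hP : 0 < P.ord (t - algebraMap Kb (FN M) c)) :
    P.ord (t - algebraMap Kb (FN M) c) = 1 := by
  have hr0 : r ≠ 0 := by rcases hr with rfl | rfl <;> norm_num
  have : NeZero r := ⟨hr0⟩
  have := finite_QN r
  have := Fintype.ofFinite (QN r)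
  have hcard : Fintype.card (QN r) = r + 1 := by
    rw [← Nat.card_eq_fintype_card, card_QN]
    rcases hr with rfl | rfl
    · exact dedekindPsi_two
    · exact dedekindPsi_three
  obtain ⟨P', hrel⟩ := exists_rel_FN H hrM t ht
  set j0 := P'.eval c / c ^ r with hj0
  have htr := transcendental_sub_const (jN M) j0 (transcendental_jN M)
  have hj : 0 < P.ord (jN M - algebraMap Kb (FN M) j0) :=
    ord_sub_pos_of_rel P (jN M) t r P' hrel c hc hP (fun h => htr (h ▸ isAlgebraic_zero))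
  obtain ⟨τ, hτ, hcase⟩ : ∃ τ : ℍ, (jH : ℍ → ℂ) τ = kappa j0 ∧
      (((jH : ℍ → ℂ) τ ≠ 0 ∧ (jH : ℍ → ℂ) τ ≠ 1728) ∨ τ = I ∨ τ = rho) := by
    by_cases h0 : j0 = 0
    · exact ⟨rho, by rw [jH_rho, h0, map_zero], Or.inr (Or.inr rfl)⟩
    by_cases h1 : j0 = 1728
    · exact ⟨I, by rw [jH_I, h1, map_ofNat], Or.inr (Or.inl rfl)⟩
    obtain ⟨τ, hτ⟩ := exists_jH_eq (kappa j0)
    refine ⟨τ, hτ, Or.inl ⟨?_, ?_⟩⟩
    · rw [hτ]; exact (map_ne_zero kappa).mpr h0
    · rw [hτ]
      intro h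
      apply h1
      apply kappa.injective
      rw [h, map_ofNat]
  have hlt : holVal τ (jH - algebraMap ℂ Hol (kappa j0)) < 1 := by
    refine lt_of_le_of_ne (holVal_le_one τ _) fun h1 => ?_
    rw [holVal_eq_one_iff] at h1
    apply h1
    show (jH : ℍ → ℂ) τ - kappa j0 = 0
    rw [hτ, sub_self]
  obtain ⟨q, hq⟩ := exists_embedding (jN M - algebraMap Kb (FN M) j0) htr
    (finiteDimensional_sub M j0) (ordAt τ) (sigma M) (sigma_injective M) (finrank_sub M j0).symm
    (fun i j a => by rw [sigma_algebraMap, sigma_algebraMap])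
    (fun i j => by rw [sigma_jN_sub, sigma_jN_sub])
    (fun i a => by rw [sigma_algebraMap]; exact ordAt_const _ _)
    (fun i => by rw [sigma_jN_sub, ordAt_algebraMap]; exact hlt) P hj
  set x : QN r := (q.out : QN r) with hx
  have hsig : sigma M q (t - algebraMap Kb (FN M) c) =
      algebraMap Hol Mer (((tO H x : AL M) : Hol) - algebraMap ℂ Hol (kappa c)) := by
    rw [RingHom.map_sub, sigma_algebraMap, sigma_apply, ht, merAct_algebraMap, RingHom.map_sub,
      ← IsScalarTower.algebraMap_apply ℂ Hol Mer, hx, tO_mk]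
    rfl
  obtain ⟨ϖ, hϖ⟩ := IsDiscreteValuationRing.exists_irreducible P.toValuationSubring
  have hne : t - algebraMap Kb (FN M) c ≠ 0 := by
    intro h
    rw [h, Place.ord_zero] at hP
    exact lt_irrefl _ hP
  have hlog := log_val_eq P ((ordAt τ).comap (sigma M q)) hq hϖ hne
  have hneg := log_val_irreducible_neg P ((ordAt τ).comap (sigma M q)) hq hϖ
  rw [Valuation.comap_apply, hsig, ordAt_algebraMap] at hlog
  have hval : evPt τ (tO H x) = kappa c := by
    by_contra hcon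
    have h1 : holVal τ (((tO H x : AL M) : Hol) - algebraMap ℂ Hol (kappa c)) = 1 := by
      rw [holVal_eq_one_iff]
      exact sub_ne_zero.mpr hcon
    rw [h1, log_one] at hlog
    have := mul_neg_of_pos_of_neg hP hneg
    omega
  rw [← hval] at hlog
  have hone : holVal τ (((tO H x : AL M) : Hol) - algebraMap ℂ Hol (evPt τ (tO H x))) =
      exp (-1 : ℤ) := by
    rcases hcase with ⟨h0, h1⟩ | rfl | rfl
    · exact holVal_generic hr0 hcard H hrM τ h0 h1 x
    · refine holVal_I hr0 hcard H hrM x fun hfix => hc0 (kappa.injective ?_)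
      rw [← hval, hS x hfix]
    · refine holVal_rho hr0 hcard H hrM x fun hfix => hc0 (kappa.injective ?_)
      rw [← hval, hU x hfix]
  rw [hone, log_exp] at hlog
  have hdvd : P.ord (t - algebraMap Kb (FN M) c) ∣ 1 :=
    ⟨-log (((ordAt τ).comap (sigma M q)) (ϖ : FN M)), by linarith⟩
  exact Int.eq_one_of_dvd_one hP.le hdvd

/-- **S18/M-G** : `(Br)` and the branch value `c0`. -/
theorem exists_c0 (hr : r = 2 ∨ r = 3) (hrM : r ∣ M) (H : Haupt M r) :
    ∃ c0 c0' : Kb, IsIntegral ℤ c0 ∧ IsIntegral ℤ c0' ∧ c0 * c0' = (r : Kb) ^ H.e ∧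
      ∀ t : FN M, iota M t = algebraMap Hol Mer (H.tA : Hol) →
        ∀ (P : Place Kb (FN M)) (c : Kb), c ≠ 0 → c ≠ c0 →
          0 < P.ord (t - algebraMap Kb (FN M) c) → P.ord (t - algebraMap Kb (FN M) c) = 1 := by
  obtain ⟨τ0, x0, hτ0, hS, hU⟩ := exists_exceptional hr H
  have hint : IsIntegral ℤ ((jH : ℍ → ℂ) τ0) := by
    rcases hτ0 with rfl | rfl
    · rw [jH_I]
      have : (1728 : ℂ) = algebraMap ℤ ℂ 1728 := by simp
      rw [this]
      exact isIntegral_algebraMap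
    · rw [jH_rho]; exact isIntegral_zero
  obtain ⟨c0, hc0, hi0⟩ := exists_kappa_eq _ (isIntegral_evPt (tO H x0) τ0 hint)
  obtain ⟨c0', hc0', hi0'⟩ := exists_kappa_eq _ (isIntegral_evPt (x0.out • H.tA') τ0 hint)
  refine ⟨c0, c0', hi0, hi0', kappa.injective ?_, fun t ht P c hc hcc hP =>
    ord_eq_one hr hrM H c0 (fun x hx => by rw [hc0]; exact hS x hx)
      (fun x hx => by rw [hc0]; exact hU x hx) t ht P c hc hcc hP⟩
  rw [map_mul, hc0, hc0', evPt_tO_mul, map_pow, map_natCast]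


/-- integral elements lie in every valuation subring -/
theorem mem_of_isIntegral (A : ValuationSubring Kb) {a : Kb} (ha : IsIntegral ℤ a) : a ∈ A :=
  mem_valuationSubring_of_isIntegral (A := ℤ) A (fun n => by
    rw [eq_intCast]; exact intCast_mem A n) ha

/-- `c0` is a unit of every valuation subring in which `r` is invertible. -/
theorem isUnit_of_mul_eq (hr : r ≠ 0) (A : ValuationSubring Kb) {c0 c0' : Kb}
    (h0 : IsIntegral ℤ c0)
    (h0' : IsIntegral ℤ c0') (e : ℕ) (hmul : c0 * c0' = (r : Kb) ^ e) (hrA : ((r : Kb))⁻¹ ∈ A) :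
    IsUnit (⟨c0, mem_of_isIntegral A h0⟩ : A) := by
  have hr0 : (r : Kb) ≠ 0 := by exact_mod_cast hr
  refine IsUnit.of_mul_eq_one (⟨c0', mem_of_isIntegral A h0'⟩ * ⟨_, hrA⟩ ^ e) (Subtype.ext ?_)
  show c0 * (c0' * ((r : Kb))⁻¹ ^ e) = 1
  rw [← mul_assoc, hmul, inv_pow, mul_inv_cancel₀ (pow_ne_zero e hr0)]

open scoped IntermediateField in
/-- **S18/M-G**, in the form used by Theorem Z. -/
theorem exists_unit_Br (hr : r = 2 ∨ r = 3) (hrM : r ∣ M) (H : Haupt M r)
    (A : ValuationSubring Kb) (hrA : ((r : Kb))⁻¹ ∈ A) (t : FN M)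
    (ht : iota M t = algebraMap Hol Mer (H.tA : Hol)) :
    ∃ c0 : A, IsUnit c0 ∧
      KL.Br Kb (IntermediateField.AdjoinSimple.gen Kb t) (FN M) (c0 : Kb) := by
  obtain ⟨c0, c0', h0, h0', hmul, hbr⟩ := exists_c0 hr hrM H
  have hr0 : r ≠ 0 := by rcases hr with rfl | rfl <;> norm_num
  refine ⟨⟨c0, mem_of_isIntegral A h0⟩, isUnit_of_mul_eq hr0 A h0 h0' H.e hmul hrA, ?_⟩
  intro P c hc hcc hP
  rw [IntermediateField.AdjoinSimple.algebraMap_gen] at hP ⊢
  exact hbr t ht P c hc hcc hP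

end Fermat.Agent.S18.Branch
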