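import Fermat.Agent.S28.Key

/-!
# S18 / (KL), modular input: interface for the Hauptmodul of `Γ₀(r)`, `r ∈ {2, 3}`

`Haupt M r` packages what the pieces M-D, M-E, M-F, M-G, M-H of helper27's plan (#319) use about
`t_r = (η(z)/η(rz))^(24/(r-1))`, seen inside `S28.AL M` (`r ∣ M`).  It is instantiated in
`Fermat/Agent/S18/Haupt.lean` (M-B/M-C).
-/

set_option autoImplicit false

open UpperHalfPlane ModularForm EisensteinSeries ModularCurve Polynomial
open scoped MatrixGroups Manifold Real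

noncomputable section

namespace Fermat.Agent.S18

open Fermat.Agent.S24 Fermat.Agent.S28

/-- Hauptmodul data for `Γ₀(r)` inside `AL M`. -/
structure Haupt (M r : ℕ) [NeZero M] where
  /-- the Hauptmodul `t_r = q⁻¹ + ⋯` -/
  tA : AL M
  /-- `r ^ e / t_r` -/
  tA' : AL M
  /-- `e = 12 / (r - 1)` -/
  e : ℕ
  mul_eq : tA * tA' = cA M ((r : Zb) ^ e)
  /-- invariance under `Γ₀(r)` -/
  smul_tA : ∀ g : SL(2, ℤ), (r : ℤ) ∣ g 1 0 → g • tA = tA
  /-- the expansion at `∞` (in `q_M = q^(1/M)`) is `q⁻¹ + ⋯` -/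
  coeff_eps : (eps M tA).coeff (-(M : ℤ)) = 1
  coeff_eps_lt : ∀ n : ℤ, n < -(M : ℤ) → (eps M tA).coeff n = 0
  /-- `t_r` vanishes at the other cusp -/
  coeff_eps_smul : ∀ g : SL(2, ℤ), ¬ (r : ℤ) ∣ g 1 0 → ∀ n : ℤ, n ≤ 0 →
    (eps M (g • tA)).coeff n = 0

end Fermat.Agent.S18
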