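import Fermat.Agent.S18.HauptInv
import Fermat.Agent.S18.HauptDef

/-!
# S18/M-B + M-C : the Hauptmodul `t_r` of `Γ₀(r)`, `r ∈ {2, 3}`

`t_r = q⁻¹ (∏ (1 - qⁿ) / ∏ (1 - q^{rn})) ^ (24 / (r - 1))`, so `t_r ^ (r - 1) = Δ(z) / Δ(r z)`.

* `tq R r`, `tqInv R r` : the Laurent series `t_r`, `1 / t_r` over any commutative ring `R`
  (file `HauptSer.lean`);
* `tA M r hr hrM`, `tA' M r hr hrM : S28.AL M` : the functions `t_r` and `r ^ (12 / (r - 1)) / t_r`;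
* `haupt M r hr hrM : Haupt M r` : the interface structure of `HauptDef.lean`.

Proof of the invariance under `Γ₀(r)` (file `HauptInv.lean`): `t_r` is `1`-periodic,
`t_r(-1/(r z)) t_r(z) = ± r^(12/(r-1))` (its `(r-1)`-th power is `r^12`, and `Hol` is a domain), hence
`t_r` is invariant under `[[1,0],[r k,1]]`; these matrices, `T` and `-1` generate `Γ₀(r)` for `r ≤ 3`
(Euclid with balanced remainders).  For `g ∉ Γ₀(r)`: `g = γ S T^b`, `γ ∈ Γ₀(r)`, so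
`t_r(g z) = ± r^(12/(r-1)) / t_r((z+b)/r)`.
-/

set_option autoImplicit false

open UpperHalfPlane ModularForm EisensteinSeries ModularCurve
open scoped MatrixGroups Manifold Real

noncomputable section

namespace Fermat.Agent.S18

open Fermat.Agent.S24 Fermat.Agent.S28 HauptAux

/-- `t_r` as a holomorphic function -/
def tH (r : ℕ) [NeZero r] : Hol := ⟨tFun r, mdiff_tFun r⟩

/-- `r ^ (12 / (r - 1)) / t_r` as a holomorphic function -/
def tH' (r : ℕ) [NeZero r] : Hol :=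
  ⟨fun τ => (((cE r : ℕ) : Zb) : ℂ) * tInv r τ, (mdifferentiable_const).mul (mdiff_tInv r)⟩

variable (M : ℕ) [NeZero M] (r : ℕ) [NeZero r]

namespace HauptAux

theorem inv_10 (g : SL(2, ℤ)) : g⁻¹ 1 0 = - g 1 0 := by
  rw [Matrix.SpecialLinearGroup.SL2_inv_expl]; simp

theorem coe_cE : (((cE r : ℕ) : Zb) : ℂ) = (cE r : ℂ) := by simp

theorem holAct_tH (hr : r = 2 ∨ r = 3) (g : SL(2, ℤ)) (hg : (r : ℤ) ∣ g 1 0) :
    holAct g (tH r) = tH r := by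
  apply Subtype.ext
  funext τ
  exact tFun_smul_of_dvd r hr g⁻¹ (by rw [inv_10]; exact (dvd_neg).mpr hg) τ

theorem holAct_tH' (hr : r = 2 ∨ r = 3) (g : SL(2, ℤ)) (hg : (r : ℤ) ∣ g 1 0) :
    holAct g (tH' r) = tH' r := by
  apply Subtype.ext
  funext τ
  show (((cE r : ℕ) : Zb) : ℂ) * tInv r (g⁻¹ • τ) = (((cE r : ℕ) : Zb) : ℂ) * tInv r τ
  rw [tInv_smul_of_dvd r hr g⁻¹ (by rw [inv_10]; exact (dvd_neg).mpr hg) τ]

theorem rel_tH : Rel M (tH r : ℍ → ℂ) (qExpand Zb M (tq Zb r)) := rel_level M (rel_tFun r)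

theorem rel_tH' : Rel M (tH' r : ℍ → ℂ)
    (HahnSeries.C ((cE r : ℕ) : Zb) * qExpand Zb M (tqInv Zb r)) :=
  (Rel.const M ((cE r : ℕ) : Zb)).mul (rel_level M (rel_tInv r))

/-- expansions of `F((z + b) / r)` -/
theorem rel_aff {F : ℍ → ℂ} {s : LaurentSeries Zb} (h : Rel 1 F s) (hrM : r ∣ M) (b : ℤ) (a : ℤ)
    (ha : ∀ n < a, s.coeff n = 0) :
    ∃ s' : LaurentSeries Zb, Rel M (F ∘ aff 1 r b one_pos (r_pos r)) s' ∧
      ∀ n : ℤ, n * r < a * M → s'.coeff n = 0 := by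
  obtain ⟨e, he⟩ := hrM
  obtain ⟨s', hs', h1, h2⟩ := Rel.affine (N := M) h 1 r b one_pos (r_pos r) e (by rw [he]; ring)
  refine ⟨s', hs', fun n hn => ?_⟩
  have hr0 : (0 : ℤ) < r := by exact_mod_cast r_pos r
  have he0 : (0 : ℤ) < e := by
    have : 0 < e := by
      rcases Nat.eq_zero_or_pos e with h | h
      · exact absurd (by rw [he, h, mul_zero]) (NeZero.ne M)
      · exact h
    exact_mod_cast this
  by_cases hd : (e : ℤ) ∣ n
  · obtain ⟨m, rfl⟩ := hd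
    have hm : m < a := by
      rw [he] at hn
      push_cast at hn
      have h3 : (r * e : ℤ) * m < (r * e : ℤ) * a := by linarith
      exact lt_of_mul_lt_mul_left h3 (mul_pos hr0 he0).le
    apply Subtype.ext
    rw [h1 m, ha m hm]
    simp
  · exact h2 n hd

/-- the sign as an element of `Zb` -/
theorem coe_intZb (s : ℤ) : (((s : ℤ) : Zb) : ℂ) = (s : ℂ) := by simp

theorem exists_rel_tH (hr : r = 2 ∨ r = 3) (hrM : r ∣ M) (g : SL(2, ℤ)) (hg : ¬ (r : ℤ) ∣ g 1 0) :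
    (∃ s : LaurentSeries Zb, Rel M (holAct g (tH r) : ℍ → ℂ) s ∧
      ∀ n : ℤ, n * r < M → s.coeff n = 0) ∧
    ∃ s : LaurentSeries Zb, Rel M (holAct g (tH' r) : ℍ → ℂ) s ∧
      ∀ n : ℤ, n * r < -(M : ℤ) → s.coeff n = 0 := by
  obtain ⟨s, -, hs⟩ := exists_tFun_smul r hr
  obtain ⟨b, hb⟩ := hs g⁻¹ (by rw [inv_10]; exact fun h => hg ((dvd_neg).mp h))
  constructor
  · obtain ⟨s', hs', h1⟩ := rel_aff M r (rel_tInv r) hrM b 1 (fun n hn => coeff_tqInv_of_lt Zb r hn)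
    refine ⟨HahnSeries.C (((s : ℤ) : Zb) * ((cE r : ℕ) : Zb)) * s', ?_, fun n hn => ?_⟩
    · have := (Rel.const M (((s : ℤ) : Zb) * ((cE r : ℕ) : Zb))).mul hs'
      convert this using 1
      funext τ
      show tFun r (g⁻¹ • τ) = ((((s : ℤ) : Zb) * ((cE r : ℕ) : Zb) : Zb) : ℂ) * tInv r _
      rw [(hb τ).1]
      simp
    · rw [HahnSeries.C_mul_eq_smul, HahnSeries.coeff_smul, h1 n (by simpa using hn), smul_zero]
  · obtain ⟨s', hs', h1⟩ := rel_aff M r (rel_tFun r) hrM b (-1)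
      (fun n hn => coeff_tq_of_lt Zb r hn)
    refine ⟨HahnSeries.C ((s : ℤ) : Zb) * s', ?_, fun n hn => ?_⟩
    · have := (Rel.const M ((s : ℤ) : Zb)).mul hs'
      convert this using 1
      funext τ
      show (((cE r : ℕ) : Zb) : ℂ) * tInv r (g⁻¹ • τ) = ((((s : ℤ) : Zb) : Zb) : ℂ) * tFun r _
      rw [coe_cE, (hb τ).2]
      simp
    · rw [HahnSeries.C_mul_eq_smul, HahnSeries.coeff_smul, h1 n (by simpa using hn), smul_zero]

theorem dvd_of_mem_Gamma (hrM : r ∣ M) {γ : SL(2, ℤ)} (hγ : γ ∈ CongruenceSubgroup.Gamma M) :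
    (r : ℤ) ∣ γ 1 0 := by
  have h1 := (CongruenceSubgroup.Gamma_mem.mp hγ).2.2.1
  have h2 : (M : ℤ) ∣ γ 1 0 := (ZMod.intCast_zmod_eq_zero_iff_dvd _ _).mp h1
  exact (Int.natCast_dvd_natCast.mpr hrM).trans h2

end HauptAux

theorem tH_mem_AL (hr : r = 2 ∨ r = 3) (hrM : r ∣ M) : tH r ∈ AL M := by
  refine ⟨fun γ hγ => holAct_tH r hr γ (dvd_of_mem_Gamma M r hrM hγ), fun g => ?_⟩
  by_cases hg : (r : ℤ) ∣ g 1 0
  · rw [holAct_tH r hr g hg]
    exact ⟨_, rel_tH M r⟩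
  · obtain ⟨⟨s, hs, -⟩, -⟩ := exists_rel_tH M r hr hrM g hg
    exact ⟨s, hs⟩

theorem tH'_mem_AL (hr : r = 2 ∨ r = 3) (hrM : r ∣ M) : tH' r ∈ AL M := by
  refine ⟨fun γ hγ => holAct_tH' r hr γ (dvd_of_mem_Gamma M r hrM hγ), fun g => ?_⟩
  by_cases hg : (r : ℤ) ∣ g 1 0
  · rw [holAct_tH' r hr g hg]
    exact ⟨_, rel_tH' M r⟩
  · obtain ⟨-, ⟨s, hs, -⟩⟩ := exists_rel_tH M r hr hrM g hg
    exact ⟨s, hs⟩

/-- `t_r` -/
def tA (hr : r = 2 ∨ r = 3) (hrM : r ∣ M) : AL M := ⟨tH r, tH_mem_AL M r hr hrM⟩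

/-- `r ^ (12 / (r - 1)) / t_r` -/
def tA' (hr : r = 2 ∨ r = 3) (hrM : r ∣ M) : AL M := ⟨tH' r, tH'_mem_AL M r hr hrM⟩

variable (hr : r = 2 ∨ r = 3) (hrM : r ∣ M)

theorem tA_mul_tA' : tA M r hr hrM * tA' M r hr hrM = cA M ((cE r : ℕ) : Zb) := by
  apply Subtype.ext
  apply Subtype.ext
  funext τ
  show tFun r τ * ((((cE r : ℕ) : Zb) : ℂ) * tInv r τ) = (((cE r : ℕ) : Zb) : ℂ)
  rw [mul_left_comm, tFun_mul_tInv, mul_one]

/-- `t_r ^ (r - 1) = Δ(z) / Δ(r z)` -/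
theorem tA_pow_mul_uA : tA M r hr hrM ^ (r - 1) * uA M r hrM = cA M ((r : Zb) ^ 12) := by
  apply Subtype.ext
  apply Subtype.ext
  funext τ
  show tFun r τ ^ (r - 1) * ((r : ℂ) ^ 12 * discriminant (scaleH r τ) / discriminant τ) =
    (((r : Zb) ^ 12 : Zb) : ℂ)
  have h1 := tFun_pow r hr τ
  have h2 := discriminant_ne_zero τ
  have h3 : (((r : Zb) ^ 12 : Zb) : ℂ) = (r : ℂ) ^ 12 := by simp
  rw [h3]
  field_simp
  linear_combination (r : ℂ) ^ 12 * h1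

theorem smul_tA (g : SL(2, ℤ)) (hg : (r : ℤ) ∣ g 1 0) : g • tA M r hr hrM = tA M r hr hrM :=
  Subtype.ext (holAct_tH r hr g hg)

theorem smul_tA' (g : SL(2, ℤ)) (hg : (r : ℤ) ∣ g 1 0) :
    g • tA' M r hr hrM = tA' M r hr hrM :=
  Subtype.ext (holAct_tH' r hr g hg)

theorem eps_tA : eps M (tA M r hr hrM) = qExpand Zb M (tq Zb r) :=
  eps_eq M (rel_tH M r)

theorem eps_tA' :
    eps M (tA' M r hr hrM) = HahnSeries.C ((cE r : ℕ) : Zb) * qExpand Zb M (tqInv Zb r) :=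
  eps_eq M (rel_tH' M r)

/-- at the other cusp `t_r` has a zero of order `M / r` (in `q_M`) -/
theorem coeff_eps_smul_tA (g : SL(2, ℤ)) (hg : ¬ (r : ℤ) ∣ g 1 0) (n : ℤ) (hn : n * r < M) :
    (eps M (g • tA M r hr hrM)).coeff n = 0 := by
  obtain ⟨⟨s, hs, h⟩, -⟩ := exists_rel_tH M r hr hrM g hg
  rw [eps_eq M (f := g • tA M r hr hrM) hs]
  exact h n hn

/-- at the other cusp `1 / t_r` has a pole of order `M / r` (in `q_M`) -/
theorem coeff_eps_smul_tA' (g : SL(2, ℤ)) (hg : ¬ (r : ℤ) ∣ g 1 0) (n : ℤ) (hn : n * r < -(M : ℤ)) :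
    (eps M (g • tA' M r hr hrM)).coeff n = 0 := by
  obtain ⟨-, ⟨s, hs, h⟩⟩ := exists_rel_tH M r hr hrM g hg
  rw [eps_eq M (f := g • tA' M r hr hrM) hs]
  exact h n hn

theorem coeff_eps_tA : (eps M (tA M r hr hrM)).coeff (-(M : ℤ)) = 1 := by
  rw [eps_tA, show -(M : ℤ) = (M : ℤ) * (-1) by ring, qExpand_coeff_mul, coeff_tq_neg_one]

theorem coeff_eps_tA_of_lt (n : ℤ) (hn : n < -(M : ℤ)) : (eps M (tA M r hr hrM)).coeff n = 0 := by
  rw [eps_tA]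
  have := ((mon_tq Zb r).qExpand M).2 n (by simpa using hn)
  exact this

/-- the interface structure of `HauptDef.lean` -/
def haupt : Haupt M r where
  tA := tA M r hr hrM
  tA' := tA' M r hr hrM
  e := 12 / (r - 1)
  mul_eq := by
    rw [tA_mul_tA']
    congr 1
    simp [cE]
  smul_tA := smul_tA M r hr hrM
  coeff_eps := coeff_eps_tA M r hr hrM
  coeff_eps_lt := coeff_eps_tA_of_lt M r hr hrM
  coeff_eps_smul := fun g hg n hn => coeff_eps_smul_tA M r hr hrM g hg n (by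
    have h1 : (0 : ℤ) < M := by exact_mod_cast Nat.pos_of_ne_zero (NeZero.ne M)
    have h2 : (0 : ℤ) < r := by exact_mod_cast r_pos r
    nlinarith)

end Fermat.Agent.S18
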