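import Fermat.Agent.S18.Z.Main
import Fermat.Agent.S18.ModGood
import Fermat.Agent.S18.Branch
import Fermat.Agent.S18.Haupt
import Fermat.Agent.S18.Arch
import Fermat.Agent.S18.Descent
import Fermat.Agent.S18.Glue
import Fermat.Agent.ES.AlgOrdAux
import Fermat.Prelude.Def_AlgebraicCurve_Correspondence

/-!
# S18 : assembly of (KL) from Theorem Z and the modular inputs (helper18)

`klAll : ℓ prime, ℓ ∤ N, A ∣ ℓ ⟹ KLStatement N ℓ A`.

Choose `r ∈ {2, 3}`, `r ≠ ℓ`, `p ∤ r + 1`; `M = lcm N r`; apply Theorem Z to `FN M / Kb(t_r)` and descend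
from `F_M` to `F_N`.
-/

set_option autoImplicit false
set_option synthInstance.maxHeartbeats 400000
set_option linter.unusedSectionVars false

open ModularCurve AlgebraicCurve IntermediateField

noncomputable section

namespace Fermat.Agent.S18

open Fermat.Agent.S24

namespace KLAllAux

/-- the choice of the auxiliary level -/
theorem exists_aux {ℓ p : ℕ} (hpl : p ≠ ℓ) :
    ∃ r : ℕ, (r = 2 ∨ r = 3) ∧ r ≠ ℓ ∧ (p.Prime → ¬ p ∣ r + 1) := by
  by_cases h2 : ℓ = 2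
  · refine ⟨3, Or.inr rfl, by omega, fun hp h => ?_⟩
    have h4 : p ∣ 2 ^ 2 := by simpa using h
    have := (Nat.prime_dvd_prime_iff_eq hp Nat.prime_two).mp (hp.dvd_of_dvd_pow h4)
    omega
  · by_cases h3 : p = 3
    · by_cases hl3 : ℓ = 3
      · omega
      · refine ⟨3, Or.inr rfl, fun h => hl3 h.symm, fun _ h => ?_⟩
        subst h3
        omega
    · refine ⟨2, Or.inl rfl, fun h => h2 h.symm, fun hp h => ?_⟩
      have := (Nat.prime_dvd_prime_iff_eq hp Nat.prime_three).mp h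
      omega

theorem inv_natCast_mem (A : ValuationSubring Kb) {ℓ : ℕ} (hℓ : ℓ.Prime) (hA : A.LiesOverPrime ℓ)
    {n : ℕ} (hn : ¬ ℓ ∣ n) : ((n : Kb))⁻¹ ∈ A := by
  have h1 : ¬ (ℓ : ℤ) ∣ (n : ℤ) := by exact_mod_cast hn
  obtain ⟨u, hu⟩ := Arch.isUnit_intCast A hℓ hA h1
  have h2 : ((u : A) : Kb) = (n : Kb) := by rw [hu]; simp
  have h3 : (((u⁻¹ : Aˣ) : A) : Kb) = ((n : Kb))⁻¹ := by
    rw [← h2]
    apply eq_inv_of_mul_eq_one_left
    exact congrArg Subtype.val u.inv_mul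
  rw [← h3]
  exact ((u⁻¹ : Aˣ) : A).2

/-- (KL) at a level `M` divisible by `r` -/
theorem kl_level (M : ℕ) [NeZero M] {ℓ : ℕ} (hℓ : ℓ.Prime) (hℓM : ¬ ℓ ∣ M)
    (A : ValuationSubring Kb) (hA : A.LiesOverPrime ℓ) {r : ℕ} (hr : r = 2 ∨ r = 3) (hrM : r ∣ M) :
    KLStatement M ℓ A := by
  intro p hp hpl f hf hdiv y1 y2 _ _ hmul hred hy2
  have : NeZero r := ⟨by rcases hr with rfl | rfl <;> norm_num⟩
  have hrp : r.Prime := by rcases hr with rfl | rfl <;> norm_num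
  have hrl : ¬ ℓ ∣ r := fun h => hℓM (h.trans hrM)
  have hpl' : ¬ ℓ ∣ p := fun h => hpl ((Nat.prime_dvd_prime_iff_eq hℓ hp).mp h).symm
  let H : Haupt M r := haupt M r hr hrM
  have hfin := finiteDimensional_LT H hrM
  obtain ⟨G⟩ := exists_goodRed H hrM A hℓ hA hℓM
  obtain ⟨c0, hc0, hbr⟩ := Branch.exists_unit_Br hr hrM H A (inv_natCast_mem A hℓ hA hrl)
    (tauF H hrM) (corr_tauF H hrM).iota_eq
  have hy1 : coeffMap (IsLocalRing.residue A) y1 ≠ 0 := by rw [hred]; exact hy2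
  have hy2' : coeffMap A.subtype y2 ≠ 0 := by
    intro h
    apply hy2
    have : y2 = 0 := coeffMap_subtype_injective A (h.trans (map_zero _).symm)
    rw [this, map_zero]
  have hf' : (f : LaurentSeries Kb) ≠ 0 := by simpa using hf
  have h1 : KL.SmV A (tauL H hrM) (FN M) (f - 1) :=
    smV_of_quot H hrM A hℓ hA hℓM (f - 1) (y1 - y2) y2
      (by
        rw [map_sub, ← hmul]
        push_cast
        ring)
      (by rw [map_sub, hred, sub_self]) hy2
  have h2 : KL.SmV A (tauL H hrM) (FN M) (f⁻¹ - 1) :=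
    smV_of_quot H hrM A hℓ hA hℓM (f⁻¹ - 1) (y2 - y1) y1
      (by
        rw [map_sub, ← hmul]
        push_cast
        field_simp)
      (by rw [map_sub, hred, sub_self]) hy1
  exact KL.theoremZ A (Arch.arch A hℓ hA) (tauL H hrM) (transcendental_tauL H hrM)
    (isGen_tauL H hrM) G c0 hc0 hbr p hp (inv_natCast_mem A hℓ hA hpl') f hf hdiv h1 h2

/-- pull-back of divisors along `F_N ⊆ F_M` -/
theorem dvd_ord_of_le {N M : ℕ} [NeZero N] [NeZero M]
    (hle : modularFunctionFieldBar N ≤ modularFunctionFieldBar M) {p : ℕ} (f : FN N)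
    (hdiv : ∀ P : Place Kb (FN N), (p : ℤ) ∣ P.ord f) (P : Place Kb (FN M)) :
    (p : ℤ) ∣ P.ord (⟨f, hle f.2⟩ : FN M) := by
  let β : FN N →ₐ[Kb] FN M := IntermediateField.inclusion hle
  let _ := algebraAlong β
  have := isScalarTower_along β
  have hβj : β (jN N) = jN M := rfl
  have hint : β.toRingHom.IsIntegral :=
    ES.Alg.OrdAux.isIntegral_of_transcendental β (jN N) (by
      rw [hβj]; exact finiteDimensional_FN M)
  have := isIntegral_along β hint
  have h1 := P.ord_restrict (F := FN N) f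
  have h2 : algebraMap (FN N) (FN M) f = (⟨f, hle f.2⟩ : FN M) := rfl
  rw [← h2, h1]
  exact Dvd.dvd.mul_left (hdiv _) _

end KLAllAux

/-- **(KL)** for all levels. -/
theorem klAll (N : ℕ) [NeZero N] (ℓ : ℕ) (A : ValuationSubring Kb) (hℓ : ℓ.Prime) (hℓN : ¬ ℓ ∣ N)
    (hA : A.LiesOverPrime ℓ) : KLStatement N ℓ A := by
  intro p hp hpl f hf hdiv y1 y2 hy1m hy2m hmul hred hy2
  obtain ⟨r, hr, hrl, hpr⟩ := KLAllAux.exists_aux hpl
  have hrp : r.Prime := by rcases hr with rfl | rfl <;> norm_num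
  have : NeZero (Nat.lcm N r) := ⟨Nat.lcm_ne_zero (NeZero.ne N) hrp.ne_zero⟩
  have hle : modularFunctionFieldBar N ≤ modularFunctionFieldBar (Nat.lcm N r) :=
    Descent.bar_le (Nat.dvd_lcm_left N r)
  have hℓM : ¬ ℓ ∣ Nat.lcm N r := by
    intro h
    rcases (hℓ.dvd_mul).mp (h.trans (Nat.lcm_dvd_mul N r)) with h1 | h1
    · exact hℓN h1
    · exact hrl ((Nat.prime_dvd_prime_iff_eq hℓ hrp).mp h1).symm
  have hf' : (⟨f, hle f.2⟩ : FN (Nat.lcm N r)) ≠ 0 := by
    intro h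
    apply hf
    have h1 : (((⟨f, hle f.2⟩ : FN (Nat.lcm N r)) : LaurentSeries Kb)) = 0 :=
      ZeroMemClass.coe_eq_zero.mpr h
    exact ZeroMemClass.coe_eq_zero.mp h1
  obtain ⟨g, hg⟩ := KLAllAux.kl_level (Nat.lcm N r) hℓ hℓM A hA hr (Nat.dvd_lcm_right N r) p hp hpl
    (⟨f, hle f.2⟩ : FN (Nat.lcm N r)) hf'
    (KLAllAux.dvd_ord_of_le hle f hdiv) y1 y2 (hle hy1m) (hle hy2m) hmul hred hy2
  have hg' : (g : LaurentSeries Kb) ^ p = (f : LaurentSeries Kb) := by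
    rw [← IntermediateField.coe_pow, hg]
  have hgN : (g : LaurentSeries Kb) ∈ modularFunctionFieldBar N :=
    Descent.mem_of_pow_mem_lcm hrp hp (hpr hp) g.2 (by rw [hg']; exact f.2)
  refine ⟨⟨g, hgN⟩, Subtype.ext ?_⟩
  rw [IntermediateField.coe_pow]
  exact hg'

end Fermat.Agent.S18
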