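import Fermat.Agent.S18.BranchVal

set_option autoImplicit false

open UpperHalfPlane ModularForm ModularCurve Polynomial WithZero
open scoped MatrixGroups Real

noncomputable section

namespace Fermat.Agent.S18.Branch

open Fermat.Agent.S24 Fermat.Agent.S28

theorem nuTwo_two : nuTwo 2 = 1 := by
  unfold nuTwo; rw [Nat.card_eq_fintype_card]; decide

theorem nuTwo_three : nuTwo 3 = 0 := by
  unfold nuTwo; rw [Nat.card_eq_fintype_card]; decide

theorem nuThree_two : nuThree 2 = 0 := by
  unfold nuThree; rw [Nat.card_eq_fintype_card]; decide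

theorem nuThree_three : nuThree 3 = 1 := by
  unfold nuThree; rw [Nat.card_eq_fintype_card]; decide

theorem dedekindPsi_two : dedekindPsi 2 = 3 := by decide +kernel

theorem dedekindPsi_three : dedekindPsi 3 = 4 := by decide +kernel


variable {M : ℕ} [NeZero M] {r : ℕ}

theorem evPt_tO_smul_of_fix (H : Haupt M r) (g : SL(2, ℤ)) (τ : ℍ) (hfix : g • τ = τ) (x : QN r) :
    evPt τ (tO H (g • x)) = evPt τ (tO H x) := by
  have h : g⁻¹ • τ = τ := by rw [inv_smul_eq_iff, hfix]
  rw [tO_smul, evPt_smul, h]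

theorem holVal_generic [Fintype (QN r)] (hr : r ≠ 0) (hcard : Fintype.card (QN r) = r + 1)
    (H : Haupt M r) (hrM : r ∣ M) (τ : ℍ) (h0 : (jH : ℍ → ℂ) τ ≠ 0) (h1 : (jH : ℍ → ℂ) τ ≠ 1728)
    (x : QN r) :
    holVal τ (((tO H x : AL M) : Hol) - algebraMap ℂ Hol (evPt τ (tO H x))) = exp (-1 : ℤ) :=
  holVal_eq_of_card hr hcard H hrM τ 1 (by rw [holVal_jH_sub τ h0 h1]; rfl) x {x}
    (Finset.mem_singleton_self x) (Finset.card_singleton x)
    (fun y hy => by rw [Finset.mem_singleton.mp hy])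

theorem holVal_I [Fintype (QN r)] (hr : r ≠ 0) (hcard : Fintype.card (QN r) = r + 1)
    (H : Haupt M r) (hrM : r ∣ M) (x : QN r) (hx : ModularGroup.S • x ≠ x) :
    holVal I (((tO H x : AL M) : Hol) - algebraMap ℂ Hol (evPt I (tO H x))) = exp (-1 : ℤ) := by
  classical
  refine holVal_eq_of_card hr hcard H hrM I 2 (by rw [jH_I, holVal_jH_sub_I]; rfl) x
    {x, ModularGroup.S • x} (by simp) (Finset.card_pair hx.symm) ?_
  intro y hy
  rw [Finset.mem_insert, Finset.mem_singleton] at hy
  rcases hy with rfl | rfl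
  · rfl
  · exact evPt_tO_smul_of_fix H _ _ S_smul_I x

theorem holVal_rho [Fintype (QN r)] (hr : r ≠ 0) (hcard : Fintype.card (QN r) = r + 1)
    (H : Haupt M r) (hrM : r ∣ M) (x : QN r) (hx : (ModularGroup.S * ModularGroup.T) • x ≠ x) :
    holVal rho (((tO H x : AL M) : Hol) - algebraMap ℂ Hol (evPt rho (tO H x))) =
      exp (-1 : ℤ) := by
  classical
  set U := ModularGroup.S * ModularGroup.T with hU
  have hU3 : U • U • U • x = x := by
    rw [← mul_smul, ← mul_smul, show U * U * U = U ^ 3 by rw [pow_succ, pow_two], hU,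
      ST_pow_three]
    exact neg_one_smul_QN r x
  have h12 : U • x ≠ U • U • x := fun h => hx ((smul_left_cancel U h).symm)
  have h02 : x ≠ U • U • x := by
    intro h
    apply hx
    have := congrArg (U • ·) h
    simp only [hU3] at this
    exact this
  refine holVal_eq_of_card hr hcard H hrM rho 3
    (by rw [jH_rho, map_zero, sub_zero, holVal_jH_rho]; rfl) x
    {x, U • x, U • U • x} (by simp) (Finset.card_eq_three.mpr ⟨_, _, _, hx.symm, h02, h12, rfl⟩) ?_
  intro y hy
  rw [Finset.mem_insert, Finset.mem_insert, Finset.mem_singleton] at hy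
  rcases hy with rfl | rfl | rfl
  · rfl
  · exact evPt_tO_smul_of_fix H _ _ ST_smul_rho x
  · rw [evPt_tO_smul_of_fix H _ _ ST_smul_rho, evPt_tO_smul_of_fix H _ _ ST_smul_rho]

/-- the exceptional value -/
theorem exists_exceptional (hr : r = 2 ∨ r = 3) (H : Haupt M r) :
    ∃ (τ0 : ℍ) (x0 : QN r), (τ0 = I ∨ τ0 = rho) ∧
      (∀ x : QN r, ModularGroup.S • x = x → evPt I (tO H x) = evPt τ0 (tO H x0)) ∧
      (∀ x : QN r, (ModularGroup.S * ModularGroup.T) • x = x →
        evPt rho (tO H x) = evPt τ0 (tO H x0)) := by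
  rcases hr with rfl | rfl
  · have h1 := Fermat.Agent.S20.card_fixedBy_S 2
    have h2 := Fermat.Agent.S20.card_fixedBy_ST 2
    rw [nuTwo_two, Nat.card_eq_one_iff_unique] at h1
    rw [nuThree_two] at h2
    have := finite_QN 2
    have h2' : IsEmpty (MulAction.fixedBy (QN 2) (ModularGroup.S * ModularGroup.T)) := by
      rcases Nat.card_eq_zero.mp h2 with h | h
      · exact h
      · exact absurd (inferInstance : Finite _) (not_finite_iff_infinite.mpr h)
    obtain ⟨hs, ⟨x0⟩⟩ := h1
    refine ⟨I, x0.1, Or.inl rfl, fun x hx => ?_, fun x hx => (h2'.false ⟨x, hx⟩).elim⟩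
    have : (⟨x, hx⟩ : MulAction.fixedBy (QN 2) ModularGroup.S) = x0 := hs.elim _ _
    rw [← this]
  · have h1 := Fermat.Agent.S20.card_fixedBy_S 3
    have h2 := Fermat.Agent.S20.card_fixedBy_ST 3
    rw [nuThree_three, Nat.card_eq_one_iff_unique] at h2
    rw [nuTwo_three] at h1
    have := finite_QN 3
    have h1' : IsEmpty (MulAction.fixedBy (QN 3) ModularGroup.S) := by
      rcases Nat.card_eq_zero.mp h1 with h | h
      · exact h
      · exact absurd (inferInstance : Finite _) (not_finite_iff_infinite.mpr h)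
    obtain ⟨hs, ⟨x0⟩⟩ := h2
    refine ⟨rho, x0.1, Or.inr rfl, fun x hx => (h1'.false ⟨x, hx⟩).elim, fun x hx => ?_⟩
    have : (⟨x, hx⟩ : MulAction.fixedBy (QN 3) (ModularGroup.S * ModularGroup.T)) = x0 :=
      hs.elim _ _
    rw [← this]

end Fermat.Agent.S18.Branch
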