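import Fermat.Agent.S18.BranchPoly

set_option autoImplicit false

open UpperHalfPlane ModularForm ModularCurve Polynomial
open scoped MatrixGroups Real

noncomputable section

namespace Fermat.Agent.S18.Branch

open Fermat.Agent.S24 Fermat.Agent.S28

variable {M : ℕ} [NeZero M] {r : ℕ}

theorem mem_Gamma0_iff_dvd (g : SL(2, ℤ)) :
    g ∈ CongruenceSubgroup.Gamma0 r ↔ (r : ℤ) ∣ g 1 0 := by
  rw [CongruenceSubgroup.Gamma0_mem, ZMod.intCast_zmod_eq_zero_iff_dvd]

/-- the conjugates of the Hauptmodul -/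
def tO (H : Haupt M r) (x : QN r) : AL M := x.out • H.tA

theorem tO_mk (H : Haupt M r) (g : SL(2, ℤ)) : tO H (g : QN r) = g • H.tA := by
  obtain ⟨k, hk⟩ := QuotientGroup.mk_out_eq_mul (CongruenceSubgroup.Gamma0 r) g
  rw [tO, hk, mul_smul, H.smul_tA _ ((mem_Gamma0_iff_dvd _).mp k.2)]

theorem tO_smul (H : Haupt M r) (g : SL(2, ℤ)) (x : QN r) : tO H (g • x) = g • tO H x := by
  induction x using QuotientGroup.induction_on with
  | H h =>
    show tO H ((g * h : SL(2, ℤ)) : QN r) = g • tO H (h : QN r)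
    rw [tO_mk, tO_mk, mul_smul]

theorem dvd_of_smul_tA_eq (H : Haupt M r) (g : SL(2, ℤ)) (h : g • H.tA = H.tA) :
    (r : ℤ) ∣ g 1 0 := by
  by_contra hg
  have h1 := H.coeff_eps_smul g hg (-(M : ℤ)) (by simp)
  rw [h, H.coeff_eps] at h1
  exact one_ne_zero h1

theorem tO_injective (H : Haupt M r) : Function.Injective (tO H) := by
  intro x y hxy
  induction x using QuotientGroup.induction_on with
  | H g =>
    induction y using QuotientGroup.induction_on with
    | H h =>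
      rw [tO_mk, tO_mk] at hxy
      rw [QuotientGroup.eq, mem_Gamma0_iff_dvd]
      apply dvd_of_smul_tA_eq H
      rw [mul_smul, ← hxy, inv_smul_smul]

theorem smul_eval₂_cA (g : SL(2, ℤ)) (P : Zb[X]) (f : AL M) :
    g • P.eval₂ (cA M) f = P.eval₂ (cA M) (g • f) := by
  have h := Polynomial.hom_eval₂ P (cA M) (MulSemiringAction.toRingHom SL(2, ℤ) (AL M) g) f
  have h2 : (MulSemiringAction.toRingHom SL(2, ℤ) (AL M) g).comp (cA M) = cA M :=
    RingHom.ext fun c => smul_cA M g c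
  rw [h2] at h
  exact h


/-- the polynomial `P(X) - j X ^ r` -/
def Psi (r : ℕ) (P : Zb[X]) : (AL M)[X] := P.map (cA M) - C (jA M 1 (one_dvd M)) * X ^ r

theorem eval_Psi (H : Haupt M r) (P : Zb[X])
    (hP : jA M 1 (one_dvd M) * H.tA ^ r = P.eval₂ (cA M) H.tA) (x : QN r) :
    (Psi r P).eval (tO H x) = 0 := by
  rw [Psi, eval_sub, eval_map, eval_mul, eval_C, eval_pow, eval_X, tO, ← smul_eval₂_cA, ← hP,
    smul_mul', smul_pow', smul_jA_one, sub_self]

theorem Psi_eq [Fintype (QN r)] (hcard : Fintype.card (QN r) = r + 1) (H : Haupt M r) (P : Zb[X])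
    (hdeg : P.natDegree ≤ r + 1)
    (hP : jA M 1 (one_dvd M) * H.tA ^ r = P.eval₂ (cA M) H.tA) :
    Psi r P = C (cA M (P.coeff (r + 1))) * ∏ y : QN r, (X - C (tO H y)) := by
  have hmonic : (∏ y : QN r, (X - C (tO H y))).Monic :=
    monic_prod_of_monic _ _ fun _ _ => monic_X_sub_C _
  have hnd : (∏ y : QN r, (X - C (tO H y))).natDegree = r + 1 := by
    rw [natDegree_prod_of_monic _ _ fun _ _ => monic_X_sub_C _]
    simp [hcard]
  rw [← sub_eq_zero]
  refine Polynomial.eq_zero_of_degree_lt_of_eval_index_eq_zero (s := Finset.univ) (v := tO H)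
    (tO_injective H).injOn ?_ ?_
  · rw [Finset.card_univ, hcard, degree_lt_iff_coeff_zero]
    intro m hm
    rw [coeff_sub, coeff_C_mul, Psi, coeff_sub, coeff_map, coeff_C_mul, coeff_X_pow,
      if_neg (by omega), mul_zero, sub_zero]
    rcases Nat.lt_or_ge (r + 1) m with h | h
    · have e1 : P.coeff m = 0 := coeff_eq_zero_of_natDegree_lt (lt_of_le_of_lt hdeg h)
      have e2 : (∏ y : QN r, (X - C (tO H y))).coeff m = 0 :=
        coeff_eq_zero_of_natDegree_lt (by rw [hnd]; exact h)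
      rw [e1, e2]
      simp
    · have : m = r + 1 := le_antisymm h (by exact_mod_cast hm)
      subst this
      have h1 := hmonic.coeff_natDegree
      rw [hnd] at h1
      rw [h1, mul_one, sub_self]
  · intro x _
    rw [eval_sub, eval_Psi H P hP, eval_mul, eval_prod,
      Finset.prod_eq_zero (Finset.mem_univ x) (by simp), mul_zero, sub_zero]

theorem jA_ne_cA (c : Zb) : jA M 1 (one_dvd M) ≠ cA M c := by
  intro h
  have h1 := congrArg (fun z => (eps M z).coeff (-(M : ℤ))) h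
  simp only [coeff_eps_J_self, eps_cA] at h1
  rw [HahnSeries.C_apply, HahnSeries.coeff_single_of_ne] at h1
  · exact one_ne_zero h1
  · have : (0 : ℤ) < M := by exact_mod_cast Nat.pos_of_ne_zero (NeZero.ne M)
    omega

theorem coeff_ne_zero [Fintype (QN r)] (hcard : Fintype.card (QN r) = r + 1) (H : Haupt M r)
    (P : Zb[X]) (hdeg : P.natDegree ≤ r + 1)
    (hP : jA M 1 (one_dvd M) * H.tA ^ r = P.eval₂ (cA M) H.tA) : P.coeff (r + 1) ≠ 0 := by
  intro h0
  have h := Psi_eq hcard H P hdeg hP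
  rw [h0, map_zero, map_zero, zero_mul] at h
  have h1 := congrArg (fun q => q.coeff r) h
  simp only [Psi, coeff_sub, coeff_map, coeff_C_mul, coeff_X_pow, if_true, mul_one,
    coeff_zero] at h1
  exact jA_ne_cA _ (sub_eq_zero.mp h1).symm


/-- evaluation at a point -/
def evPt (τ : ℍ) : AL M →+* ℂ :=
  (Pi.evalRingHom (fun _ : ℍ => ℂ) τ).comp
    ((Hol.val : Hol →ₐ[ℂ] (ℍ → ℂ)).toRingHom.comp (AL M).subtype)

theorem evPt_apply (τ : ℍ) (f : AL M) : evPt τ f = ((f : Hol) : ℍ → ℂ) τ := rfl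

theorem evPt_comp_cA (τ : ℍ) : (evPt τ).comp (cA M) = algebraMap Zb ℂ := rfl

theorem evPt_J (τ : ℍ) : evPt τ (jA M 1 (one_dvd M)) = (jH : ℍ → ℂ) τ := InvAux.coe_J M τ

theorem map_Psi (P : Zb[X]) (τ : ℍ) :
    (Psi (M := M) r P).map (evPt τ) = P.map (algebraMap Zb ℂ) - C ((jH : ℍ → ℂ) τ) * X ^ r := by
  rw [Psi, Polynomial.map_sub, Polynomial.map_map, evPt_comp_cA, Polynomial.map_mul,
    Polynomial.map_C, Polynomial.map_pow, Polynomial.map_X, evPt_J]

theorem key_identity_pt [Fintype (QN r)] (hcard : Fintype.card (QN r) = r + 1) (H : Haupt M r)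
    (P : Zb[X]) (hdeg : P.natDegree ≤ r + 1)
    (hP : jA M 1 (one_dvd M) * H.tA ^ r = P.eval₂ (cA M) H.tA) (τ z : ℍ) (x : QN r) :
    ((jH : ℍ → ℂ) z - (jH : ℍ → ℂ) τ) * evPt z (tO H x) ^ r =
      ((P.coeff (r + 1) : Zb) : ℂ) * ∏ y : QN r, (evPt z (tO H x) - evPt τ (tO H y)) := by
  have h1 := congrArg (fun q => (q.map (evPt τ)).eval (evPt z (tO H x))) (Psi_eq hcard H P hdeg hP)
  simp only [map_Psi, Polynomial.map_mul, Polynomial.map_C, Polynomial.map_prod,
    Polynomial.map_sub, Polynomial.map_X, eval_mul, eval_C, eval_prod, eval_sub, eval_X,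
    eval_pow] at h1
  have h2 := congrArg (evPt z) (eval_Psi H P hP x)
  rw [← Polynomial.eval_map_apply, map_Psi, map_zero] at h2
  simp only [eval_mul, eval_C, eval_sub, eval_X, eval_pow] at h2
  have h3 : evPt τ (cA M (P.coeff (r + 1))) = ((P.coeff (r + 1) : Zb) : ℂ) := rfl
  rw [h3] at h1
  rw [← h1]
  linear_combination -h2

theorem key_identity [Fintype (QN r)] (hcard : Fintype.card (QN r) = r + 1) (H : Haupt M r)
    (P : Zb[X]) (hdeg : P.natDegree ≤ r + 1)
    (hP : jA M 1 (one_dvd M) * H.tA ^ r = P.eval₂ (cA M) H.tA) (τ : ℍ) (x : QN r) :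
    (jH - algebraMap ℂ Hol ((jH : ℍ → ℂ) τ)) * ((tO H x : AL M) : Hol) ^ r =
      algebraMap ℂ Hol ((P.coeff (r + 1) : Zb) : ℂ) *
        ∏ y : QN r, (((tO H x : AL M) : Hol) - algebraMap ℂ Hol (evPt τ (tO H y))) := by
  ext z
  have h := key_identity_pt hcard H P hdeg hP τ z x
  have e : ((∏ y : QN r, (((tO H x : AL M) : Hol) - algebraMap ℂ Hol (evPt τ (tO H y))) : Hol) :
      ℍ → ℂ) z = ∏ y : QN r, (evPt z (tO H x) - evPt τ (tO H y)) := by
    have := map_prod ((Pi.evalRingHom (fun _ : ℍ => ℂ) z).comp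
      (Hol.val : Hol →ₐ[ℂ] (ℍ → ℂ)).toRingHom)
      (fun y : QN r => (((tO H x : AL M) : Hol) - algebraMap ℂ Hol (evPt τ (tO H y)))) Finset.univ
    exact this
  show ((jH : ℍ → ℂ) z - (jH : ℍ → ℂ) τ) * evPt z (tO H x) ^ r = ((P.coeff (r + 1) : Zb) : ℂ) * _
  rw [h]
  congr 1
  exact e.symm

end Fermat.Agent.S18.Branch
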