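import Fermat.Agent.S18.BranchExc

set_option autoImplicit false

open UpperHalfPlane ModularForm ModularCurve Polynomial WithZero
open scoped MatrixGroups Real

noncomputable section

namespace Fermat.Agent.S18.Branch

open Fermat.Agent.S24 Fermat.Agent.S28

/-- algebraic integers of `ℂ` come from `Kb` -/
theorem exists_kappa_eq (z : ℂ) (hz : IsIntegral ℤ z) : ∃ a : Kb, kappa a = z ∧ IsIntegral ℤ a := by
  obtain ⟨p, hp, hroot⟩ := hz
  have hs : (p.map (algebraMap ℤ Kb)).Splits := IsAlgClosed.splits _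
  have h1 := hs.eq_prod_roots_of_monic (hp.map _)
  have h2 := congrArg (fun q => (q.map kappa).eval z) h1
  simp only [Polynomial.map_map, Polynomial.map_multiset_prod, Multiset.map_map,
    eval_multiset_prod] at h2
  have h3 : kappa.comp (algebraMap ℤ Kb) = algebraMap ℤ ℂ := RingHom.ext_int _ _
  rw [h3, eval_map, hroot] at h2
  obtain ⟨a, ha, h0⟩ := Multiset.mem_map.mp (Multiset.prod_eq_zero_iff.mp h2.symm)
  simp only [Function.comp, Polynomial.map_sub, Polynomial.map_X, Polynomial.map_C, eval_sub,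
    eval_X, eval_C] at h0
  refine ⟨a, (sub_eq_zero.mp h0).symm, p, hp, ?_⟩
  have := (mem_roots (hp.map (algebraMap ℤ Kb)).ne_zero).mp ha
  rwa [IsRoot, eval_map] at this

variable {M : ℕ} [NeZero M]

/-- values of elements of `AL M` at points with integral `j` are integral -/
theorem isIntegral_evPt (f : AL M) (τ : ℍ) (hτ : IsIntegral ℤ ((jH : ℍ → ℂ) τ)) :
    IsIntegral ℤ (evPt τ f) := by
  classical
  have hK : ∀ k ∈ CongruenceSubgroup.Gamma M, ∀ b : AL M, k • b = b :=
    fun k hk b => smul_eq_of_mem_Gamma M hk b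
  have : Fintype (SL(2, ℤ) ⧸ CongruenceSubgroup.Gamma M) := Fintype.ofFinite _
  set cp := Stab.cp (CongruenceSubgroup.Gamma M) hK f with hcp
  have hmonic : (cp.map (evPt τ)).Monic := (Stab.cp_monic _ hK f).map _
  have hlift : cp.map (evPt τ) ∈ lifts (algebraMap Zb ℂ) := by
    rw [lifts_iff_coeff_lifts]
    intro n
    obtain ⟨Q, hQ⟩ := exists_poly_of_invariant M (cp.coeff n)
      (fun g => Stab.smul_coeff_cp _ hK f n g)
    rw [coeff_map, hQ, Polynomial.hom_eval₂, evPt_comp_cA, evPt_J]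
    refine ⟨Q.eval ⟨_, hτ⟩, ?_⟩
    rw [← Polynomial.eval₂_at_apply]
    rfl
  obtain ⟨q, hq, -, hqm⟩ := lifts_and_natDegree_eq_and_monic hlift hmonic
  have h1 : IsIntegral Zb (evPt τ f) := by
    refine ⟨q, hqm, ?_⟩
    rw [← eval_map, hq, Polynomial.eval_map_apply, hcp, Stab.cp_eval, map_zero]
  exact isIntegral_trans _ h1

end Fermat.Agent.S18.Branch
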