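import Fermat.Agent.S28.Invariants
import Fermat.Agent.S28.Stab

/-!
# S18/M-D : invariants of `Γ₀(r)` in `AL M` are polynomials in a Hauptmodul

`tA : AL M` is `Γ₀(r)`-invariant, has a simple pole with leading coefficient one at `∞`
(in the parameter `q_M` : order `-M`) and vanishes to order `≥ w > 0` at the other cusps.
Then every `Γ₀(r)`-invariant `f : AL M` with pole order `≤ a` at `∞` and `≤ b * w` at the other
cusps satisfies `f * tA ^ b = P(tA)` with `P ∈ Zb[X]` of degree `≤ a + b`.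
-/

set_option autoImplicit false

open UpperHalfPlane ModularForm ModularCurve
open scoped MatrixGroups

noncomputable section

namespace Fermat.Agent.S18.ModInv

open Fermat.Agent.S28 Fermat.Agent.S24

/-- all coefficients of index `< a` vanish -/
def Low (a : ℤ) (s : LaurentSeries Zb) : Prop := ∀ n : ℤ, n < a → s.coeff n = 0

theorem Low.mono {a b : ℤ} {s : LaurentSeries Zb} (h : Low a s) (hab : b ≤ a) : Low b s :=
  fun n hn => h n (lt_of_lt_of_le hn hab)

theorem Low.mul {a b : ℤ} {s t : LaurentSeries Zb} (hs : Low a s) (ht : Low b t) :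
    Low (a + b) (s * t) := by
  intro n hn
  rw [HahnSeries.coeff_mul]
  refine Finset.sum_eq_zero fun ij hij => ?_
  rw [Finset.mem_antidiagonal] at hij
  by_cases h1 : ij.1 < a
  · rw [hs _ h1, zero_mul]
  · have h2 : ij.2 < b := by
      have := hij.2.2
      omega
    rw [ht _ h2, mul_zero]

theorem Low.add {a : ℤ} {s t : LaurentSeries Zb} (hs : Low a s) (ht : Low a t) :
    Low a (s + t) := fun n hn => by rw [HahnSeries.coeff_add, hs n hn, ht n hn, add_zero]

theorem Low.sub {a : ℤ} {s t : LaurentSeries Zb} (hs : Low a s) (ht : Low a t) :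
    Low a (s - t) := fun n hn => by rw [HahnSeries.coeff_sub, hs n hn, ht n hn, sub_zero]

theorem Low.neg {a : ℤ} {s : LaurentSeries Zb} (hs : Low a s) : Low a (-s) :=
  fun n hn => by rw [HahnSeries.coeff_neg, hs n hn, neg_zero]

theorem low_C (c : Zb) : Low 0 (HahnSeries.C c : LaurentSeries Zb) := fun n hn => by
  rw [HahnSeries.C_apply, HahnSeries.coeff_single_of_ne hn.ne]

theorem low_one : Low 0 (1 : LaurentSeries Zb) := by
  have := low_C 1
  rwa [map_one] at this

theorem Low.pow {a : ℤ} {s : LaurentSeries Zb} (hs : Low a s) (k : ℕ) :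
    Low ((k : ℤ) * a) (s ^ k) := by
  induction k with
  | zero => simpa using low_one
  | succ k ih =>
    rw [pow_succ]
    have := ih.mul hs
    have e : ((k + 1 : ℕ) : ℤ) * a = (k : ℤ) * a + a := by push_cast; ring
    rwa [e]

theorem Low.prod {ι : Type*} (S : Finset ι) (s : ι → LaurentSeries Zb)
    (h : ∀ i ∈ S, Low 0 (s i)) : Low 0 (∏ i ∈ S, s i) := by
  classical
  induction S using Finset.induction_on with
  | empty => simpa using low_one
  | insert i S hi ih =>
    rw [Finset.prod_insert hi]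
    have := (h i (Finset.mem_insert_self i S)).mul
      (ih fun j hj => h j (Finset.mem_insert_of_mem hj))
    simpa using this

/-- leading coefficient of a power -/
theorem coeff_pow_of_lower {x : LaurentSeries Zb} {a : ℤ} (hxa : x.coeff a = 1)
    (hx : ∀ k < a, x.coeff k = 0) (k : ℕ) :
    (x ^ k).coeff ((k : ℤ) * a) = 1 ∧ ∀ n < (k : ℤ) * a, (x ^ k).coeff n = 0 := by
  induction k with
  | zero =>
    refine ⟨by simp, fun n hn => ?_⟩
    rw [pow_zero]
    exact low_one n (by simpa using hn)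
  | succ k ih =>
    have := MemAux.coeff_mul_of_lower ih.1 ih.2 hxa hx
    have e : ((k + 1 : ℕ) : ℤ) * a = (k : ℤ) * a + a := by push_cast; ring
    rw [pow_succ, e]
    exact this

variable (M : ℕ) [NeZero M]

instance : IsDomain (AL M) :=
  Function.Injective.isDomain (eps M) (eps_injective M)

/-- A function which is regular at all cusps and vanishes at `∞` is zero. -/
theorem eq_zero_of_regular (G : AL M) (h0 : Low 1 (eps M G))
    (hreg : ∀ g : SL(2, ℤ), Low 0 (eps M (g • G))) : G = 0 := by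
  classical
  have hK : ∀ k ∈ CongruenceSubgroup.Gamma M, ∀ b : AL M, k • b = b :=
    fun k hk b => smul_eq_of_mem_Gamma M hk b
  have : Fintype (SL(2, ℤ) ⧸ CongruenceSubgroup.Gamma M) := Fintype.ofFinite _
  set c := (Stab.cp (CongruenceSubgroup.Gamma M) hK G).coeff 0 with hc
  have hcprod : c = ∏ x : SL(2, ℤ) ⧸ CongruenceSubgroup.Gamma M,
      (- Stab.orb (CongruenceSubgroup.Gamma M) hK G x) := by
    rw [hc, Polynomial.coeff_zero_eq_eval_zero, Stab.cp, Polynomial.eval_prod]
    refine Finset.prod_congr rfl fun x _ => ?_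
    simp
  have hinv : ∀ g : SL(2, ℤ), g • c = c := fun g => Stab.smul_coeff_cp _ hK G 0 g
  have hlow : Low 1 (eps M c) := by
    rw [hcprod, map_prod,
      ← Finset.mul_prod_erase Finset.univ _
        (Finset.mem_univ ((1 : SL(2, ℤ)) : SL(2, ℤ) ⧸ CongruenceSubgroup.Gamma M))]
    have h1 : Low 1 (eps M (- Stab.orb (CongruenceSubgroup.Gamma M) hK G
        ((1 : SL(2, ℤ)) : SL(2, ℤ) ⧸ CongruenceSubgroup.Gamma M))) := by
      rw [Stab.orb_mk, one_smul, map_neg]
      exact h0.neg
    have h2 := Low.prod (Finset.univ.erase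
      ((1 : SL(2, ℤ)) : SL(2, ℤ) ⧸ CongruenceSubgroup.Gamma M))
      (fun x => eps M (- Stab.orb (CongruenceSubgroup.Gamma M) hK G x)) (fun x _ => by
        rw [Stab.orb_eq_out, map_neg]
        exact (hreg _).neg)
    simpa using h1.mul h2
  have hc0 : c = 0 := by
    refine InvAux.eq_zero_of_coeff M c hinv fun n hn => ?_
    by_cases h3 : (M : ℤ) ∣ n
    · obtain ⟨m, rfl⟩ := h3
      apply hlow
      have hM : (0 : ℤ) < M := by exact_mod_cast Nat.pos_of_ne_zero (NeZero.ne M)
      have : m < 1 := by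
        by_contra hm
        have : (M : ℤ) * 1 ≤ M * m := mul_le_mul_of_nonneg_left (by omega) hM.le
        omega
      have h4 : (M : ℤ) * m ≤ 0 := mul_nonpos_of_nonneg_of_nonpos hM.le (by omega)
      omega
    · exact InvAux.coeff_eq_zero_of_not_dvd M c (hinv _) n h3
  rw [hcprod, Finset.prod_eq_zero_iff] at hc0
  obtain ⟨x, _, hx⟩ := hc0
  rw [neg_eq_zero, Stab.orb_eq_out] at hx
  exact (smul_eq_zero_iff_eq _).mp hx

variable {M}

/-- the inductive step -/
theorem exists_poly_aux (r : ℕ) (tA : AL M)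
    (ht_inv : ∀ g : SL(2, ℤ), (r : ℤ) ∣ g 1 0 → g • tA = tA)
    (ht_lead : (eps M tA).coeff (-(M : ℤ)) = 1)
    (ht_low : ∀ n : ℤ, n < -(M : ℤ) → (eps M tA).coeff n = 0)
    (ht_pos : ∀ g : SL(2, ℤ), ¬ (r : ℤ) ∣ g 1 0 → Low 0 (eps M (g • tA))) (k : ℕ) :
    ∀ F : AL M, (∀ g : SL(2, ℤ), (r : ℤ) ∣ g 1 0 → g • F = F) →
      (∀ g : SL(2, ℤ), ¬ (r : ℤ) ∣ g 1 0 → Low 0 (eps M (g • F))) →
      Low ((M : ℤ) * (1 - k)) (eps M F) →
      ∃ P : Polynomial Zb, P.degree < k ∧ F = P.eval₂ (cA M) tA := by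
  have hM : (0 : ℤ) < M := by exact_mod_cast Nat.pos_of_ne_zero (NeZero.ne M)
  have hT : (r : ℤ) ∣ (ModularGroup.T : SL(2, ℤ)) 1 0 := by
    simp [ModularGroup.T]
  induction k with
  | zero =>
    intro F hF hreg h
    refine ⟨0, by simp, ?_⟩
    rw [Polynomial.eval₂_zero]
    have h1 : Low 1 (eps M F) := h.mono (by
      have : (1 : ℤ) ≤ M := hM
      simpa using this)
    refine eq_zero_of_regular M F h1 fun g => ?_
    by_cases hg : (r : ℤ) ∣ g 1 0
    · rw [hF g hg]
      exact h1.mono (by norm_num)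
    · exact hreg g hg
  | succ k ih =>
    intro F hF hreg h
    set c := (eps M F).coeff ((M : ℤ) * (-(k : ℤ))) with hc
    have hF' : ∀ g : SL(2, ℤ), (r : ℤ) ∣ g 1 0 →
        g • (F - cA M c * tA ^ k) = F - cA M c * tA ^ k := fun g hg => by
      rw [smul_sub, smul_mul', smul_pow', hF g hg, smul_cA, ht_inv g hg]
    have hpow := coeff_pow_of_lower ht_lead ht_low k
    obtain ⟨P, hPd, hP⟩ := ih (F - cA M c * tA ^ k) hF' (fun g hg => by
        rw [smul_sub, smul_mul', smul_pow', smul_cA, map_sub, map_mul, map_pow, eps_cA]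
        refine (hreg g hg).sub ?_
        have := (low_C c).mul ((ht_pos g hg).pow k)
        simpa using this) (fun n hn => by
      by_cases h3 : (M : ℤ) ∣ n
      · obtain ⟨m, rfl⟩ := h3
        have h5 : m < 1 - k := lt_of_mul_lt_mul_left hn hM.le
        rw [map_sub, map_mul, map_pow, eps_cA, HahnSeries.coeff_sub,
          HahnSeries.C_mul_eq_smul, HahnSeries.coeff_smul]
        rcases (show m < -(k : ℤ) ∨ m = -(k : ℤ) by omega) with h6 | h6
        · rw [hpow.2 _ (by nlinarith), smul_zero, sub_zero]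
          apply h
          apply mul_lt_mul_of_pos_left _ hM
          push_cast
          omega
        · have e : (M : ℤ) * m = (k : ℤ) * (-(M : ℤ)) := by rw [h6]; ring
          rw [h6, ← hc, ← h6, e, hpow.1]
          simp
      · exact InvAux.coeff_eq_zero_of_not_dvd M _ (hF' _ hT) n h3)
    refine ⟨P + Polynomial.C c * Polynomial.X ^ k, ?_, ?_⟩
    · refine lt_of_le_of_lt (Polynomial.degree_add_le _ _) (max_lt ?_ ?_)
      · refine hPd.trans ?_
        exact_mod_cast Nat.lt_succ_self k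
      · refine lt_of_le_of_lt (Polynomial.degree_C_mul_X_pow_le k c) ?_
        exact_mod_cast Nat.lt_succ_self k
    · rw [Polynomial.eval₂_add, ← hP, Polynomial.eval₂_mul, Polynomial.eval₂_C,
        Polynomial.eval₂_pow, Polynomial.eval₂_X]
      ring

/-- **S18/M-D**. -/
theorem exists_poly (r : ℕ) (w : ℤ) (hw : 0 < w) (tA : AL M)
    (ht_inv : ∀ g : SL(2, ℤ), (r : ℤ) ∣ g 1 0 → g • tA = tA)
    (ht_lead : (eps M tA).coeff (-(M : ℤ)) = 1)
    (ht_low : ∀ n : ℤ, n < -(M : ℤ) → (eps M tA).coeff n = 0)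
    (ht_pos : ∀ g : SL(2, ℤ), ¬ (r : ℤ) ∣ g 1 0 → ∀ n : ℤ, n < w → (eps M (g • tA)).coeff n = 0)
    (f : AL M) (hf : ∀ g : SL(2, ℤ), (r : ℤ) ∣ g 1 0 → g • f = f) (a b : ℕ)
    (hfa : ∀ n : ℤ, n < -((a : ℤ) * M) → (eps M f).coeff n = 0)
    (hfb : ∀ g : SL(2, ℤ), ¬ (r : ℤ) ∣ g 1 0 → ∀ n : ℤ, n < -((b : ℤ) * w) →
      (eps M (g • f)).coeff n = 0) :
    ∃ P : Polynomial Zb, P.natDegree ≤ a + b ∧ f * tA ^ b = P.eval₂ (cA M) tA := by
  have hM : (0 : ℤ) < M := by exact_mod_cast Nat.pos_of_ne_zero (NeZero.ne M)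
  obtain ⟨P, hPd, hP⟩ := exists_poly_aux r tA ht_inv ht_lead ht_low
    (fun g hg => Low.mono (ht_pos g hg) hw.le) (a + b + 1) (f * tA ^ b)
    (fun g hg => by rw [smul_mul', smul_pow', hf g hg, ht_inv g hg])
    (fun g hg => by
      rw [smul_mul', smul_pow', map_mul, map_pow]
      have h1 : Low (-((b : ℤ) * w)) (eps M (g • f)) := hfb g hg
      have h2 : Low w (eps M (g • tA)) := ht_pos g hg
      have := h1.mul (h2.pow b)
      simpa using this)
    (by
      rw [map_mul, map_pow]
      have h1 : Low (-((a : ℤ) * M)) (eps M f) := hfa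
      have h2 : Low (-(M : ℤ)) (eps M tA) := ht_low
      have := h1.mul (h2.pow b)
      refine this.mono (le_of_eq ?_)
      push_cast
      ring)
  refine ⟨P, ?_, hP⟩
  by_cases hP0 : P = 0
  · simp [hP0]
  · rw [Polynomial.degree_eq_natDegree hP0] at hPd
    have : P.natDegree < a + b + 1 := by exact_mod_cast hPd
    omega

end Fermat.Agent.S18.ModInv
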