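import Fermat.Agent.S18.HauptDef
import Fermat.Agent.S18.ModInv
import Fermat.Agent.S24.Interior
import Fermat.Agent.S24.Orbits

set_option autoImplicit false

open UpperHalfPlane ModularForm ModularCurve Polynomial
open scoped MatrixGroups Real

noncomputable section

namespace Fermat.Agent.S18.Branch

open Fermat.Agent.S24 Fermat.Agent.S28

variable {M : ℕ} [NeZero M]

/-- the action of `T ^ k` on expansions -/
theorem coeff_eps_T_pow_smul (f : AL M) (k : ℕ) (n : ℤ) :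
    (((eps M (ModularGroup.T ^ k • f)).coeff n : Zb) : ℂ) =
      Complex.exp (-(2 * π * Complex.I * n / M)) ^ k * (((eps M f).coeff n : Zb) : ℂ) := by
  induction k with
  | zero => simp
  | succ k ih =>
    rw [pow_succ', mul_smul, coeff_eps_T_smul, ih, pow_succ']
    ring

theorem dvd_of_T_pow_smul (f : AL M) (k : ℕ) (hf : ModularGroup.T ^ k • f = f) (n : ℤ)
    (hn : (eps M f).coeff n ≠ 0) : (M : ℤ) ∣ n * k := by
  have h := coeff_eps_T_pow_smul f k n
  rw [hf] at h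
  have hne' : (((eps M f).coeff n : Zb) : ℂ) ≠ 0 := fun h0 => hn (Subtype.ext h0)
  have h1 : Complex.exp (-(2 * π * Complex.I * n / M)) ^ k = 1 := by
    have h2 : 1 * (((eps M f).coeff n : Zb) : ℂ) =
        Complex.exp (-(2 * π * Complex.I * n / M)) ^ k * (((eps M f).coeff n : Zb) : ℂ) := by
      rw [one_mul]; exact h
    exact (mul_right_cancel₀ hne' h2).symm
  rw [← Complex.exp_nat_mul, Complex.exp_eq_one_iff] at h1
  obtain ⟨m, hm⟩ := h1
  refine ⟨-m, ?_⟩
  have hN : (M : ℂ) ≠ 0 := by exact_mod_cast NeZero.ne M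
  have h2pi : (2 * π * Complex.I : ℂ) ≠ 0 := Complex.two_pi_I_ne_zero
  have h3 : (2 * π * Complex.I : ℂ) * ((n : ℂ) * k) = (2 * π * Complex.I : ℂ) * ((M : ℂ) * (-m)) := by
    have h5 : (2 * π * Complex.I * n / M : ℂ) * M = 2 * π * Complex.I * n :=
      div_mul_cancel₀ _ hN
    linear_combination (-(M : ℂ)) * hm - (k : ℂ) * h5
  have h4 : (n : ℂ) * k = (M : ℂ) * (-m) := mul_left_cancel₀ h2pi h3
  exact_mod_cast h4

theorem conj_T_pow_one_zero (g : SL(2, ℤ)) (k : ℕ) :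
    (g⁻¹ * ModularGroup.T ^ k * g) 1 0 = -(k : ℤ) * (g 1 0) ^ 2 := by
  have hT : ((ModularGroup.T ^ k : SL(2, ℤ)) : Matrix (Fin 2) (Fin 2) ℤ) = !![1, (k : ℤ); 0, 1] := by
    have := ModularGroup.coe_T_zpow (k : ℤ)
    rwa [zpow_natCast] at this
  rw [Matrix.SpecialLinearGroup.coe_mul, Matrix.SpecialLinearGroup.coe_mul, hT,
    Matrix.SpecialLinearGroup.SL2_inv_expl]
  simp [Matrix.mul_apply, Fin.sum_univ_two]
  ring

variable {r : ℕ}

theorem T_pow_smul_smul (H : Haupt M r) (g : SL(2, ℤ)) :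
    ModularGroup.T ^ r • (g • H.tA) = g • H.tA := by
  have h1 : (g⁻¹ * ModularGroup.T ^ r * g) • H.tA = H.tA :=
    H.smul_tA _ (by rw [conj_T_pow_one_zero]; exact ⟨-(g 1 0) ^ 2, by ring⟩)
  calc ModularGroup.T ^ r • (g • H.tA) = g • ((g⁻¹ * ModularGroup.T ^ r * g) • H.tA) := by
        rw [← mul_smul, ← mul_smul]; congr 1; group
    _ = g • H.tA := by rw [h1]

/-- order `≥ M / r` at the other cusp -/
theorem coeff_eps_smul_lt (H : Haupt M r) (M' : ℕ) (hM' : M = r * M') (g : SL(2, ℤ))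
    (hg : ¬ (r : ℤ) ∣ g 1 0) (n : ℤ) (hn : n < M') : (eps M (g • H.tA)).coeff n = 0 := by
  by_contra hne
  have hpos : 0 < n := by
    by_contra hle
    exact hne (H.coeff_eps_smul g hg n (not_lt.mp hle))
  have hdvd := dvd_of_T_pow_smul (g • H.tA) r (T_pow_smul_smul H g) n hne
  have hr0 : (r : ℤ) ≠ 0 := by
    intro h0
    have : r = 0 := by exact_mod_cast h0
    have hM0 := NeZero.ne M
    rw [hM', this, zero_mul] at hM0
    exact hM0 rfl
  have h2 : (M' : ℤ) ∣ n := by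
    rw [hM'] at hdvd
    push_cast at hdvd
    rw [mul_comm n] at hdvd
    exact (mul_dvd_mul_iff_left hr0).mp hdvd
  have := Int.le_of_dvd hpos h2
  omega

theorem coeff_eps_J_lt (n : ℤ) (hn : n < -(M : ℤ)) :
    (eps M (jA M 1 (one_dvd M))).coeff n = 0 := by
  have hN : (0 : ℤ) < M := by exact_mod_cast Nat.pos_of_ne_zero (NeZero.ne M)
  rw [InvAux.eps_J]
  by_cases h3 : (M : ℤ) ∣ n
  · obtain ⟨m, hm⟩ := h3
    rw [hm, qExpand_coeff_mul]
    have h4 : (M : ℤ) * m < (M : ℤ) * (-1) := by omega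
    have h5 : m < -1 := lt_of_mul_lt_mul_left h4 hN.le
    simpa using coeff_jqModC_pow_of_lt Zb (b := 1) (m := m) (by simpa using h5)
  · exact qExpand_coeff_of_not_dvd M _ h3

theorem coeff_eps_J_self : (eps M (jA M 1 (one_dvd M))).coeff (-(M : ℤ)) = 1 := by
  rw [InvAux.eps_J]
  have : -(M : ℤ) = (M : ℤ) * (-1) := by ring
  rw [this, qExpand_coeff_mul]
  simpa using coeff_jqModC_pow_self Zb (b := 1)

/-- `j * t ^ r = P(t)` -/
theorem exists_Pj (H : Haupt M r) (hrM : r ∣ M) :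
    ∃ P : Zb[X], P.natDegree ≤ r + 1 ∧
      jA M 1 (one_dvd M) * H.tA ^ r = P.eval₂ (cA M) H.tA := by
  obtain ⟨M', hM'⟩ := hrM
  have hM'0 : 0 < M' := by
    rcases Nat.eq_zero_or_pos M' with h | h
    · exact absurd (by rw [hM', h, mul_zero]) (NeZero.ne M)
    · exact h
  have := ModInv.exists_poly r (M' : ℤ) (by exact_mod_cast hM'0) H.tA H.smul_tA H.coeff_eps
    H.coeff_eps_lt (fun g hg n hn => coeff_eps_smul_lt H M' hM' g hg n hn)
    (jA M 1 (one_dvd M)) (fun g _ => smul_jA_one M g) 1 r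
    (fun n hn => coeff_eps_J_lt n (by simpa using hn))
    (fun g _ n hn => by
      rw [smul_jA_one]
      apply coeff_eps_J_lt
      rw [hM']
      push_cast
      exact hn)
  rwa [add_comm] at this

end Fermat.Agent.S18.Branch
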