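import Fermat.Agent.S18.BranchInt
import Fermat.Agent.S24.Cusp
import Fermat.Agent.S24.DiffGlobal

set_option autoImplicit false

open UpperHalfPlane ModularForm ModularCurve Polynomial WithZero AlgebraicCurve
open scoped MatrixGroups Real

noncomputable section

namespace Fermat.Agent.S18.Branch

open Fermat.Agent.S24 Fermat.Agent.S28

variable {M : ℕ} [NeZero M] {r : ℕ}

theorem exists_lift_poly (P : Zb[X]) : ∃ P' : Kb[X], P'.map kappa = P.map (algebraMap Zb ℂ) := by
  have : P.map (algebraMap Zb ℂ) ∈ lifts kappa := by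
    rw [lifts_iff_coeff_lifts]
    intro n
    rw [coeff_map]
    obtain ⟨a, ha, -⟩ := exists_kappa_eq _ (P.coeff n).2
    exact ⟨a, ha⟩
  exact this

theorem iota_aeval (t : FN M) (P' : Kb[X]) :
    iota M (aeval t P') = (P'.map kappa).eval₂ (algebraMap ℂ Mer) (iota M t) := by
  rw [aeval_def, Polynomial.hom_eval₂, eval₂_map]
  congr 1
  ext a
  exact iota_algebraMap M a

theorem algebraMap_eval₂_cA (P : Zb[X]) (f : AL M) :
    algebraMap Hol Mer ((P.eval₂ (cA M) f : AL M) : Hol) =
      (P.map (algebraMap Zb ℂ)).eval₂ (algebraMap ℂ Mer) (algebraMap Hol Mer (f : Hol)) := by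
  have h := Polynomial.hom_eval₂ P (cA M) ((algebraMap Hol Mer).comp (AL M).subtype) f
  rw [eval₂_map]
  exact h

/-- the relation `j t ^ r = P(t)` in the function field -/
theorem exists_rel_FN (H : Haupt M r) (hrM : r ∣ M) (t : FN M)
    (ht : iota M t = algebraMap Hol Mer (H.tA : Hol)) :
    ∃ P' : Kb[X], jN M * t ^ r = aeval t P' := by
  obtain ⟨P, -, hP⟩ := exists_Pj H hrM
  obtain ⟨P', hP'⟩ := exists_lift_poly P
  refine ⟨P', (iota M).injective ?_⟩
  rw [iota_aeval, hP', ht, ← algebraMap_eval₂_cA, ← hP, map_mul, map_pow, ht, iota_jN]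
  rw [← map_pow, ← map_mul]
  congr 1
  show jH * (H.tA : Hol) ^ r = jHd 1 * (H.tA : Hol) ^ r
  rw [Cusp.jHd_one]


section PlaceLemmas

variable {K F : Type*} [Field K] [Field F] [Algebra K F] (v : Place K F)

theorem aeval_mem {t : F} (ht : t ∈ v.toValuationSubring) (G : K[X]) :
    aeval t G ∈ v.toValuationSubring := by
  have h : aeval t G = ((aeval (⟨t, ht⟩ : v.toValuationSubring) G : v.toValuationSubring) : F) := by
    have := Polynomial.aeval_algebraMap_apply F (⟨t, ht⟩ : v.toValuationSubring) G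
    exact this
  rw [h]
  exact Subtype.property _

/-- if `x * t ^ r = P(t)` and `t` takes the value `c ≠ 0` at `v`, then `x` takes the value
`P(c) / c ^ r`. -/
theorem ord_sub_pos_of_rel (x t : F) (r : ℕ) (P : K[X]) (hrel : x * t ^ r = aeval t P) (c : K)
    (hc : c ≠ 0) (hv : 0 < v.ord (t - algebraMap K F c))
    (hx : x - algebraMap K F (P.eval c / c ^ r) ≠ 0) :
    0 < v.ord (x - algebraMap K F (P.eval c / c ^ r)) := by
  obtain ⟨ϖ, hϖ⟩ := IsDiscreteValuationRing.exists_irreducible v.toValuationSubring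
  obtain ⟨a, ha⟩ := Diff.exists_eq_mul_of_ord_pos v hϖ hv
  set j0 := P.eval c / c ^ r with hj0
  have htO : t ∈ v.toValuationSubring := by
    have := add_mem (mem_of_ord_nonneg v hv.le) (v.algebraMap_mem' c)
    simpa using this
  have ht0 : t ≠ 0 := by
    rintro rfl
    rw [zero_sub, ← map_neg, Diff.ord_algebraMap] at hv
    exact lt_irrefl _ hv
  have htinv : t⁻¹ ∈ v.toValuationSubring := by
    by_contra hcon
    rw [← Diff.ord_neg_iff, v.ord_inv] at hcon
    have h0 : 0 < v.ord (t - algebraMap K F 0) := by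
      rw [map_zero, sub_zero]; omega
    exact hc (Diff.eq_of_ord_sub_pos v t hv h0)
  have hroot : (P - C j0 * X ^ r).IsRoot c := by
    rw [IsRoot, eval_sub, eval_mul, eval_C, eval_pow, eval_X, hj0,
      div_mul_cancel₀ _ (pow_ne_zero r hc), sub_self]
  obtain ⟨G, hG⟩ := dvd_iff_isRoot.mpr hroot
  have h1 : (x - algebraMap K F j0) * t ^ r = (t - algebraMap K F c) * aeval t G := by
    have := congrArg (aeval t) hG
    simp only [map_sub, map_mul, aeval_C, map_pow, aeval_X] at this
    rw [sub_mul, hrel, this]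
  refine Diff.ord_pos_of_eq_mul v hϖ hx
    (a * ⟨aeval t G, aeval_mem v htO G⟩ * ⟨t⁻¹, htinv⟩ ^ r) ?_
  have h2 : ((a * ⟨aeval t G, aeval_mem v htO G⟩ * ⟨t⁻¹, htinv⟩ ^ r : v.toValuationSubring) : F)
      = (a : F) * aeval t G * t⁻¹ ^ r := rfl
  rw [h2, ← mul_assoc, ← mul_assoc, ← ha, ← h1, inv_pow,
    mul_inv_cancel_right₀ (pow_ne_zero r ht0)]

end PlaceLemmas

end Fermat.Agent.S18.Branch
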