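import Fermat.Agent.S18.BranchIdent

set_option autoImplicit false

open UpperHalfPlane ModularForm ModularCurve Polynomial WithZero
open scoped MatrixGroups Real

noncomputable section

namespace Fermat.Agent.S18.Branch

open Fermat.Agent.S24 Fermat.Agent.S28

variable {M : ℕ} [NeZero M] {r : ℕ}

theorem evPt_smul (g : SL(2, ℤ)) (f : AL M) (τ : ℍ) : evPt τ (g • f) = evPt (g⁻¹ • τ) f := rfl

theorem evPt_cA (τ : ℍ) (c : Zb) : evPt τ (cA M c) = (c : ℂ) := rfl

theorem evPt_tO_mul (H : Haupt M r) (x : QN r) (τ : ℍ) :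
    evPt τ (tO H x) * evPt τ (x.out • H.tA') = (r : ℂ) ^ H.e := by
  rw [← map_mul, tO, ← smul_mul', H.mul_eq, smul_cA, evPt_cA]
  simp

theorem evPt_tO_ne_zero (hr : r ≠ 0) (H : Haupt M r) (x : QN r) (τ : ℍ) :
    evPt τ (tO H x) ≠ 0 := by
  intro h
  have h1 := evPt_tO_mul H x τ
  rw [h, zero_mul] at h1
  exact pow_ne_zero _ (by exact_mod_cast hr) h1.symm

theorem holVal_const {c : ℂ} (hc : c ≠ 0) (τ : ℍ) : holVal τ (algebraMap ℂ Hol c) = 1 :=
  (holVal_eq_one_iff τ _).mpr hc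

theorem holVal_eq_of_card [Fintype (QN r)] (hr : r ≠ 0) (hcard : Fintype.card (QN r) = r + 1)
    (H : Haupt M r) (hrM : r ∣ M) (τ : ℍ) (E : ℕ)
    (hE : holVal τ (jH - algebraMap ℂ Hol ((jH : ℍ → ℂ) τ)) = exp (-(E : ℤ)))
    (x : QN r) (Y : Finset (QN r)) (hxY : x ∈ Y) (hY : Y.card = E)
    (hval : ∀ y ∈ Y, evPt τ (tO H y) = evPt τ (tO H x)) :
    holVal τ (((tO H x : AL M) : Hol) - algebraMap ℂ Hol (evPt τ (tO H x))) = exp (-1 : ℤ) := by
  classical
  obtain ⟨P, hdeg, hP⟩ := exists_Pj H hrM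
  have hlc := coeff_ne_zero hcard H P hdeg hP
  have hlc' : ((P.coeff (r + 1) : Zb) : ℂ) ≠ 0 := fun h => hlc (Subtype.ext h)
  have hid := congrArg (holVal τ) (key_identity hcard H P hdeg hP τ x)
  rw [map_mul, map_mul, map_pow, hE, holVal_const hlc', one_mul,
    (holVal_eq_one_iff τ _).mpr (evPt_tO_ne_zero hr H x τ), one_pow, mul_one, map_prod] at hid
  set v := holVal τ (((tO H x : AL M) : Hol) - algebraMap ℂ Hol (evPt τ (tO H x))) with hv
  have hsplit : ∏ y : QN r, holVal τ (((tO H x : AL M) : Hol) - algebraMap ℂ Hol (evPt τ (tO H y)))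
      ≤ v ^ E := by
    rw [← Finset.prod_sdiff (Finset.subset_univ Y)]
    have h1 : ∏ y ∈ Y, holVal τ (((tO H x : AL M) : Hol) - algebraMap ℂ Hol (evPt τ (tO H y)))
        = v ^ E := by
      rw [← hY, ← Finset.prod_const]
      exact Finset.prod_congr rfl fun y hy => by rw [hval y hy]
    rw [h1]
    exact mul_le_of_le_one_left' (Finset.prod_le_one' fun y _ => holVal_le_one τ _)
  rw [← hid] at hsplit
  have hE0 : 0 < E := by
    rw [← hY]; exact Finset.card_pos.mpr ⟨x, hxY⟩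
  have hv0 : v ≠ 0 := by
    intro h0
    rw [h0, zero_pow hE0.ne'] at hsplit
    exact absurd hsplit (by simp)
  have hv1 : v < 1 := by
    refine lt_of_le_of_ne (holVal_le_one τ _) fun h1 => ?_
    rw [hv, holVal_eq_one_iff] at h1
    apply h1
    show evPt τ (tO H x) - evPt τ (tO H x) = 0
    exact sub_self _
  rw [← WithZero.exp_log hv0] at hsplit hv1 ⊢
  rw [← WithZero.exp_nsmul, WithZero.exp_le_exp] at hsplit
  rw [← WithZero.exp_zero, WithZero.exp_lt_exp] at hv1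
  congr 1
  have hE' : (0 : ℤ) < E := by exact_mod_cast hE0
  rw [nsmul_eq_mul] at hsplit
  nlinarith

end Fermat.Agent.S18.Branch
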