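import Fermat.Agent.S18.Glue

/-!
# S18 from the Kummer lemma (KL'), main argument
-/

set_option autoImplicit false
set_option synthInstance.maxHeartbeats 400000

open HahnSeries IntermediateField AlgebraicCurve ModularCurve

noncomputable section

namespace Fermat.Agent.S18

open Fermat.Agent.S24

variable {A : ValuationSubring Kb} {N : ℕ} [NeZero N]
variable {r : Place Kb (FN N) → Place (kA A) (Fk (kA A) N)}

/-- the defining property of the reduction map, for good elements -/
theorem mapDomain_divF (hr : IsPlaceReductionModL A N r) {y : LaurentSeries A} (h : Good A N y)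
    (Q : Place (kA A) (Fk (kA A) N)) :
    Finsupp.mapDomain r (divF N h.up h.up_ne_zero) Q = Q.ord h.dn :=
  hr.2 y h.memF h.memk h.ne (divF N h.up h.up_ne_zero) (fun _ => rfl) Q

/-- elements of the closure of the integral principal divisors -/
theorem exists_good_of_mem_closure (E : Divisor Kb (FN N))
    (hE : E ∈ AddSubgroup.closure (integralPrincipalDivisors A (IsLocalRing.residue A) N)) :
    ∃ (y1 y2 : LaurentSeries A) (h1 : Good A N y1) (h2 : Good A N y2),
      ∀ P : Place Kb (FN N), E P = P.ord h1.up - P.ord h2.up := by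
  induction hE using AddSubgroup.closure_induction with
  | mem E hE =>
    obtain ⟨y, hy, hyk, hne, hD⟩ := hE
    refine ⟨y, 1, ⟨hy, hyk, hne⟩, Good.one, fun P => ?_⟩
    rw [Good.up_one, Place.ord_one, sub_zero]
    exact hD P
  | zero => exact ⟨1, 1, Good.one, Good.one, fun P => by simp⟩
  | add E E' _ _ hE hE' =>
    obtain ⟨y1, y2, h1, h2, h⟩ := hE
    obtain ⟨y1', y2', h1', h2', h'⟩ := hE'
    refine ⟨_, _, h1.mul h1', h2.mul h2', fun P => ?_⟩
    rw [Finsupp.add_apply, h P, h' P, Good.up_mul h1 h1', Good.up_mul h2 h2',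
      P.ord_mul h1.up_ne_zero h1'.up_ne_zero, P.ord_mul h2.up_ne_zero h2'.up_ne_zero]
    ring
  | neg E _ hE =>
    obtain ⟨y1, y2, h1, h2, h⟩ := hE
    refine ⟨_, _, h2, h1, fun P => ?_⟩
    rw [Finsupp.neg_apply, h P]
    ring

theorem sum_mapDomain_eq (D : Divisor Kb (FN N)) :
    ((Finsupp.mapDomain r D).sum fun _ n => n) = D.sum fun _ n => n :=
  Finsupp.sum_mapDomain_index (fun _ => rfl) (fun _ _ _ => rfl)

/-- two good elements whose reductions have the same divisor: the reductions are proportional -/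
theorem exists_const (hr : IsPlaceReductionModL A N r) {a b : LaurentSeries A}
    (ha : Good A N a) (hb : Good A N b)
    (hab : ∀ Q : Place (kA A) (Fk (kA A) N), Q.ord ha.dn = Q.ord hb.dn) :
    ∃ c : A, coeffMap (IsLocalRing.residue A) a =
      coeffMap (IsLocalRing.residue A) (HahnSeries.single 0 c * b) := by
  classical
  set at' : LaurentSeries (kA A) := coeffMap (IsLocalRing.residue A) a with hat
  set bt : LaurentSeries (kA A) := coeffMap (IsLocalRing.residue A) b with hbt
  have hat0 : at' ≠ 0 := ha.ne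
  have hbt0 : bt ≠ 0 := hb.ne
  set n := bt.order with hn
  have hβ : bt.coeff n ≠ 0 := HahnSeries.coeff_order_eq_zero.not.mpr hbt0
  obtain ⟨c, hc⟩ := IsLocalRing.residue_surjective (at'.coeff n / bt.coeff n)
  refine ⟨c, ?_⟩
  by_contra hne
  -- the difference
  set w : LaurentSeries A := a - HahnSeries.single 0 c * b with hw
  have hwt : coeffMap (IsLocalRing.residue A) w =
      at' - HahnSeries.single 0 (IsLocalRing.residue A c) * bt := by
    rw [hw, map_sub, map_mul, coeffMap_single]
  have hw0 : coeffMap (IsLocalRing.residue A) w ≠ 0 := by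
    rw [hw, map_sub, sub_ne_zero]
    exact hne
  have hW : Good A N w :=
    ⟨by rw [hw, map_sub, map_mul]; exact sub_mem ha.memF (mul_mem (memF_single c) hb.memF),
      by rw [hw, map_sub, map_mul]; exact sub_mem ha.memk (mul_mem (memk_single c) hb.memk), hw0⟩
  -- the order of `at'`
  have hord_a : at'.order = n := by
    have h1 : (Qinf (kA A) N).ord (ha.dn * hb.dn⁻¹) = 0 := by
      rw [Place.ord_mul _ ha.dn_ne_zero (inv_ne_zero hb.dn_ne_zero), Place.ord_inv, hab]
      ring
    have h2 := order_eq_zero_of_Qinf_ord_eq_zero (kA A) N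
      (mul_ne_zero ha.dn_ne_zero (inv_ne_zero hb.dn_ne_zero)) h1
    have h3 : ((ha.dn * hb.dn⁻¹ : Fk (kA A) N) : LaurentSeries (kA A)) = at' * bt⁻¹ := rfl
    rw [h3, HahnSeries.order_mul hat0 (inv_ne_zero hbt0), order_inv' hbt0] at h2
    omega
  -- the order of the difference
  have hord_w : n + 1 ≤ (coeffMap (IsLocalRing.residue A) w).order := by
    rw [HahnSeries.le_order_iff_forall hw0]
    intro m hm
    rw [hwt, HahnSeries.coeff_sub, HahnSeries.coeff_single_zero_mul]
    rcases lt_or_eq_of_le (Int.lt_add_one_iff.mp hm) with h | h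
    · rw [HahnSeries.coeff_eq_zero_of_lt_order (by rw [hord_a]; exact h),
        HahnSeries.coeff_eq_zero_of_lt_order h, mul_zero, sub_zero]
    · rw [h, hc, div_mul_cancel₀ _ hβ, sub_self]
  -- the quotient
  have hq : hW.dn * hb.dn⁻¹ = ha.dn * hb.dn⁻¹ - algebraMap (kA A) (Fk (kA A) N)
      (IsLocalRing.residue A c) := by
    have h1 : hW.dn = ha.dn - algebraMap (kA A) (Fk (kA A) N) (IsLocalRing.residue A c) * hb.dn := by
      apply Subtype.ext
      show coeffMap (IsLocalRing.residue A) w = at' - algebraMap (kA A) (LaurentSeries (kA A))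
        (IsLocalRing.residue A c) * bt
      rw [hwt, algebraMap_laurentSeries_eq_single]
    rw [h1, sub_mul, mul_assoc, mul_inv_cancel₀ hb.dn_ne_zero, mul_one]
  have hnonneg : ∀ Q : Place (kA A) (Fk (kA A) N), Q.ord hb.dn ≤ Q.ord hW.dn := by
    intro Q
    have h1 : ha.dn * hb.dn⁻¹ ∈ Q.toValuationSubring := by
      apply mem_of_ord_nonneg
      rw [Place.ord_mul _ ha.dn_ne_zero (inv_ne_zero hb.dn_ne_zero), Place.ord_inv, hab]
      omega
    have h2 : hW.dn * hb.dn⁻¹ ∈ Q.toValuationSubring := by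
      rw [hq]
      exact sub_mem h1 (Q.algebraMap_mem' _)
    have h3 := ord_nonneg_of_mem Q h2
    rw [Place.ord_mul _ hW.dn_ne_zero (inv_ne_zero hb.dn_ne_zero), Place.ord_inv] at h3
    omega
  have hpos : (Qinf (kA A) N).ord hb.dn < (Qinf (kA A) N).ord hW.dn := by
    have h1 : 0 < (Qinf (kA A) N).ord (hW.dn * hb.dn⁻¹) := by
      rw [Qinf_ord_pos_iff _ _ (mul_ne_zero hW.dn_ne_zero (inv_ne_zero hb.dn_ne_zero))]
      have h3 : ((hW.dn * hb.dn⁻¹ : Fk (kA A) N) : LaurentSeries (kA A)) =
        coeffMap (IsLocalRing.residue A) w * bt⁻¹ := rfl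
      rw [h3, HahnSeries.order_mul hw0 (inv_ne_zero hbt0), order_inv' hbt0]
      omega
    rw [Place.ord_mul _ hW.dn_ne_zero (inv_ne_zero hb.dn_ne_zero), Place.ord_inv] at h1
    omega
  -- the divisor
  set E : Divisor (kA A) (Fk (kA A) N) :=
    Finsupp.mapDomain r (divF N hW.up hW.up_ne_zero - divF N hb.up hb.up_ne_zero) with hE
  have hEQ : ∀ Q, E Q = Q.ord hW.dn - Q.ord hb.dn := by
    intro Q
    rw [hE, Finsupp.mapDomain_sub, Finsupp.sub_apply, mapDomain_divF hr hW, mapDomain_divF hr hb]
  have hsum : (E.sum fun _ n => n) = 0 := by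
    rw [hE, sum_mapDomain_eq, Finsupp.sum_sub_index (fun _ _ _ => rfl), sum_divF, sum_divF,
      sub_self]
  have hmem : Qinf (kA A) N ∈ E.support := by
    rw [Finsupp.mem_support_iff, hEQ]
    omega
  have hlt : 0 < E.sum fun _ n => n := by
    rw [Finsupp.sum]
    refine Finset.sum_pos' (fun Q _ => ?_) ⟨Qinf (kA A) N, hmem, ?_⟩
    · rw [hEQ]; have := hnonneg Q; omega
    · rw [hEQ]; omega
  omega

end Fermat.Agent.S18
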