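import Mathlib
import Fermat.Prelude.Def_ModularCurve_X0
import Fermat.Prelude.Def_ModularCurve_X0ModL
import Fermat.Prelude.Def_ModularCurve_LaurentCoeff
import Fermat.Prelude.Thm_ModularCurve_coeffMap_qExpand

/-!
# S18/M-B : the `q`-expansion of the Hauptmodul `t_r` as a formal Laurent series
-/

set_option autoImplicit false

open ModularCurve

noncomputable section

namespace Fermat.Agent.S18

/-- the exponent `24 / (r - 1)` -/
def kE (r : ℕ) : ℕ := 24 / (r - 1)

/-- the constant `r ^ (12 / (r - 1))` -/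
def cE (r : ℕ) : ℕ := r ^ (12 / (r - 1))

/-- the inverse of the eta product -/
def etaInv : PowerSeries ℤ := etaProd.invOfUnit 1

theorem etaProd_mul_etaInv : etaProd * etaInv = 1 :=
  PowerSeries.mul_invOfUnit _ _ (by rw [constantCoeff_etaProd]; rfl)

theorem constantCoeff_etaInv : PowerSeries.constantCoeff etaInv = 1 := by
  have h := congrArg (PowerSeries.constantCoeff (R := ℤ)) etaProd_mul_etaInv
  rwa [map_mul, constantCoeff_etaProd, one_mul, map_one] at h

section Series

variable (R : Type*) [CommRing R]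

/-- `∏ (1 - qⁿ)` as a Laurent series over `R` -/
def etaL : LaurentSeries R := HahnSeries.ofPowerSeries ℤ R (etaProd.map (Int.castRingHom R))

/-- `∏ (1 - qⁿ)⁻¹` as a Laurent series over `R` -/
def etaInvL : LaurentSeries R := HahnSeries.ofPowerSeries ℤ R (etaInv.map (Int.castRingHom R))

theorem etaL_mul_etaInvL : etaL R * etaInvL R = 1 := by
  rw [etaL, etaInvL, ← map_mul, ← map_mul, etaProd_mul_etaInv, map_one, map_one]

variable {R} in
/-- leading coefficient one at the exponent `a` -/
def Mon (a : ℤ) (x : LaurentSeries R) : Prop := x.coeff a = 1 ∧ ∀ n < a, x.coeff n = 0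

namespace Mon

variable {R}

theorem mul {x y : LaurentSeries R} {a b : ℤ} (hx : Mon a x) (hy : Mon b y) :
    Mon (a + b) (x * y) := by
  constructor
  · rw [HahnSeries.coeff_mul, Finset.sum_eq_single (a, b)]
    · rw [hx.1, hy.1, one_mul]
    · rintro ⟨i, j⟩ hij hne
      rw [Finset.mem_antidiagonal] at hij
      have h3 : i + j = a + b := hij.2.2
      by_cases h1 : i < a
      · rw [hx.2 i h1, zero_mul]
      · by_cases h2 : j < b
        · rw [hy.2 j h2, mul_zero]
        · exfalso
          apply hne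
          have : i = a := by omega
          have : j = b := by omega
          simp [*]
    · intro h
      rw [Finset.mem_antidiagonal] at h
      by_contra hne
      apply h
      refine ⟨fun h0 => hne ?_, fun h0 => hne ?_, rfl⟩
      · rw [h0, zero_mul]
      · rw [h0, mul_zero]
  · intro n hn
    rw [HahnSeries.coeff_mul]
    refine Finset.sum_eq_zero ?_
    rintro ⟨i, j⟩ hij
    rw [Finset.mem_antidiagonal] at hij
    have h3 : i + j = n := hij.2.2
    by_cases h1 : i < a
    · rw [hx.2 i h1, zero_mul]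
    · rw [hy.2 j (by omega), mul_zero]

theorem one : Mon 0 (1 : LaurentSeries R) := by
  constructor
  · simp
  · intro n hn
    rw [HahnSeries.coeff_one, if_neg hn.ne]

theorem pow {x : LaurentSeries R} (hx : Mon 0 x) (k : ℕ) : Mon 0 (x ^ k) := by
  induction k with
  | zero => rw [pow_zero]; exact one
  | succ k ih =>
    rw [pow_succ]
    have := ih.mul hx
    rwa [add_zero] at this

theorem single (a : ℤ) : Mon a (HahnSeries.single a (1 : R)) := by
  constructor
  · simp
  · intro n hn
    rw [HahnSeries.coeff_single_of_ne hn.ne]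

theorem ofPowerSeries {p : PowerSeries ℤ} (hp : PowerSeries.constantCoeff p = 1) :
    Mon 0 (HahnSeries.ofPowerSeries ℤ R (p.map (Int.castRingHom R))) := by
  constructor
  · rw [show (0 : ℤ) = ((0 : ℕ) : ℤ) from rfl, HahnSeries.ofPowerSeries_apply_coeff,
      PowerSeries.coeff_map, PowerSeries.coeff_zero_eq_constantCoeff_apply, hp]
    simp
  · intro n hn
    exact ofPowerSeries_coeff_of_neg _ hn

theorem qExpand {x : LaurentSeries R} {a : ℤ} (hx : Mon a x) (N : ℕ) [NeZero N] :
    Mon ((N : ℤ) * a) (ModularCurve.qExpand R N x) := by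
  have hN : (0 : ℤ) < N := by exact_mod_cast Nat.pos_of_ne_zero (NeZero.ne N)
  constructor
  · rw [qExpand_coeff_mul]; exact hx.1
  · intro n hn
    by_cases hd : (N : ℤ) ∣ n
    · obtain ⟨m, rfl⟩ := hd
      rw [qExpand_coeff_mul]
      exact hx.2 m (lt_of_mul_lt_mul_left hn hN.le)
    · exact qExpand_coeff_of_not_dvd N x hd

end Mon

theorem mon_etaL : Mon 0 (etaL R) := Mon.ofPowerSeries constantCoeff_etaProd

theorem mon_etaInvL : Mon 0 (etaInvL R) := Mon.ofPowerSeries constantCoeff_etaInv

variable (r : ℕ) [NeZero r]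

/-- the `q`-expansion of `t_r` -/
def tq : LaurentSeries R :=
  HahnSeries.single (-1 : ℤ) 1 * (etaL R ^ kE r * qExpand R r (etaInvL R) ^ kE r)

/-- the `q`-expansion of `1 / t_r` -/
def tqInv : LaurentSeries R :=
  HahnSeries.single (1 : ℤ) 1 * (etaInvL R ^ kE r * qExpand R r (etaL R) ^ kE r)

theorem tq_mul_tqInv : tq R r * tqInv R r = 1 := by
  have h1 : HahnSeries.single (-1 : ℤ) (1 : R) * HahnSeries.single (1 : ℤ) 1 = 1 := by
    rw [HahnSeries.single_mul_single]; simp
  have h2 : qExpand R r (etaInvL R) * qExpand R r (etaL R) = 1 := by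
    rw [← map_mul, mul_comm, etaL_mul_etaInvL, map_one]
  calc tq R r * tqInv R r
      = (HahnSeries.single (-1 : ℤ) (1 : R) * HahnSeries.single (1 : ℤ) 1) *
        ((etaL R * etaInvL R) ^ kE r * (qExpand R r (etaInvL R) * qExpand R r (etaL R)) ^ kE r) := by
        rw [tq, tqInv, mul_pow, mul_pow]; ring
    _ = 1 := by rw [h1, h2, etaL_mul_etaInvL]; simp

variable {R}

theorem coeffMap_etaL {S : Type*} [CommRing S] (f : R →+* S) : coeffMap f (etaL R) = etaL S := by
  rw [etaL, coeffMap_ofPowerSeries,
    ← RingHom.comp_apply (PowerSeries.map f) (PowerSeries.map (Int.castRingHom R)),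
    ← PowerSeries.map_comp, RingHom.ext_int (f.comp (Int.castRingHom R)) (Int.castRingHom S)]
  rfl

theorem coeffMap_etaInvL {S : Type*} [CommRing S] (f : R →+* S) :
    coeffMap f (etaInvL R) = etaInvL S := by
  rw [etaInvL, coeffMap_ofPowerSeries,
    ← RingHom.comp_apply (PowerSeries.map f) (PowerSeries.map (Int.castRingHom R)),
    ← PowerSeries.map_comp, RingHom.ext_int (f.comp (Int.castRingHom R)) (Int.castRingHom S)]
  rfl

theorem coeffMap_tq {S : Type*} [CommRing S] (f : R →+* S) : coeffMap f (tq R r) = tq S r := by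
  rw [tq, map_mul, map_mul, map_pow, map_pow, coeffMap_single, map_one, coeffMap_qExpand,
    coeffMap_etaL, coeffMap_etaInvL, tq]

theorem coeffMap_tqInv {S : Type*} [CommRing S] (f : R →+* S) :
    coeffMap f (tqInv R r) = tqInv S r := by
  rw [tqInv, map_mul, map_mul, map_pow, map_pow, coeffMap_single, map_one, coeffMap_qExpand,
    coeffMap_etaL, coeffMap_etaInvL, tqInv]

variable (R)

theorem mon_tq : Mon (-1) (tq R r) := by
  have h1 : Mon 0 (qExpand R r (etaInvL R)) := by
    have := (mon_etaInvL R).qExpand r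
    rwa [mul_zero] at this
  have h2 := (Mon.single (R := R) (-1)).mul (((mon_etaL R).pow (kE r)).mul (h1.pow (kE r)))
  simpa [tq] using h2

theorem mon_tqInv : Mon 1 (tqInv R r) := by
  have h1 : Mon 0 (qExpand R r (etaL R)) := by
    have := (mon_etaL R).qExpand r
    rwa [mul_zero] at this
  have h2 := (Mon.single (R := R) 1).mul (((mon_etaInvL R).pow (kE r)).mul (h1.pow (kE r)))
  simpa [tqInv] using h2

theorem coeff_tq_neg_one : (tq R r).coeff (-1) = 1 := (mon_tq R r).1

theorem coeff_tq_of_lt {n : ℤ} (hn : n < -1) : (tq R r).coeff n = 0 := (mon_tq R r).2 n hn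

theorem coeff_tqInv_one : (tqInv R r).coeff 1 = 1 := (mon_tqInv R r).1

theorem coeff_tqInv_of_lt {n : ℤ} (hn : n < 1) : (tqInv R r).coeff n = 0 := (mon_tqInv R r).2 n hn

end Series

end Fermat.Agent.S18
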