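import Fermat.Agent.S28.Members
import Fermat.Agent.S18.HauptSer

/-!
# S18/M-B : the Hauptmodul `t_r` as a function, and its expansion at infinity
-/

set_option autoImplicit false

open UpperHalfPlane ModularForm EisensteinSeries ModularCurve Filter Topology
open scoped MatrixGroups Manifold Real

noncomputable section

namespace Fermat.Agent.S18

open Fermat.Agent.S24 Fermat.Agent.S28

local notation "𝕢" => Function.Periodic.qParam

/-- `∏ (1 - qⁿ)` as a function on the upper half plane -/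
def PH (τ : ℍ) : ℂ := etaG (qq τ)

namespace HauptAux

theorem norm_qq_lt_one (τ : ℍ) : ‖qq τ‖ < 1 := by
  have := UpperHalfPlane.norm_qParam_lt_one 1 τ
  simpa [qq] using this

theorem qq_mem_ball (τ : ℍ) : qq τ ∈ Metric.ball (0 : ℂ) 1 := by
  simpa using norm_qq_lt_one τ

theorem qq_ne_zero (τ : ℍ) : qq τ ≠ 0 := Complex.exp_ne_zero _

theorem PH_ne_zero (τ : ℍ) : PH τ ≠ 0 := eta_tprod_ne_zero τ.2

theorem discriminant_eq (τ : ℍ) : discriminant τ = qq τ * PH τ ^ 24 := by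
  rw [discriminant_eq_q_prod, PH, etaG, ← (multipliable_one_sub_pow (norm_qq_lt_one τ)).tprod_pow 24]
  rfl

theorem qq_scaleH (d : ℕ) [NeZero d] (τ : ℍ) : qq (scaleH d τ) = qq τ ^ d := qParam_scaleH d τ

theorem etaG_zero : etaG 0 = 1 := by simp [etaG]

theorem tendsto_PH : Tendsto PH atImInfty (𝓝 1) := by
  have h1 : Tendsto etaG (𝓝 0) (𝓝 1) := by
    have := analyticAt_etaG.continuousAt.tendsto
    rwa [etaG_zero] at this
  exact h1.comp (qParam_tendsto_atImInfty one_pos)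

theorem mdiff_PH : MDiff PH := by
  rw [UpperHalfPlane.mdifferentiable_iff]
  have h1 : DifferentiableOn ℂ (fun z : ℂ => etaG (𝕢 1 z)) {z | 0 < z.im} := by
    refine DifferentiableOn.comp (t := Metric.ball (0 : ℂ) 1) differentiableOn_tprod_one_sub_pow
      RelAff.differentiable_qParam_one.differentiableOn ?_
    intro z hz
    exact qq_mem_ball ⟨z, hz⟩
  refine h1.congr fun z hz => ?_
  simp only [Function.comp_apply, ofComplex_apply_of_im_pos hz]
  rfl

theorem isQ_PH : IsQ PH :=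
  ⟨mdiff_PH, RelAff.periodic_comp_ofComplex_of (g := fun z => etaG (𝕢 1 z)) (fun _ => rfl)
    (fun z => by
      show etaG (𝕢 1 (z + 1)) = etaG (𝕢 1 z)
      rw [RelAff.periodic_qParam_one z]), tendsto_PH.isBigO_one ℝ⟩

theorem hasSum_PH (τ : ℍ) :
    HasSum (fun m : ℕ => (((etaProd.coeff m : ℤ) : ℂ)) • 𝕢 (1 : ℝ) (τ : ℂ) ^ m) (PH τ) := by
  have h := Complex.hasSum_taylorSeries_on_ball (f := etaG) (c := 0) (r := 1)
    differentiableOn_tprod_one_sub_pow (qq_mem_ball τ)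
  have e : (fun m : ℕ => (((etaProd.coeff m : ℤ) : ℂ)) • 𝕢 (1 : ℝ) (τ : ℂ) ^ m) =
      fun n : ℕ => ((n.factorial : ℂ))⁻¹ • (qq τ - 0) ^ n • iteratedDeriv n etaG 0 := by
    funext m
    rw [iteratedDeriv_etaG, sub_zero]
    have : (m.factorial : ℂ) ≠ 0 := by exact_mod_cast Nat.factorial_ne_zero m
    simp only [smul_eq_mul]
    field_simp
    rfl
  rw [e]
  exact h

theorem qExpansion_PH : qExpansion 1 PH = etaProd.map (Int.castRingHom ℂ) := by
  ext m
  rw [← qExpansion_coeff_unique' isQ_PH.analytic hasSum_PH m, PowerSeries.coeff_map]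
  simp

/-- `1 / ∏ (1 - qⁿ)` -/
def PHinv (τ : ℍ) : ℂ := (PH τ)⁻¹

theorem isQ_PHinv : IsQ PHinv := by
  refine ⟨?_, ?_, ?_⟩
  · have h1 : MDiff (fun _ : ℍ => (1 : ℂ)) := mdifferentiable_const
    have h2 := h1.div mdiff_PH PH_ne_zero
    have h3 : PHinv = (fun _ : ℍ => (1 : ℂ)) / PH := by
      ext z; simp [PHinv]
    rw [h3]; exact h2
  · intro z
    have h1 := isQ_PH.per z
    simp only [Function.comp_apply, PHinv] at h1 ⊢
    rw [h1]
  · have h := tendsto_PH.inv₀ one_ne_zero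
    rw [inv_one] at h
    exact h.isBigO_one ℝ

theorem qExpansion_PHinv : qExpansion 1 PHinv = etaInv.map (Int.castRingHom ℂ) := by
  have h1 : PHinv * PH = 1 := by
    ext z
    simp only [Pi.mul_apply, PHinv, Pi.one_apply]
    exact inv_mul_cancel₀ (PH_ne_zero z)
  have h2 := qExpansion_mul isQ_PHinv.analytic isQ_PH.analytic
  rw [h1, qExpansion_one, qExpansion_PH] at h2
  have h5 : etaProd.map (Int.castRingHom ℂ) * etaInv.map (Int.castRingHom ℂ) = 1 := by
    rw [← map_mul, etaProd_mul_etaInv, map_one]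
  calc qExpansion 1 PHinv = qExpansion 1 PHinv * (etaProd.map (Int.castRingHom ℂ) *
        etaInv.map (Int.castRingHom ℂ)) := by rw [h5, mul_one]
    _ = etaInv.map (Int.castRingHom ℂ) := by rw [← mul_assoc, ← h2, one_mul]

theorem rel_PH : Rel 1 PH (etaL Zb) := by
  have e : (PH ∘ scaleH 1) * qq ^ 0 = PH := by rw [comp_scaleH_one, pow_zero, mul_one]
  refine ⟨0, etaProd.map (Int.castRingHom Zb), ?_, ?_, ?_⟩
  · rw [e]; exact isQ_PH
  · rw [e, qExpansion_PH, map_map_int]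
  · simp [etaL]

theorem rel_PHinv : Rel 1 PHinv (etaInvL Zb) := by
  have e : (PHinv ∘ scaleH 1) * qq ^ 0 = PHinv := by rw [comp_scaleH_one, pow_zero, mul_one]
  refine ⟨0, etaInv.map (Int.castRingHom Zb), ?_, ?_, ?_⟩
  · rw [e]; exact isQ_PHinv
  · rw [e, qExpansion_PHinv, map_map_int]
  · simp [etaInvL]

theorem rel_qq : Rel 1 qq (HahnSeries.single (1 : ℤ) 1) := by
  have e : (qq ∘ scaleH 1) * qq ^ 0 = qq := by rw [comp_scaleH_one, pow_zero, mul_one]
  refine ⟨0, PowerSeries.X, ?_, ?_, ?_⟩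
  · rw [e]; exact RelAux.isQ_qq
  · rw [e, RelAux.qExpansion_qq, PowerSeries.map_X]
  · simp [HahnSeries.ofPowerSeries_X]

theorem rel_qq_inv : Rel 1 (fun τ => (qq τ)⁻¹) (HahnSeries.single (-1 : ℤ) 1) := by
  have e : ((fun τ => (qq τ)⁻¹) ∘ scaleH 1) * qq ^ 1 = 1 := by
    rw [comp_scaleH_one, pow_one]
    ext τ
    exact inv_mul_cancel₀ (qq_ne_zero τ)
  refine ⟨1, 1, ?_, ?_, ?_⟩
  · rw [e]; exact IsQ.one
  · rw [e, qExpansion_one, map_one]
  · simp

theorem rel_pow {N : ℕ} [NeZero N] {f : ℍ → ℂ} {s : LaurentSeries Zb} (h : Rel N f s) (k : ℕ) :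
    Rel N (f ^ k) (s ^ k) := by
  induction k with
  | zero =>
    rw [pow_zero, pow_zero]
    have := rel_one N
    rwa [map_one] at this
  | succ k ih => rw [pow_succ, pow_succ]; exact ih.mul h

/-- substitution `z ↦ a z` and change of the parameter `q ↦ q_N` -/
theorem rel_scale (N : ℕ) [NeZero N] {F : ℍ → ℂ} {s : LaurentSeries Zb} (h : Rel 1 F s) (a : ℕ)
    [NeZero a] : Rel N (F ∘ scaleH a) (qExpand Zb (N * a) s) := by
  have ha : 0 < a := Nat.pos_of_ne_zero (NeZero.ne a)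
  obtain ⟨s', hs', h1, h2⟩ := Rel.affine (N := N) h a 1 0 ha one_pos (N * a) (by ring)
  rw [MemAux.aff_one] at hs'
  have : s' = qExpand Zb (N * a) s := by
    ext k
    by_cases hk : ((N * a : ℕ) : ℤ) ∣ k
    · obtain ⟨n, rfl⟩ := hk
      rw [qExpand_coeff_mul, h1 n]
      simp
    · rw [h2 k hk, qExpand_coeff_of_not_dvd _ _ hk]
  rwa [this] at hs'

theorem rel_level (N : ℕ) [NeZero N] {F : ℍ → ℂ} {s : LaurentSeries Zb} (h : Rel 1 F s) :
    Rel N F (qExpand Zb N s) := by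
  have := rel_scale N h 1
  rw [comp_scaleH_one] at this
  rwa [qExpand_congr (mul_one N)] at this

end HauptAux

open HauptAux

/-- the function `t_r` -/
def tFun (r : ℕ) [NeZero r] (τ : ℍ) : ℂ :=
  (qq τ)⁻¹ * (PH τ ^ kE r * ((PH (scaleH r τ))⁻¹) ^ kE r)

/-- the function `1 / t_r` -/
def tInv (r : ℕ) [NeZero r] (τ : ℍ) : ℂ :=
  qq τ * ((PH τ)⁻¹ ^ kE r * (PH (scaleH r τ)) ^ kE r)

variable (r : ℕ) [NeZero r]

theorem tFun_mul_tInv (τ : ℍ) : tFun r τ * tInv r τ = 1 := by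
  have h1 := qq_ne_zero τ
  have h2 := PH_ne_zero τ
  have h3 := PH_ne_zero (scaleH r τ)
  rw [tFun, tInv, inv_pow, inv_pow]
  field_simp

theorem tFun_ne_zero (τ : ℍ) : tFun r τ ≠ 0 := left_ne_zero_of_mul_eq_one (tFun_mul_tInv r τ)

theorem tInv_eq (τ : ℍ) : tInv r τ = (tFun r τ)⁻¹ :=
  eq_inv_of_mul_eq_one_right (tFun_mul_tInv r τ)

theorem rel_tFun : Rel 1 (tFun r) (tq Zb r) := by
  have h1 : Rel 1 (PHinv ∘ scaleH r) (qExpand Zb r (etaInvL Zb)) := by
    have := rel_scale 1 rel_PHinv r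
    rwa [qExpand_congr (one_mul r)] at this
  exact rel_qq_inv.mul ((rel_pow rel_PH (kE r)).mul (rel_pow h1 (kE r)))

theorem rel_tInv : Rel 1 (tInv r) (tqInv Zb r) := by
  have h1 : Rel 1 (PH ∘ scaleH r) (qExpand Zb r (etaL Zb)) := by
    have := rel_scale 1 rel_PH r
    rwa [qExpand_congr (one_mul r)] at this
  exact rel_qq.mul ((rel_pow rel_PHinv (kE r)).mul (rel_pow h1 (kE r)))

theorem mdiff_tFun : MDiff (tFun r) := by
  have h1 : MDiff (fun τ : ℍ => (qq τ)⁻¹) := by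
    have h0 : MDiff (fun _ : ℍ => (1 : ℂ)) := mdifferentiable_const
    have h2 := h0.div RelAux.isQ_qq.holo qq_ne_zero
    have h3 : (fun τ : ℍ => (qq τ)⁻¹) = (fun _ : ℍ => (1 : ℂ)) / qq := by
      ext z; simp
    rw [h3]; exact h2
  have h2 : MDiff (PHinv ∘ scaleH r) := isQ_PHinv.holo.comp (mdiff_scaleH r)
  exact h1.mul ((mdiff_PH.pow (kE r)).mul (h2.pow (kE r)))

theorem mdiff_tInv : MDiff (tInv r) := by
  have h2 : MDiff (PH ∘ scaleH r) := mdiff_PH.comp (mdiff_scaleH r)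
  exact RelAux.isQ_qq.holo.mul ((isQ_PHinv.holo.pow (kE r)).mul (h2.pow (kE r)))

/-- `t_r` only depends on `q` -/
theorem tFun_congr {τ σ : ℍ} (h : qq τ = qq σ) : tFun r τ = tFun r σ := by
  simp only [tFun, PH, qq_scaleH, h]

theorem kE_mul {r : ℕ} (hr : r = 2 ∨ r = 3) : kE r * (r - 1) = 24 := by
  rcases hr with rfl | rfl <;> rfl

theorem cE_pow {r : ℕ} (hr : r = 2 ∨ r = 3) : cE r ^ (r - 1) = r ^ 12 := by
  rcases hr with rfl | rfl <;> rfl

/-- `t_r ^ (r - 1) = Δ(z) / Δ(r z)` -/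
theorem tFun_pow (hr : r = 2 ∨ r = 3) (τ : ℍ) :
    tFun r τ ^ (r - 1) * discriminant (scaleH r τ) = discriminant τ := by
  have h1 := qq_ne_zero τ
  have h3 := PH_ne_zero (scaleH r τ)
  rw [discriminant_eq, discriminant_eq τ, qq_scaleH, tFun, mul_pow, mul_pow, ← pow_mul, ← pow_mul,
    kE_mul hr, inv_pow, inv_pow]
  have h4 : qq τ ^ r = qq τ ^ (r - 1) * qq τ := by
    rw [← pow_succ]
    congr 1
    rcases hr with rfl | rfl <;> rfl
  rw [h4]
  field_simp

end Fermat.Agent.S18
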