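import Fermat.Agent.S18.HauptFun

/-!
# S18/M-B : invariance of `t_r` under `Γ₀(r)` and its behaviour at the other cusp
-/

set_option autoImplicit false

open UpperHalfPlane ModularForm EisensteinSeries ModularCurve Filter Topology
open scoped MatrixGroups Manifold Real

noncomputable section

namespace Fermat.Agent.S18

open Fermat.Agent.S24 Fermat.Agent.S28 HauptAux

local notation "𝕢" => Function.Periodic.qParam

namespace HauptAux

variable (r : ℕ) [NeZero r]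

/-- the Fricke involution `z ↦ -1 / (r z)` -/
def frW (τ : ℍ) : ℍ := ModularGroup.S • scaleH r τ

theorem coe_S_smul (z : ℍ) : ((ModularGroup.S • z : ℍ) : ℂ) = (-(z : ℂ))⁻¹ := by
  rw [UpperHalfPlane.modular_S_smul]

theorem coe_frW (τ : ℍ) : ((frW r τ : ℍ) : ℂ) = (-((r : ℂ) * τ))⁻¹ := by
  rw [frW, coe_S_smul, coe_scaleH]

theorem rC_ne_zero : (r : ℂ) ≠ 0 := by exact_mod_cast NeZero.ne r

theorem scaleH_frW (τ : ℍ) : scaleH r (frW r τ) = ModularGroup.S • τ := by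
  apply UpperHalfPlane.ext
  rw [coe_scaleH, coe_frW, coe_S_smul]
  have h1 := rC_ne_zero r
  have h2 := UpperHalfPlane.ne_zero τ
  field_simp

theorem mdiff_frW : MDiff (frW r) := (mdiff_SL_smul ModularGroup.S).comp (mdiff_scaleH r)

theorem discriminant_S (z : ℍ) :
    discriminant (ModularGroup.S • z) = (z : ℂ) ^ 12 * discriminant z := by
  rw [MembersA.discriminant_smul]
  simp [ModularGroup.S]

theorem fricke_pow (hr : r = 2 ∨ r = 3) (τ : ℍ) :
    (tFun r (frW r τ) * tFun r τ) ^ (r - 1) = (r : ℂ) ^ 12 := by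
  have a := tFun_pow r hr (frW r τ)
  have b := tFun_pow r hr τ
  rw [scaleH_frW, discriminant_S, frW, discriminant_S, coe_scaleH] at a
  have h1 := discriminant_ne_zero τ
  have h2 := discriminant_ne_zero (scaleH r τ)
  have h3 := UpperHalfPlane.ne_zero τ
  have h4 : (τ : ℂ) ^ 12 * discriminant τ * discriminant (scaleH r τ) ≠ 0 :=
    mul_ne_zero (mul_ne_zero (pow_ne_zero _ h3) h1) h2
  apply mul_right_cancel₀ h4
  rw [mul_pow]
  calc tFun r (ModularGroup.S • scaleH r τ) ^ (r - 1) * tFun r τ ^ (r - 1) *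
        ((τ : ℂ) ^ 12 * discriminant τ * discriminant (scaleH r τ))
      = (tFun r (ModularGroup.S • scaleH r τ) ^ (r - 1) * ((τ : ℂ) ^ 12 * discriminant τ)) *
        (tFun r τ ^ (r - 1) * discriminant (scaleH r τ)) := by ring
    _ = (r : ℂ) ^ 12 * ((τ : ℂ) ^ 12 * discriminant τ * discriminant (scaleH r τ)) := by
        rw [a, b]; ring

/-- `t_r(-1/(r z)) t_r(z) = ± r ^ (12 / (r - 1))` -/
theorem exists_sign (hr : r = 2 ∨ r = 3) : ∃ s : ℤ, (s = 1 ∨ s = -1) ∧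
    ∀ τ : ℍ, tFun r (frW r τ) * tFun r τ = (s : ℂ) * (cE r : ℂ) := by
  let F : Hol := ⟨fun τ => tFun r (frW r τ) * tFun r τ,
    ((mdiff_tFun r).comp (mdiff_frW r)).mul (mdiff_tFun r)⟩
  have hF : F ^ (r - 1) = (algebraMap ℂ Hol (cE r : ℂ)) ^ (r - 1) := by
    apply Subtype.ext
    funext τ
    show (tFun r (frW r τ) * tFun r τ) ^ (r - 1) = (cE r : ℂ) ^ (r - 1)
    rw [fricke_pow r hr τ]
    exact_mod_cast (cE_pow hr).symm
  rcases hr with rfl | rfl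
  · refine ⟨1, Or.inl rfl, fun τ => ?_⟩
    have h1 : F = algebraMap ℂ Hol (cE 2 : ℂ) := by simpa using hF
    have := congrFun (congrArg Subtype.val h1) τ
    simpa using this
  · have h2 : F ^ 2 = (algebraMap ℂ Hol (cE 3 : ℂ)) ^ 2 := hF
    rcases sq_eq_sq_iff_eq_or_eq_neg.mp h2 with h1 | h1
    · refine ⟨1, Or.inl rfl, fun τ => ?_⟩
      have := congrFun (congrArg Subtype.val h1) τ
      simpa using this
    · refine ⟨-1, Or.inr rfl, fun τ => ?_⟩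
      have h3 : (F : ℍ → ℂ) τ = -(cE 3 : ℂ) := congrFun (congrArg Subtype.val h1) τ
      rw [show tFun 3 (frW 3 τ) * tFun 3 τ = (F : ℍ → ℂ) τ from rfl, h3]
      simp

/-- invariance of `t_r` under `g` -/
def Inv (g : SL(2, ℤ)) : Prop := ∀ τ : ℍ, tFun r (g • τ) = tFun r τ

variable {r}

theorem Inv.mul {g h : SL(2, ℤ)} (hg : Inv r g) (hh : Inv r h) : Inv r (g * h) := fun τ => by
  rw [mul_smul, hg, hh]

theorem Inv.inv {g : SL(2, ℤ)} (hg : Inv r g) : Inv r g⁻¹ := fun τ => by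
  have := hg (g⁻¹ • τ)
  rw [smul_inv_smul] at this
  exact this.symm

variable (r)

theorem qq_eq_of_coe {τ σ : ℍ} (n : ℤ) (h : (σ : ℂ) = τ + n) : qq σ = qq τ := by
  have := (RelAff.periodic_qParam_one.int_mul n) (τ : ℂ)
  rw [mul_one] at this
  rw [qq, qq, h, this]

theorem inv_T_zpow (n : ℤ) : Inv r (ModularGroup.T ^ n) := fun τ =>
  tFun_congr r (qq_eq_of_coe n (ModularGroup.coe_T_zpow_smul_eq τ))

theorem coe_smul_eq (g : SL(2, ℤ)) (τ : ℍ) : ((g • τ : ℍ) : ℂ) =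
    (((g 0 0 : ℤ) : ℂ) * τ + ((g 0 1 : ℤ) : ℂ)) / (((g 1 0 : ℤ) : ℂ) * τ + ((g 1 1 : ℤ) : ℂ)) := by
  rw [coe_specialLinearGroup_apply]
  simp

theorem denom_ne (g : SL(2, ℤ)) (τ : ℍ) : ((g 1 0 : ℤ) : ℂ) * τ + ((g 1 1 : ℤ) : ℂ) ≠ 0 := by
  have := denom_ne_zero (g : GL (Fin 2) ℝ) τ
  rwa [ModularGroup.denom_apply] at this

theorem inv_of_upper (g : SL(2, ℤ)) (hg : g 1 0 = 0) : Inv r g := fun τ => by
  have hdet := IntStruct.det_eq_SL2 g
  rw [hg, mul_zero, sub_zero] at hdet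
  refine tFun_congr r (qq_eq_of_coe (g 0 1 * g 1 1) ?_)
  rw [coe_smul_eq, hg]
  rcases Int.eq_one_or_neg_one_of_mul_eq_one' hdet with ⟨h1, h2⟩ | ⟨h1, h2⟩
  · rw [h1, h2]; simp
  · rw [h1, h2]; simp; ring

/-- the matrix `[[1, 0], [r m, 1]]` -/
def Vm (m : ℤ) : SL(2, ℤ) := ⟨!![1, 0; (r : ℤ) * m, 1], by rw [Matrix.det_fin_two_of]; ring⟩

theorem Vm_smul (m : ℤ) (τ : ℍ) :
    Vm r m • τ = frW r (ModularGroup.T ^ (-m) • frW r τ) := by
  apply UpperHalfPlane.ext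
  have hd := denom_ne (Vm r m) τ
  rw [coe_smul_eq, coe_frW, ModularGroup.coe_T_zpow_smul_eq, coe_frW]
  have e00 : (Vm r m) 0 0 = 1 := rfl
  have e01 : (Vm r m) 0 1 = 0 := rfl
  have e10 : (Vm r m) 1 0 = (r : ℤ) * m := rfl
  have e11 : (Vm r m) 1 1 = 1 := rfl
  rw [e10, e11] at hd
  rw [e00, e01, e10, e11]
  have h1 := rC_ne_zero r
  have h2 := UpperHalfPlane.ne_zero τ
  push_cast at hd ⊢
  have h3 : -((r : ℂ) * ((-((r : ℂ) * τ))⁻¹ + -(m : ℂ))) = ((r : ℂ) * m * τ + 1) / τ := by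
    field_simp
    ring
  rw [h3, inv_div]
  simp

theorem inv_Vm (hr : r = 2 ∨ r = 3) (m : ℤ) : Inv r (Vm r m) := fun τ => by
  obtain ⟨s, hs, hW⟩ := exists_sign r hr
  have h1 := hW (ModularGroup.T ^ (-m) • frW r τ)
  rw [← Vm_smul, inv_T_zpow r (-m) (frW r τ)] at h1
  have h2 := hW τ
  have h3 := tFun_ne_zero r (frW r τ)
  have h4 : tFun r (Vm r m • τ) * tFun r (frW r τ) = tFun r τ * tFun r (frW r τ) := by
    rw [h1, ← h2, mul_comm]
  exact mul_right_cancel₀ h3 h4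

theorem exists_small (x y : ℤ) (hy : y ≠ 0) : ∃ k : ℤ, 2 * |x + k * y| ≤ |y| := by
  have h1 := Int.emod_add_mul_ediv x y
  have h2 := Int.emod_nonneg x hy
  have h3 := Int.emod_lt_abs x hy
  by_cases h : 2 * (x % y) ≤ |y|
  · refine ⟨-(x / y), ?_⟩
    have : x + -(x / y) * y = x % y := by linarith
    rw [this, abs_of_nonneg h2]
    exact h
  · rcases lt_or_gt_of_ne hy with hy' | hy'
    · refine ⟨-(x / y) + 1, ?_⟩
      have e : x + (-(x / y) + 1) * y = x % y + y := by linarith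
      rw [abs_of_neg hy'] at h h3 ⊢
      rw [e, abs_of_neg (by linarith)]
      linarith
    · refine ⟨-(x / y) - 1, ?_⟩
      have e : x + (-(x / y) - 1) * y = x % y - y := by linarith
      rw [abs_of_pos hy'] at h h3 ⊢
      rw [e, abs_of_neg (by linarith)]
      linarith

theorem inv_of_dvd_aux (hr : r = 2 ∨ r = 3) (n : ℕ) : ∀ g : SL(2, ℤ), (r : ℤ) ∣ g 1 0 →
    (g 1 0).natAbs ≤ n → Inv r g := by
  induction n with
  | zero =>
    intro g _ hn
    exact inv_of_upper r g (by omega)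
  | succ n ih =>
    intro g hg hn
    by_cases hc : g 1 0 = 0
    · exact inv_of_upper r g hc
    have hr2 : (2 : ℤ) ≤ r := by rcases hr with rfl | rfl <;> norm_num
    have hr3 : (r : ℤ) ≤ 3 := by rcases hr with rfl | rfl <;> norm_num
    obtain ⟨k, hk⟩ := exists_small (g 1 1) (g 1 0) hc
    set g1 : SL(2, ℤ) := g * ModularGroup.T ^ k with hg1
    have e10 : g1 1 0 = g 1 0 := by
      rw [hg1, Matrix.SpecialLinearGroup.coe_mul, ModularGroup.coe_T_zpow, Matrix.mul_apply]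
      simp [Fin.sum_univ_two]
    have e11 : g1 1 1 = g 1 1 + k * g 1 0 := by
      rw [hg1, Matrix.SpecialLinearGroup.coe_mul, ModularGroup.coe_T_zpow, Matrix.mul_apply]
      simp [Fin.sum_univ_two]
      ring
    have hd : g1 1 1 ≠ 0 := by
      intro h0
      have hdet := IntStruct.det_eq_SL2 g1
      rw [h0, mul_zero, zero_sub, e10] at hdet
      obtain ⟨c, hc'⟩ := hg
      have h1 : (r : ℤ) ∣ 1 := ⟨-(g1 0 1 * c), by linear_combination (-1 : ℤ) * hdet - (g1 0 1) * hc'⟩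
      have := Int.le_of_dvd one_pos h1
      omega
    have hrd : (r : ℤ) * g1 1 1 ≠ 0 := mul_ne_zero (by omega) hd
    obtain ⟨m, hm⟩ := exists_small (g 1 0) ((r : ℤ) * g1 1 1) hrd
    set g2 : SL(2, ℤ) := g1 * Vm r m with hg2
    have f10 : g2 1 0 = g 1 0 + m * ((r : ℤ) * g1 1 1) := by
      rw [hg2, Matrix.SpecialLinearGroup.coe_mul, Matrix.mul_apply]
      simp [Fin.sum_univ_two, Vm, e10]
      ring
    have hlt : |g2 1 0| < |g 1 0| := by
      rw [f10]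
      rw [← e11] at hk
      rw [abs_mul, abs_of_pos (by omega : (0 : ℤ) < r)] at hm
      have h0 : 0 < |g 1 0| := abs_pos.mpr hc
      have h5 : (r : ℤ) * |g1 1 1| ≤ 3 * |g1 1 1| :=
        mul_le_mul_of_nonneg_right hr3 (abs_nonneg _)
      linarith
    have hdv : (r : ℤ) ∣ g2 1 0 := by
      rw [f10]
      exact dvd_add hg ⟨m * g1 1 1, by ring⟩
    have hI2 : Inv r g2 := ih g2 hdv (by
      have h6 : (g2 1 0).natAbs < (g 1 0).natAbs := by
        rw [Int.abs_eq_natAbs, Int.abs_eq_natAbs] at hlt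
        exact_mod_cast hlt
      omega)
    have hgg : g = g2 * (Vm r m)⁻¹ * (ModularGroup.T ^ k)⁻¹ := by
      rw [hg2, hg1]; group
    rw [hgg]
    exact (hI2.mul (inv_Vm r hr m).inv).mul (inv_T_zpow r k).inv

end HauptAux

variable (r : ℕ) [NeZero r]

/-- `t_r` is invariant under `Γ₀(r)` -/
theorem tFun_smul_of_dvd (hr : r = 2 ∨ r = 3) (g : SL(2, ℤ)) (hg : (r : ℤ) ∣ g 1 0) (τ : ℍ) :
    tFun r (g • τ) = tFun r τ :=
  inv_of_dvd_aux r hr _ g hg le_rfl τ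

theorem tInv_smul_of_dvd (hr : r = 2 ∨ r = 3) (g : SL(2, ℤ)) (hg : (r : ℤ) ∣ g 1 0) (τ : ℍ) :
    tInv r (g • τ) = tInv r τ := by
  rw [tInv_eq, tInv_eq, tFun_smul_of_dvd r hr g hg]

namespace HauptAux

theorem dvd_one_sub_sq (hr : r = 2 ∨ r = 3) (x : ℤ) (hx : ¬ (r : ℤ) ∣ x) :
    (r : ℤ) ∣ 1 - x * x := by
  rcases hr with rfl | rfl
  · have h1 : x % 2 = 1 := by
      have : ¬ (2 : ℤ) ∣ x := by exact_mod_cast hx
      omega
    have h2 := Int.emod_add_mul_ediv x 2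
    refine ⟨-2 * (x / 2) * (x / 2) - 2 * (x / 2), ?_⟩
    rw [h1] at h2
    push_cast
    set y := x / 2
    rw [← h2]; ring
  · have h1 : x % 3 = 1 ∨ x % 3 = 2 := by
      have : ¬ (3 : ℤ) ∣ x := by exact_mod_cast hx
      omega
    have h2 := Int.emod_add_mul_ediv x 3
    set y := x / 3
    rcases h1 with h1 | h1
    · rw [h1] at h2
      refine ⟨-3 * y * y - 2 * y, ?_⟩
      push_cast
      rw [← h2]; ring
    · rw [h1] at h2
      refine ⟨-3 * y * y - 4 * y - 1, ?_⟩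
      push_cast
      rw [← h2]; ring

theorem r_pos : 0 < r := Nat.pos_of_ne_zero (NeZero.ne r)

theorem exists_coset (hr : r = 2 ∨ r = 3) (h : SL(2, ℤ)) (hh : ¬ (r : ℤ) ∣ h 1 0) :
    ∃ (γ : SL(2, ℤ)) (b : ℤ), (r : ℤ) ∣ γ 1 0 ∧ h = γ * ModularGroup.S * ModularGroup.T ^ b := by
  set b : ℤ := h 1 1 * h 1 0 with hb
  refine ⟨h * (ModularGroup.T ^ b)⁻¹ * ModularGroup.S⁻¹, b, ?_, by group⟩
  have e : (h * (ModularGroup.T ^ b)⁻¹ * ModularGroup.S⁻¹) 1 0 = -(h 1 1 - b * h 1 0) := by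
    rw [← zpow_neg, Matrix.SpecialLinearGroup.coe_mul, Matrix.SpecialLinearGroup.coe_mul,
      ModularGroup.coe_T_zpow, Matrix.SpecialLinearGroup.SL2_inv_expl, Matrix.mul_apply]
    simp [Fin.sum_univ_two, Matrix.mul_apply, ModularGroup.S]
    ring
  rw [e, hb]
  obtain ⟨c, hc⟩ := dvd_one_sub_sq r hr (h 1 0) hh
  exact ⟨-(h 1 1 * c), by linear_combination (-(h 1 1)) * hc⟩

theorem S_T_smul (b : ℤ) (τ : ℍ) :
    ModularGroup.S • (ModularGroup.T ^ b • τ) = frW r (aff 1 r b one_pos (r_pos r) τ) := by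
  rw [frW]
  congr 1
  apply UpperHalfPlane.ext
  rw [ModularGroup.coe_T_zpow_smul_eq, coe_scaleH]
  show (τ : ℂ) + b = (r : ℂ) * ((((1 : ℕ) : ℂ) * τ + b) / (r : ℂ))
  have h1 := rC_ne_zero r
  field_simp
  simp

end HauptAux

/-- the translates of `t_r` by `g ∉ Γ₀(r)` -/
theorem exists_tFun_smul (hr : r = 2 ∨ r = 3) : ∃ s : ℤ, (s = 1 ∨ s = -1) ∧
    ∀ h : SL(2, ℤ), ¬ (r : ℤ) ∣ h 1 0 → ∃ b : ℤ, ∀ τ : ℍ,
      tFun r (h • τ) = (s : ℂ) * (cE r : ℂ) * tInv r (aff 1 r b one_pos (r_pos r) τ) ∧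
      (cE r : ℂ) * tInv r (h • τ) = (s : ℂ) * tFun r (aff 1 r b one_pos (r_pos r) τ) := by
  obtain ⟨s, hs, hW⟩ := exists_sign r hr
  refine ⟨s, hs, fun h hh => ?_⟩
  obtain ⟨γ, b, hγ, rfl⟩ := exists_coset r hr h hh
  refine ⟨b, fun τ => ?_⟩
  have h1 : tFun r ((γ * ModularGroup.S * ModularGroup.T ^ b) • τ) =
      tFun r (frW r (aff 1 r b one_pos (r_pos r) τ)) := by
    rw [mul_smul, mul_smul, tFun_smul_of_dvd r hr γ hγ, S_T_smul r]
  set σ := aff 1 r b one_pos (r_pos r) τ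
  have h2 := hW σ
  have h3 := tFun_ne_zero r σ
  have h4 : tFun r (frW r σ) = (s : ℂ) * (cE r : ℂ) * tInv r σ := by
    rw [tInv_eq, ← h2]
    field_simp
  have hs2 : (s : ℂ) * (s : ℂ) = 1 := by
    rcases hs with rfl | rfl <;> simp
  have hc : (cE r : ℂ) ≠ 0 := by
    have : cE r ≠ 0 := pow_ne_zero _ (NeZero.ne r)
    exact_mod_cast this
  have hs0 : (s : ℂ) ≠ 0 := left_ne_zero_of_mul_eq_one hs2
  refine ⟨by rw [h1, h4], ?_⟩
  rw [tInv_eq, h1, h4, tInv_eq]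
  field_simp
  linear_combination (-1 : ℂ) * hs2

end Fermat.Agent.S18
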