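import Fermat.Agent.S18.Z.Main
import Fermat.Agent.S18.Z.PlaceBelow
import Fermat.Agent.S18.Glue
import Fermat.Agent.S18.Arch
import Fermat.Agent.S18.Descent

/-!
# S18 : `KLStatement` from Theorem Z and the modular input (helper27)

`ModInput A M` = what the modular pieces M-B … M-H deliver at the auxiliary level `M = lcm N r`.
-/

set_option autoImplicit false
set_option synthInstance.maxHeartbeats 400000

open HahnSeries IntermediateField AlgebraicCurve ModularCurve Polynomial

noncomputable section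

namespace Fermat.Agent.S18

open Fermat.Agent.S24 Fermat.Agent.S18.KL

/-- the modular input of Theorem Z at level `M` -/
structure ModInput (A : ValuationSubring Kb) (M : ℕ) [NeZero M] where
  /-- the Hauptmodul of the auxiliary level -/
  t : FN M
  htr : Transcendental Kb t
  hfin : FiniteDimensional Kb⟮t⟯ (FN M)
  n : ℕ
  good : GoodRed A (AdjoinSimple.gen Kb t) (FN M) (Fin n)
  c0 : A
  hc0 : IsUnit c0
  br : Br Kb (AdjoinSimple.gen Kb t) (FN M) (c0 : Kb)
  small : ∀ (y : LaurentSeries A) (hy : coeffMap A.subtype y ∈ modularFunctionFieldBar M),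
    coeffMap (IsLocalRing.residue A) y = 0 →
      SmV A (AdjoinSimple.gen Kb t) (FN M) (⟨coeffMap A.subtype y, hy⟩ : FN M)
  unit : ∀ (y : LaurentSeries A) (hy : coeffMap A.subtype y ∈ modularFunctionFieldBar M),
    coeffMap (IsLocalRing.residue A) y ≠ 0 →
      (⟨coeffMap A.subtype y, hy⟩ : FN M)⁻¹ ∈ VV A (AdjoinSimple.gen Kb t) (FN M)

section General

variable {K F : Type*} [Field K] [Field F] [Algebra K F]

theorem isGen_gen (t : F) : IsGen K (AdjoinSimple.gen K t) := by
  intro x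
  obtain ⟨r, s, hx⟩ := (mem_adjoin_simple_iff K (x : F)).mp x.2
  have hco : ∀ P : K[X], ((aeval (AdjoinSimple.gen K t) P : K⟮t⟯) : F) = aeval t P := by
    intro P
    have := Polynomial.aeval_algebraMap_apply F (AdjoinSimple.gen K t) P
    rw [AdjoinSimple.algebraMap_gen] at this
    exact this.symm
  by_cases hs : aeval t s = 0
  · refine ⟨0, 1, one_ne_zero, Subtype.ext ?_⟩
    rw [hs, div_zero] at hx
    simp [hx]
  · refine ⟨r, s, fun h => hs (by rw [h, map_zero]), Subtype.ext ?_⟩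
    rw [MulMemClass.coe_mul, hco, hco, hx, div_mul_cancel₀ _ hs]

theorem transcendental_gen {t : F} (ht : Transcendental K t) :
    Transcendental K (AdjoinSimple.gen K t) := by
  rw [← transcendental_algebraMap_iff (algebraMap K⟮t⟯ F).injective, AdjoinSimple.algebraMap_gen]
  exact ht

end General

section Level

/-- divisibility of the orders goes up (abstract version) -/
theorem dvd_ord_of_le_aux {K 𝕃 : Type*} [Field K] [IsAlgClosed K] [CharZero K] [Field 𝕃]
    [Algebra K 𝕃] (F1 F2 : IntermediateField K 𝕃) (hle : F1 ≤ F2) (hfin : relfinrank F1 F2 ≠ 0)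
    (y : F1) (hy : Transcendental K y) (hfy : FiniteDimensional K⟮y⟯ F1) (p : ℤ) (f : F1)
    (hdiv : ∀ P : Place K F1, p ∣ P.ord f) (Q : Place K F2) :
    p ∣ Q.ord (IntermediateField.inclusion hle f) := by
  letI : Algebra F1 F2 := (IntermediateField.inclusion hle).toRingHom.toAlgebra
  haveI : IsScalarTower K F1 F2 := IsScalarTower.of_algebraMap_eq fun a => rfl
  haveI : IsScalarTower F1 F2 𝕃 := IsScalarTower.of_algebraMap_eq fun a => rfl
  haveI : Algebra.IsAlgebraic F1 F2 := by
    rw [relfinrank_eq_finrank_of_le hle] at hfin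
    haveI : FiniteDimensional F1 (extendScalars hle) :=
      Module.finite_of_finrank_pos (Nat.pos_of_ne_zero hfin)
    refine ⟨fun z => ?_⟩
    have hz : IsAlgebraic F1 (⟨z.1, z.2⟩ : extendScalars hle) :=
      Algebra.IsAlgebraic.isAlgebraic _
    have hz2 : IsAlgebraic F1 (z.1 : 𝕃) :=
      (isAlgebraic_algebraMap_iff (algebraMap (extendScalars hle) 𝕃).injective).mpr hz
    exact (isAlgebraic_algebraMap_iff (algebraMap F2 𝕃).injective).mp hz2
  obtain ⟨P, e, -, hP⟩ := exists_place_below_mul (K := K) (F := F1) (E := F2) y hy hfy Q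
  have := hP f
  have e1 : algebraMap F1 F2 f = IntermediateField.inclusion hle f := rfl
  rw [e1] at this
  rw [this]
  exact Dvd.dvd.mul_left (hdiv P) e

variable {N M : ℕ} [NeZero N] [NeZero M]

/-- divisibility of the orders goes up -/
theorem dvd_ord_of_le (h : N ∣ M) (p : ℕ) (f : FN N)
    (hdiv : ∀ P : Place Kb (FN N), (p : ℤ) ∣ P.ord f) (Q : Place Kb (FN M)) :
    (p : ℤ) ∣ Q.ord (IntermediateField.inclusion (Descent.bar_le h) f) := by
  refine dvd_ord_of_le_aux _ _ (Descent.bar_le h) ?_ (jN N) (transcendental_jN N)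
    (finiteDimensional_FN N) p f hdiv Q
  intro h0
  have h1 := Descent.relfinrank_mul h
  rw [h0, mul_zero] at h1
  haveI : Finite (QN M) := Subgroup.finite_quotient_of_finiteIndex
  exact Nat.card_pos.ne h1

end Level

/-- (KL') at level `N` from the modular input at level `lcm N r` -/
theorem KL_of_modInput {N : ℕ} [NeZero N] {ℓ : ℕ} (hℓ : ℓ.Prime) (A : ValuationSubring Kb)
    (hA : A.LiesOverPrime ℓ) {r : ℕ} (hr : r.Prime) [NeZero (Nat.lcm N r)]
    (I : ModInput A (Nat.lcm N r))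
    (p : ℕ) (hp : p.Prime) (hpℓ : p ≠ ℓ) (hpr : ¬ p ∣ r + 1)
    (f : FN N) (hf : f ≠ 0) (hdiv : ∀ P : Place Kb (FN N), (p : ℤ) ∣ P.ord f)
    (y1 y2 : LaurentSeries A)
    (h1 : coeffMap A.subtype y1 ∈ modularFunctionFieldBar N)
    (h2 : coeffMap A.subtype y2 ∈ modularFunctionFieldBar N)
    (hmul : (f : LaurentSeries Kb) * coeffMap A.subtype y2 = coeffMap A.subtype y1)
    (hred : coeffMap (IsLocalRing.residue A) y1 = coeffMap (IsLocalRing.residue A) y2)
    (hne : coeffMap (IsLocalRing.residue A) y2 ≠ 0) : ∃ g : FN N, g ^ p = f := by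
  have hNM : N ∣ Nat.lcm N r := Nat.dvd_lcm_left N r
  have hle := Descent.bar_le hNM
  set M := Nat.lcm N r with hM
  set τ := AdjoinSimple.gen Kb I.t with hτdef
  haveI := I.hfin
  set fM : FN M := IntermediateField.inclusion hle f with hfM
  set Y1 : FN M := ⟨coeffMap A.subtype y1, hle h1⟩ with hY1
  set Y2 : FN M := ⟨coeffMap A.subtype y2, hle h2⟩ with hY2
  have hfM0 : fM ≠ 0 := (_root_.map_ne_zero _).mpr hf
  have hrel : fM * Y2 = Y1 := Subtype.ext hmul
  have hinj : Function.Injective (coeffMap A.subtype) := by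
    intro a b hab
    ext n
    exact congrArg (fun s => s.coeff n) hab
  have hY2ne : Y2 ≠ 0 := by
    intro h
    apply hne
    have h0 : coeffMap A.subtype y2 = 0 := congrArg Subtype.val h
    have : y2 = 0 := hinj (by rw [h0, map_zero])
    rw [this, map_zero]
  have hY1ne : Y1 ≠ 0 := by rw [← hrel]; exact mul_ne_zero hfM0 hY2ne
  have hsub : SmV A τ (FN M) (Y1 - Y2) := by
    have hy : coeffMap A.subtype (y1 - y2) ∈ modularFunctionFieldBar M := by
      rw [map_sub]; exact sub_mem (hle h1) (hle h2)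
    have := I.small (y1 - y2) hy (by rw [map_sub, hred, sub_self])
    convert this using 1
    exact Subtype.ext (by simp [hY1, hY2])
  have hu2 : Y2⁻¹ ∈ VV A τ (FN M) := I.unit y2 (hle h2) hne
  have hu1 : Y1⁻¹ ∈ VV A τ (FN M) := I.unit y1 (hle h1) (by rw [hred]; exact hne)
  have hs1 : SmV A τ (FN M) (fM - 1) := by
    have h3 := SmV.mul_left A hsub hu2
    have e : fM - 1 = Y2⁻¹ * (Y1 - Y2) := by
      rw [← hrel, mul_sub, inv_mul_cancel₀ hY2ne, mul_comm fM Y2, inv_mul_cancel_left₀ hY2ne]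
    rw [e]; exact h3
  have hs2 : SmV A τ (FN M) (fM⁻¹ - 1) := by
    have h3 := SmV.mul_left A hsub.neg hu1
    have e : fM⁻¹ - 1 = Y1⁻¹ * -(Y1 - Y2) := by
      rw [neg_sub, mul_sub, inv_mul_cancel₀ hY1ne, ← hrel, mul_inv, mul_assoc,
        inv_mul_cancel₀ hY2ne, mul_one]
    rw [e]; exact h3
  have hpA : ((p : Kb))⁻¹ ∈ A := by
    have hu := Arch.isUnit_intCast A hℓ hA (m := (p : ℤ)) (by
      intro h
      have : ℓ ∣ p := by exact_mod_cast h
      exact hpℓ ((Nat.prime_dvd_prime_iff_eq hℓ hp).mp this).symm)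
    obtain ⟨v, hv⟩ := hu
    have h3 : ((v : A) : Kb) * (((v⁻¹ : Aˣ) : A) : Kb) = 1 := congrArg Subtype.val v.mul_inv
    have h4 : ((v : A) : Kb) = (p : Kb) := by rw [hv]; simp
    rw [h4] at h3
    rw [← eq_inv_of_mul_eq_one_right h3]
    exact ((v⁻¹ : Aˣ) : A).2
  obtain ⟨u, hu⟩ := theoremZ A (Arch.arch A hℓ hA) τ (transcendental_gen I.htr) (isGen_gen I.t)
    I.good I.c0 I.hc0 I.br p hp hpA fM hfM0 (dvd_ord_of_le hNM p f hdiv) hs1 hs2
  have hu1 : (u : LaurentSeries Kb) ^ p = f.1 := congrArg Subtype.val hu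
  have huN : (u : LaurentSeries Kb) ∈ modularFunctionFieldBar N :=
    Descent.mem_of_pow_mem_lcm hr hp hpr u.2 (by rw [hu1]; exact f.2)
  exact ⟨⟨u.1, huN⟩, Subtype.ext hu1⟩

end Fermat.Agent.S18
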