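import Mathlib

/-!
# S18 / KL / (e) : the abstract connectedness core

`A` is a valuation ring, `E` a field containing `A`, `R0, R1 ≤ R01` are `A`-subalgebras of `E`
(in the application the integral closures of `A[t]`, `A[1/t]`, `A[t, 1/t]`).

* `bounded_torsion_of_span` : a finitely generated module over a domain has bounded torsion
  (stated for a submodule `S` and finitely many additional generators);
* `bounded_torsion` : `R01 / (R0 + R1)` has bounded torsion if `R0` is finite over `A[t]`;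
* `idem_const` : an idempotent of the special fibre which lifts to `R0` and to `R1` is constant.
-/

set_option autoImplicit false

namespace Fermat.Agent.S18.KLConn

open IsLocalRing

section Torsion

variable {A V : Type*} [CommRing A] [IsDomain A] [AddCommGroup V] [Module A V]

/-- bounded torsion of `(S + span F) / S` -/
theorem bounded_torsion_of_span (F : Finset V) : ∀ S : Submodule A V,
    ∃ c : A, c ≠ 0 ∧ ∀ (a : A) (x : V), a ≠ 0 → x ∈ S ⊔ Submodule.span A (F : Set V) →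
      a • x ∈ S → c • x ∈ S := by
  classical
  induction F using Finset.induction_on with
  | empty =>
    intro S
    refine ⟨1, one_ne_zero, fun a x _ hx _ => ?_⟩
    simpa using hx
  | insert g F _ ih =>
    intro S
    obtain ⟨c, hc, h⟩ := ih (S ⊔ Submodule.span A {g})
    have hsup : S ⊔ Submodule.span A ((insert g F : Finset V) : Set V) =
        S ⊔ Submodule.span A {g} ⊔ Submodule.span A (F : Set V) := by
      rw [Finset.coe_insert, Submodule.span_insert, sup_assoc]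
    by_cases hg : ∃ c' : A, c' ≠ 0 ∧ c' • g ∈ S
    · obtain ⟨c', hc', hg⟩ := hg
      refine ⟨c' * c, mul_ne_zero hc' hc, fun a x ha hx hax => ?_⟩
      rw [hsup] at hx
      have h1 := h a x ha hx (Submodule.mem_sup_left hax)
      obtain ⟨s, hs, y, hy, hsy⟩ := Submodule.mem_sup.mp h1
      obtain ⟨r, rfl⟩ := Submodule.mem_span_singleton.mp hy
      rw [mul_smul, ← hsy, smul_add, smul_comm]
      exact S.add_mem (S.smul_mem _ hs) (S.smul_mem _ hg)
    · refine ⟨c, hc, fun a x ha hx hax => ?_⟩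
      rw [hsup] at hx
      have h1 := h a x ha hx (Submodule.mem_sup_left hax)
      obtain ⟨s, hs, y, hy, hsy⟩ := Submodule.mem_sup.mp h1
      obtain ⟨r, rfl⟩ := Submodule.mem_span_singleton.mp hy
      have h2 : (a * r) • g ∈ S := by
        have : (a * r) • g = c • (a • x) - a • s := by
          rw [smul_comm c a x, ← hsy, smul_add, mul_smul]; abel
        rw [this]
        exact S.sub_mem (S.smul_mem _ hax) (S.smul_mem _ hs)
      have h3 : a * r = 0 := by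
        by_contra h3
        exact hg ⟨_, h3, h2⟩
      have hr : r = 0 := (mul_eq_zero.mp h3).resolve_left ha
      rw [← hsy, hr, zero_smul, add_zero]
      exact hs

end Torsion

section H1

variable {A E : Type*} [CommRing A] [IsDomain A] [Field E] [Algebra A E]

omit [IsDomain A] in
/-- `t ^ j * g` lies in `R0 + R1 +` (a finitely generated module) for all `j : ℤ` -/
theorem zpow_mul_mem [DecidableEq E] {R0 R1 : Subalgebra A E} {t : E} (ht0 : t ∈ R0)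
    (ht1 : t⁻¹ ∈ R1) (G : Finset E) (hG0 : ∀ g ∈ G, g ∈ R0) (κ : ℕ)
    (hκ : ∀ g ∈ G, t⁻¹ ^ κ * g ∈ R1) (g : E) (hg : g ∈ G) (j : ℤ) :
    t ^ j * g ∈ Subalgebra.toSubmodule R0 ⊔ Subalgebra.toSubmodule R1 ⊔
      Submodule.span A (((G ×ˢ Finset.range κ).image fun x => t⁻¹ ^ x.2 * x.1 : Finset E) : Set E) := by
  rcases le_or_gt 0 j with hj | hj
  · obtain ⟨n, rfl⟩ := Int.eq_ofNat_of_zero_le hj
    refine Submodule.mem_sup_left (Submodule.mem_sup_left ?_)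
    rw [zpow_natCast]
    exact R0.mul_mem (R0.pow_mem ht0 n) (hG0 g hg)
  · obtain ⟨n, rfl⟩ : ∃ n : ℕ, j = -(n : ℤ) := ⟨(-j).toNat, by omega⟩
    have e : t ^ (-(n : ℤ)) = t⁻¹ ^ n := by rw [zpow_neg, zpow_natCast, inv_pow]
    rw [e]
    rcases lt_or_ge n κ with hn | hn
    · refine Submodule.mem_sup_right (Submodule.subset_span ?_)
      rw [Finset.mem_coe, Finset.mem_image]
      exact ⟨(g, n), Finset.mem_product.mpr ⟨hg, Finset.mem_range.mpr hn⟩, rfl⟩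
    · refine Submodule.mem_sup_left (Submodule.mem_sup_right ?_)
      obtain ⟨i, rfl⟩ := Nat.exists_eq_add_of_le hn
      rw [add_comm, pow_add, mul_assoc]
      exact R1.mul_mem (R1.pow_mem ht1 i) (hκ g hg)

/-- **(e1)** `R01 / (R0 + R1)` has bounded torsion. -/
theorem bounded_torsion {R0 R1 R01 : Subalgebra A E} {t : E} (ht : t ≠ 0) (ht0 : t ∈ R0)
    (ht1 : t⁻¹ ∈ R1) (h0 : R0 ≤ R01)
    (hloc0 : ∀ x ∈ R01, ∃ n : ℕ, t ^ n * x ∈ R0)
    (hloc1 : ∀ x ∈ R01, ∃ n : ℕ, t⁻¹ ^ n * x ∈ R1)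
    (G : Finset E)
    (hG : Subalgebra.toSubmodule R0 =
      Submodule.span A {y | ∃ g ∈ G, ∃ e : ℕ, y = t ^ e * g}) :
    ∃ c : A, c ≠ 0 ∧ ∀ (a : A) (x : E), a ≠ 0 → x ∈ R01 →
      a • x ∈ Subalgebra.toSubmodule R0 ⊔ Subalgebra.toSubmodule R1 →
      c • x ∈ Subalgebra.toSubmodule R0 ⊔ Subalgebra.toSubmodule R1 := by
  classical
  have hG0 : ∀ g ∈ G, g ∈ R0 := by
    intro g hg
    rw [← Subalgebra.mem_toSubmodule, hG]
    exact Submodule.subset_span ⟨g, hg, 0, by simp⟩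
  choose! ν hν using fun g (hg : g ∈ G) => hloc1 g (h0 (hG0 g hg))
  set κ : ℕ := G.sup ν with hκdef
  have hκ : ∀ g ∈ G, t⁻¹ ^ κ * g ∈ R1 := by
    intro g hg
    obtain ⟨i, hi⟩ := Nat.exists_eq_add_of_le (Finset.le_sup (f := ν) hg)
    rw [← hκdef] at hi
    rw [hi, add_comm, pow_add, mul_assoc]
    exact R1.mul_mem (R1.pow_mem ht1 i) (hν g hg)
  obtain ⟨c, hc, h⟩ := bounded_torsion_of_span (A := A)
    ((G ×ˢ Finset.range κ).image fun x => t⁻¹ ^ x.2 * x.1 : Finset E)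
    (Subalgebra.toSubmodule R0 ⊔ Subalgebra.toSubmodule R1)
  refine ⟨c, hc, fun a x ha hx hax => h a x ha ?_ hax⟩
  obtain ⟨n, hn⟩ := hloc0 x hx
  rw [← Subalgebra.mem_toSubmodule, hG] at hn
  have key : ∀ y ∈ Submodule.span A {y | ∃ g ∈ G, ∃ e : ℕ, y = t ^ e * g},
      t⁻¹ ^ n * y ∈ Subalgebra.toSubmodule R0 ⊔ Subalgebra.toSubmodule R1 ⊔
        Submodule.span A
          (((G ×ˢ Finset.range κ).image fun x => t⁻¹ ^ x.2 * x.1 : Finset E) : Set E) := by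
    intro y hy
    induction hy using Submodule.span_induction with
    | mem y hy =>
      obtain ⟨g, hg, e, rfl⟩ := hy
      have := zpow_mul_mem ht0 ht1 G hG0 κ hκ g hg ((e : ℤ) - n)
      rwa [zpow_sub₀ ht, zpow_natCast, zpow_natCast, div_eq_mul_inv, mul_comm (t ^ e), ← inv_pow,
        mul_assoc] at this
    | zero => rw [mul_zero]; exact Submodule.zero_mem _
    | add y z _ _ hy hz => rw [mul_add]; exact Submodule.add_mem _ hy hz
    | smul r y _ hy => rw [mul_smul_comm]; exact Submodule.smul_mem _ r hy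
  have := key _ hn
  rwa [← mul_assoc, ← mul_pow, inv_mul_cancel₀ ht, one_pow, one_mul] at this

end H1

section Idem

variable {A E : Type*} [CommRing A] [Field E] [Algebra A E]

/-- Newton iteration `e ↦ 3 e ^ 2 - 2 e ^ 3` -/
theorem newton {S : Subalgebra A E} {β e : E} (hβ : β ∈ S) (he : e ∈ S)
    (h : ∃ y ∈ S, e ^ 2 - e = β * y) (n : ℕ) :
    ∃ e' ∈ S, (∃ z ∈ S, e' - e = β * z) ∧ ∃ y ∈ S, e' ^ 2 - e' = β ^ (n + 1) * y := by
  induction n with
  | zero =>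
    obtain ⟨y, hy, hey⟩ := h
    exact ⟨e, he, ⟨0, S.zero_mem, by ring⟩, y, hy, by rw [hey]; ring⟩
  | succ n ih =>
    obtain ⟨e', he', ⟨z, hz, hez⟩, y, hy, hey⟩ := ih
    have h2 : (2 : E) ∈ S := by simp
    have h3 : (3 : E) ∈ S := by simp
    have h4 : (4 : E) ∈ S := by simp
    refine ⟨3 * e' ^ 2 - 2 * e' ^ 3,
      S.sub_mem (S.mul_mem h3 (S.pow_mem he' 2)) (S.mul_mem h2 (S.pow_mem he' 3)),
      ⟨z - β ^ n * y * (2 * e' - 1), ?_, ?_⟩,
      β ^ n * y ^ 2 * (4 * e' ^ 2 - 4 * e' - 3), ?_, ?_⟩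
    · exact S.sub_mem hz (S.mul_mem (S.mul_mem (S.pow_mem hβ n) hy)
        (S.sub_mem (S.mul_mem h2 he') S.one_mem))
    · linear_combination hez - (2 * e' - 1) * hey
    · exact S.mul_mem (S.mul_mem (S.pow_mem hβ n) (S.pow_mem hy 2))
        (S.sub_mem (S.sub_mem (S.mul_mem h4 (S.pow_mem he' 2)) (S.mul_mem h4 he')) h3)
    · linear_combination (4 * e' ^ 2 - 4 * e' - 3) * (e' ^ 2 - e' + β ^ (n + 1) * y) * hey

/-- two idempotents modulo `β ^ (n + 1)` which are congruent modulo `β` are congruent modulo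
`β ^ (n + 1)` -/
theorem sub_eq_pow_mul {S : Subalgebra A E} {β e f : E} (hβ : β ∈ S) (he : e ∈ S) (hf : f ∈ S)
    (n : ℕ) (h1 : ∃ y ∈ S, e ^ 2 - e = β ^ (n + 1) * y) (h2 : ∃ y ∈ S, f ^ 2 - f = β ^ (n + 1) * y)
    (h3 : ∃ z ∈ S, e - f = β * z) : ∃ z ∈ S, e - f = β ^ (n + 1) * z := by
  obtain ⟨y1, hy1, h1⟩ := h1
  obtain ⟨y2, hy2, h2⟩ := h2
  have h3' : (3 : E) ∈ S := by simp
  have key : ∀ k : ℕ, k ≤ n → ∃ z ∈ S, e - f = β ^ (k + 1) * z := by
    intro k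
    induction k with
    | zero =>
      intro _
      obtain ⟨z, hz, h⟩ := h3
      exact ⟨z, hz, by rw [h]; ring⟩
    | succ k ih =>
      intro hk
      obtain ⟨z, hz, h⟩ := ih (by omega)
      obtain ⟨j, rfl⟩ : ∃ j, n = k + 1 + j := Nat.exists_eq_add_of_le hk
      refine ⟨β ^ (2 * k + 1) * z ^ 3 - β ^ j * y1 * (1 + e - 3 * f) +
        β ^ j * y2 * (1 + f - 3 * e), ?_, ?_⟩
      · refine S.add_mem (S.sub_mem (S.mul_mem (S.pow_mem hβ _) (S.pow_mem hz 3))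
          (S.mul_mem (S.mul_mem (S.pow_mem hβ _) hy1) ?_))
          (S.mul_mem (S.mul_mem (S.pow_mem hβ _) hy2) ?_)
        · exact S.sub_mem (S.add_mem S.one_mem he) (S.mul_mem h3' hf)
        · exact S.sub_mem (S.add_mem S.one_mem hf) (S.mul_mem h3' he)
      · have hd : (e - f) ^ 3 = β ^ (k + 1 + 1) * (β ^ (2 * k + 1) * z ^ 3) := by
          rw [h]; ring
        have e1 : β ^ (k + 1 + j + 1) = β ^ (k + 1 + 1) * β ^ j := by ring
        rw [e1] at h1 h2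
        linear_combination hd - (1 + e - 3 * f) * h1 + (1 + f - 3 * e) * h2
  exact key n le_rfl

end Idem

section Main

variable {A E : Type*} [CommRing A] [IsDomain A] [ValuationRing A] [Field E] [Algebra A E]

/-- over a valuation ring the elements of `𝔪 N` are of the form `b y` -/
theorem mem_maximalIdeal_smul_iff {V : Type*} [AddCommGroup V] [Module A V] (N : Submodule A V)
    (x : V) : x ∈ maximalIdeal A • N ↔ ∃ b ∈ maximalIdeal A, ∃ y ∈ N, x = b • y := by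
  constructor
  · intro hx
    induction hx using Submodule.smul_induction_on' with
    | smul b hb y hy => exact ⟨b, hb, y, hy, rfl⟩
    | add x1 _ x2 _ h1 h2 =>
      obtain ⟨b1, hb1, y1, hy1, rfl⟩ := h1
      obtain ⟨b2, hb2, y2, hy2, rfl⟩ := h2
      rcases ValuationRing.dvd_total b1 b2 with ⟨r, rfl⟩ | ⟨r, rfl⟩
      · exact ⟨b1, hb1, y1 + r • y2, N.add_mem hy1 (N.smul_mem r hy2), by
          rw [smul_add, mul_smul]⟩
      · exact ⟨b2, hb2, r • y1 + y2, N.add_mem (N.smul_mem r hy1) hy2, by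
          rw [smul_add, mul_smul]⟩
  · rintro ⟨b, hb, y, hy, rfl⟩
    exact Submodule.smul_mem_smul hb hy

/-- a common `b` for three elements -/
theorem exists_common {V : Type*} [AddCommGroup V] [Module A V] (N1 N2 N3 : Submodule A V)
    {x1 x2 x3 : V} (h1 : x1 ∈ maximalIdeal A • N1) (h2 : x2 ∈ maximalIdeal A • N2)
    (h3 : x3 ∈ maximalIdeal A • N3) :
    ∃ b ∈ maximalIdeal A, (∃ y ∈ N1, x1 = b • y) ∧ (∃ y ∈ N2, x2 = b • y) ∧
      ∃ y ∈ N3, x3 = b • y := by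
  obtain ⟨b1, hb1, y1, hy1, rfl⟩ := (mem_maximalIdeal_smul_iff N1 x1).mp h1
  obtain ⟨b2, hb2, y2, hy2, rfl⟩ := (mem_maximalIdeal_smul_iff N2 x2).mp h2
  obtain ⟨b3, hb3, y3, hy3, rfl⟩ := (mem_maximalIdeal_smul_iff N3 x3).mp h3
  -- `b` divides `b1`, `b2`, `b3`
  obtain ⟨b, hb, ⟨r1, rfl⟩, ⟨r2, rfl⟩, ⟨r3, rfl⟩⟩ :
      ∃ b ∈ maximalIdeal A, b ∣ b1 ∧ b ∣ b2 ∧ b ∣ b3 := by
    rcases ValuationRing.dvd_total b1 b2 with h12 | h12
    · rcases ValuationRing.dvd_total b1 b3 with h13 | h13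
      · exact ⟨b1, hb1, dvd_rfl, h12, h13⟩
      · exact ⟨b3, hb3, h13, h13.trans h12, dvd_rfl⟩
    · rcases ValuationRing.dvd_total b2 b3 with h23 | h23
      · exact ⟨b2, hb2, h12, dvd_rfl, h23⟩
      · exact ⟨b3, hb3, h23.trans h12, h23, dvd_rfl⟩
  exact ⟨b, hb, ⟨r1 • y1, N1.smul_mem _ hy1, mul_smul _ _ _⟩,
    ⟨r2 • y2, N2.smul_mem _ hy2, mul_smul _ _ _⟩, ⟨r3 • y3, N3.smul_mem _ hy3, mul_smul _ _ _⟩⟩

/-- **(e2)** An idempotent of the special fibre which lifts to `R0` and to `R1` is constant. -/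
theorem idem_const {R0 R1 R01 : Subalgebra A E}
    (h0 : R0 ≤ R01) (h1 : R1 ≤ R01)
    (hcap : ∀ x ∈ R0, x ∈ R1 → ∃ l : A, algebraMap A E l = x)
    (harch : ∀ b ∈ maximalIdeal A, ∀ c : A, c ≠ 0 → ∃ n : ℕ, c ∣ b ^ n)
    {c : A} (hc : c ≠ 0)
    (hH : ∀ (a : A) (x : E), a ≠ 0 → x ∈ R01 →
      a • x ∈ Subalgebra.toSubmodule R0 ⊔ Subalgebra.toSubmodule R1 →
      c • x ∈ Subalgebra.toSubmodule R0 ⊔ Subalgebra.toSubmodule R1)
    {e0 e1 : E} (he0 : e0 ∈ R0) (he1 : e1 ∈ R1)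
    (hi0 : e0 ^ 2 - e0 ∈ maximalIdeal A • Subalgebra.toSubmodule R0)
    (hi1 : e1 ^ 2 - e1 ∈ maximalIdeal A • Subalgebra.toSubmodule R1)
    (h01 : e0 - e1 ∈ maximalIdeal A • Subalgebra.toSubmodule R01) :
    ∃ l : A, e0 - algebraMap A E l ∈ maximalIdeal A • Subalgebra.toSubmodule R0 := by
  obtain ⟨b, hb, ⟨y0, hy0, hi0⟩, ⟨y1, hy1, hi1⟩, ⟨y01, hy01, h01⟩⟩ := exists_common _ _ _ hi0 hi1 h01
  rw [Subalgebra.mem_toSubmodule] at hy0 hy1 hy01
  rw [Algebra.smul_def] at hi0 hi1 h01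
  by_cases hb0 : b = 0
  · -- then `e0 = e1`
    rw [hb0, map_zero, zero_mul, sub_eq_zero] at h01
    obtain ⟨l, hl⟩ := hcap e0 he0 (h01 ▸ he1)
    exact ⟨l, by rw [hl, sub_self]; exact Submodule.zero_mem _⟩
  obtain ⟨n, q, hq⟩ := harch b hb c hc
  set β : E := algebraMap A E b with hβ
  obtain ⟨f0, hf0, ⟨z0, hz0, hfz0⟩, u0, hu0, hfu0⟩ :=
    newton (R0.algebraMap_mem b) he0 ⟨y0, hy0, hi0⟩ n
  obtain ⟨f1, hf1, ⟨z1, hz1, hfz1⟩, u1, hu1, hfu1⟩ :=
    newton (R1.algebraMap_mem b) he1 ⟨y1, hy1, hi1⟩ n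
  obtain ⟨d, hd, hfd⟩ := sub_eq_pow_mul (R01.algebraMap_mem b) (h0 hf0) (h1 hf1) n
    ⟨u0, h0 hu0, hfu0⟩ ⟨u1, h1 hu1, hfu1⟩
    ⟨z0 - z1 + y01, R01.add_mem (R01.sub_mem (h0 hz0) (h1 hz1)) hy01, by
      linear_combination hfz0 - hfz1 + h01⟩
  have hmem : (b ^ (n + 1)) • d ∈ Subalgebra.toSubmodule R0 ⊔ Subalgebra.toSubmodule R1 := by
    rw [Algebra.smul_def, map_pow, ← hfd, sub_eq_add_neg]
    exact Submodule.add_mem_sup hf0 (R1.neg_mem hf1)
  obtain ⟨v0, hv0, v1, hv1, hv⟩ := Submodule.mem_sup.mp (hH _ d (pow_ne_zero _ hb0) hd hmem)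
  rw [Subalgebra.mem_toSubmodule] at hv0 hv1
  rw [Algebra.smul_def] at hv
  -- `b ^ (n + 1) = c * (b * q)`
  set γ : E := algebraMap A E c with hγ
  set δ : E := algebraMap A E (b * q) with hδ
  have hpow : β ^ (n + 1) = γ * δ := by
    rw [hβ, hγ, hδ, ← map_pow, ← map_mul, pow_succ, hq]; congr 1; ring
  have hμ : f0 - δ * v0 = f1 + δ * v1 := by
    rw [hpow] at hfd
    linear_combination hfd - δ * hv
  obtain ⟨l, hl⟩ := hcap (f0 - δ * v0) (R0.sub_mem hf0 (R0.mul_mem (R0.algebraMap_mem _) hv0))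
    (hμ ▸ R1.add_mem hf1 (R1.mul_mem (R1.algebraMap_mem _) hv1))
  refine ⟨l, ?_⟩
  have : e0 - algebraMap A E l = (b * q) • v0 - b • z0 := by
    rw [hl, Algebra.smul_def, Algebra.smul_def]
    linear_combination -hfz0
  rw [this]
  exact Submodule.sub_mem _ (Submodule.smul_mem_smul (Ideal.mul_mem_right _ _ hb) hv0)
    (Submodule.smul_mem_smul hb hz0)

/-- **(e)** the two parts combined. -/
theorem idem_const_of_finite
    {R0 R1 R01 : Subalgebra A E} {t : E} (ht : t ≠ 0) (ht0 : t ∈ R0) (ht1 : t⁻¹ ∈ R1)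
    (h0 : R0 ≤ R01) (h1 : R1 ≤ R01)
    (hloc0 : ∀ x ∈ R01, ∃ n : ℕ, t ^ n * x ∈ R0)
    (hloc1 : ∀ x ∈ R01, ∃ n : ℕ, t⁻¹ ^ n * x ∈ R1)
    (G : Finset E)
    (hG : Subalgebra.toSubmodule R0 =
      Submodule.span A {y | ∃ g ∈ G, ∃ e : ℕ, y = t ^ e * g})
    (hcap : ∀ x ∈ R0, x ∈ R1 → ∃ l : A, algebraMap A E l = x)
    (harch : ∀ b ∈ maximalIdeal A, ∀ c : A, c ≠ 0 → ∃ n : ℕ, c ∣ b ^ n)
    {e0 e1 : E} (he0 : e0 ∈ R0) (he1 : e1 ∈ R1)
    (hi0 : e0 ^ 2 - e0 ∈ maximalIdeal A • Subalgebra.toSubmodule R0)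
    (hi1 : e1 ^ 2 - e1 ∈ maximalIdeal A • Subalgebra.toSubmodule R1)
    (h01 : e0 - e1 ∈ maximalIdeal A • Subalgebra.toSubmodule R01) :
    ∃ l : A, e0 - algebraMap A E l ∈ maximalIdeal A • Subalgebra.toSubmodule R0 := by
  obtain ⟨c, hc, hH⟩ := bounded_torsion ht ht0 ht1 h0 hloc0 hloc1 G hG
  exact idem_const h0 h1 hcap harch hc hH he0 he1 hi0 hi1 h01

end Main

end Fermat.Agent.S18.KLConn
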