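import Mathlib

/-!
# S18 / KL / (c) : the different in residue characteristic zero
-/

set_option autoImplicit false

namespace Fermat.Agent.S18.KLDiff

open Algebra nonZeroDivisors

attribute [local instance] FractionRing.liftAlgebra FractionRing.isScalarTower_liftAlgebra
  Ideal.Quotient.field

section C1

variable (A : Type*) {B : Type*} [CommRing A] [CommRing B] [Algebra A B] [IsDedekindDomain A]
  [IsDedekindDomain B] [Module.IsTorsionFree A B] [Module.Finite A B]

/-- **(c1)** If `p B = P * Q` with `P`, `Q` coprime, `P ≠ ⊤` and the residue field of `p` has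
characteristic zero, then `P` does not divide the different. (Apply it to `P = 𝔓 ^ e`.) -/
theorem not_dvd_differentIdeal_of_charZero
    [Algebra.IsSeparable (FractionRing A) (FractionRing B)]
    {p : Ideal A} [p.IsMaximal] [CharZero (A ⧸ p)] (P Q : Ideal B) (hPne : P ≠ ⊤)
    (hPQ : IsCoprime P Q) (hP : P * Q = Ideal.map (algebraMap A B) p) :
    ¬ P ∣ differentIdeal A B := by
  let _ : Algebra (A ⧸ p) (B ⧸ Q) := Ideal.Quotient.algebraQuotientOfLEComap (by
      rw [← Ideal.map_le_iff_le_comap, ← hP]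
      exact Ideal.mul_le_right)
  let _ : Algebra (A ⧸ p) (B ⧸ P) := Ideal.Quotient.algebraQuotientOfLEComap (by
      rw [← Ideal.map_le_iff_le_comap, ← hP]
      exact Ideal.mul_le_left)
  have : IsScalarTower A (A ⧸ p) (B ⧸ Q) := .of_algebraMap_eq' rfl
  have : IsScalarTower A (A ⧸ p) (B ⧸ P) := .of_algebraMap_eq' rfl
  have : Module.Finite (A ⧸ p) (B ⧸ Q) :=
    Module.Finite.of_restrictScalars_finite A (A ⧸ p) (B ⧸ Q)
  have : Module.Finite (A ⧸ p) (B ⧸ P) :=
    Module.Finite.of_restrictScalars_finite A (A ⧸ p) (B ⧸ P)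
  have : Nontrivial (B ⧸ P) := Ideal.Quotient.nontrivial_iff.mpr hPne
  let e : (B ⧸ p.map (algebraMap A B)) ≃ₐ[A ⧸ p] ((B ⧸ P) × B ⧸ Q) :=
    { __ := (Ideal.quotEquivOfEq hP.symm).trans (Ideal.quotientMulEquivQuotientProd P Q hPQ),
      commutes' := Quotient.ind fun _ ↦ rfl }
  obtain ⟨y, hy⟩ := Ideal.Quotient.mk_surjective (e.symm (1, 0))
  refine not_dvd_differentIdeal_of_intTrace_not_mem A P Q hP y ?_ ?_
  · have := congr((e $hy).2)
    simp at this
    simpa [e, Ideal.Quotient.eq_zero_iff_mem] using this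
  · rw [← Ideal.Quotient.eq_zero_iff_mem, ← Algebra.trace_quotient_eq_of_isDedekindDomain,
      hy, Algebra.trace_eq_of_algEquiv, Algebra.trace_prod_apply]
    have h1 : Algebra.trace (A ⧸ p) (B ⧸ P) 1 = (Module.finrank (A ⧸ p) (B ⧸ P) : A ⧸ p) := by
      have := Algebra.trace_algebraMap (R := A ⧸ p) (S := B ⧸ P) 1
      simpa using this
    simp only [map_zero, add_zero, h1]
    exact_mod_cast Module.finrank_pos.ne'

end C1

section Ded

variable {B : Type*} [CommRing B] [IsDedekindDomain B]

theorem dvd_of_emultiplicity_le {X Y : Ideal B} (hX : X ≠ ⊥) (hY : Y ≠ ⊥)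
    (h : ∀ P : Ideal B, Prime P → emultiplicity P X ≤ emultiplicity P Y) : X ∣ Y := by
  classical
  rw [UniqueFactorizationMonoid.dvd_iff_normalizedFactors_le_normalizedFactors hX hY,
    Multiset.le_iff_count]
  intro P
  by_cases hP : P ∈ UniqueFactorizationMonoid.normalizedFactors X
  · have hp := UniqueFactorizationMonoid.prime_of_normalized_factor P hP
    have := h P hp
    rw [UniqueFactorizationMonoid.emultiplicity_eq_count_normalizedFactors hp.irreducible hX,
      UniqueFactorizationMonoid.emultiplicity_eq_count_normalizedFactors hp.irreducible hY,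
      normalize_eq] at this
    exact_mod_cast this
  · rw [Multiset.count_eq_zero_of_notMem hP]
    exact Nat.zero_le _

theorem emultiplicity_radical_le_one {I : Ideal B} (hI : I ≠ ⊥) {P : Ideal B} (hP : Prime P) :
    emultiplicity P I.radical ≤ 1 := by
  have hJ : I.radical ≠ ⊥ := fun h => hI (le_bot_iff.mp (h ▸ Ideal.le_radical))
  have hrad : IsRadical (I.radical) := by
    intro n Y hY
    rw [Ideal.dvd_iff_le] at hY ⊢
    intro y hy
    exact (Ideal.radical_isRadical I) ⟨n, hY (Ideal.pow_mem_pow hy n)⟩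
  have hsq := hrad.squarefree hJ
  rcases (squarefree_iff_emultiplicity_le_one _).mp hsq P with h | h
  · exact h
  · exact absurd h hP.not_isUnit

end Ded

section C2

variable (A : Type*) {B : Type*} [CommRing A] [CommRing B] [Algebra A B] [IsDedekindDomain A]
  [IsDedekindDomain B] [Module.IsTorsionFree A B] [Module.Finite A B]

/-- the exact power `P ^ e` of a prime `P` dividing `p B` does not divide the different -/
theorem exists_ramification
    [Algebra.IsSeparable (FractionRing A) (FractionRing B)]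
    (hchar : ∀ p : Ideal A, p.IsMaximal → CharZero (A ⧸ p)) {P : Ideal B} (hP : Prime P) :
    ∃ e : ℕ, 1 ≤ e ∧ P ^ e ∣ (P.comap (algebraMap A B)).map (algebraMap A B) ∧
      ¬ P ^ (e + 1) ∣ (P.comap (algebraMap A B)).map (algebraMap A B) ∧
      ¬ P ^ e ∣ differentIdeal A B := by
  have hPprime : P.IsPrime := Ideal.isPrime_of_prime hP
  have hPbot : P ≠ ⊥ := hP.ne_zero
  have hPmax : P.IsMaximal := hPprime.isMaximal hPbot
  set p : Ideal A := P.comap (algebraMap A B) with hp
  have hpmax : p.IsMaximal := Ideal.isMaximal_comap_of_isIntegral_of_isMaximal P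
  have := hchar p hpmax
  have hpB0 : p.map (algebraMap A B) ≠ ⊥ := by
    intro h
    have h1 : p = ⊥ := by
      rwa [Ideal.map_eq_bot_iff_of_injective (FaithfulSMul.algebraMap_injective A B)] at h
    exact hPbot (Ideal.eq_bot_of_comap_eq_bot h1)
  have hfin : FiniteMultiplicity P (p.map (algebraMap A B)) :=
    FiniteMultiplicity.of_prime_left hP hpB0
  obtain ⟨Q, hQ, hPQ⟩ := hfin.exists_eq_pow_mul_and_not_dvd
  set e := multiplicity P (p.map (algebraMap A B)) with he
  have he1 : 1 ≤ e := by
    rw [he, ← hfin.pow_dvd_iff_le_multiplicity, pow_one, Ideal.dvd_iff_le]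
    exact Ideal.map_comap_le
  have hcop : IsCoprime (P ^ e) Q := by
    apply IsCoprime.pow_left
    rw [Ideal.isCoprime_iff_sup_eq]
    by_contra hne
    have hle : P ⊔ Q = P := by
      rcases hPmax.eq_of_le hne le_sup_left with h
      exact h.symm
    exact hPQ (Ideal.dvd_iff_le.mpr (hle ▸ le_sup_right))
  have hne : P ^ e ≠ ⊤ := by
    intro h
    exact hPprime.ne_top (top_le_iff.mp (h ▸ Ideal.pow_le_self (by omega)))
  refine ⟨e, he1, Dvd.intro _ hQ.symm, ?_,
    not_dvd_differentIdeal_of_charZero A (P ^ e) Q hne hcop hQ.symm⟩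
  rw [hfin.pow_dvd_iff_le_multiplicity]
  omega

/-- a prime `P` containing an element of `A` which is not in `P ^ 2` is unramified -/
theorem not_dvd_differentIdeal_of_notMem_sq
    [Algebra.IsSeparable (FractionRing A) (FractionRing B)]
    (hchar : ∀ p : Ideal A, p.IsMaximal → CharZero (A ⧸ p)) {P : Ideal B} (hP : P.IsPrime)
    (hP0 : P ≠ ⊥) (a : A) (ha : algebraMap A B a ∈ P) (ha2 : algebraMap A B a ∉ P ^ 2) :
    ¬ P ∣ differentIdeal A B := by
  obtain ⟨e, he1, he, -, hD⟩ := exists_ramification A hchar (Ideal.prime_of_isPrime hP0 hP)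
  have he2 : e = 1 := by
    by_contra hne
    apply ha2
    have h1 : algebraMap A B a ∈ (P.comap (algebraMap A B)).map (algebraMap A B) :=
      Ideal.mem_map_of_mem _ ha
    exact Ideal.pow_le_pow_right (by omega : 2 ≤ e) (Ideal.dvd_iff_le.mp he h1)
  rwa [he2, pow_one] at hD

/-- the different times the radical of `θ B` divides `θ B` -/
theorem differentIdeal_mul_radical_dvd
    [Algebra.IsSeparable (FractionRing A) (FractionRing B)]
    (hchar : ∀ p : Ideal A, p.IsMaximal → CharZero (A ⧸ p))
    (θ : A) (hθ : θ ≠ 0)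
    (hBr : ∀ P : Ideal B, P.IsPrime → P ≠ ⊥ → algebraMap A B θ ∉ P → ¬ P ∣ differentIdeal A B) :
    differentIdeal A B * (Ideal.span {algebraMap A B θ}).radical ∣
      Ideal.span {algebraMap A B θ} := by
  set I : Ideal B := Ideal.span {algebraMap A B θ} with hI
  have hθB : algebraMap A B θ ≠ 0 := by
    rw [Ne, map_eq_zero_iff _ (FaithfulSMul.algebraMap_injective A B)]; exact hθ
  have hI0 : I ≠ ⊥ := by
    rw [hI, Ne, Ideal.span_singleton_eq_bot]; exact hθB
  have hJ0 : I.radical ≠ ⊥ := fun h => hI0 (le_bot_iff.mp (h ▸ Ideal.le_radical))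
  have hD0 : differentIdeal A B ≠ ⊥ := differentIdeal_ne_bot
  refine dvd_of_emultiplicity_le (mul_ne_zero hD0 hJ0) hI0 fun P hP => ?_
  have hPprime : P.IsPrime := Ideal.isPrime_of_prime hP
  have hPbot : P ≠ ⊥ := hP.ne_zero
  rw [emultiplicity_mul hP]
  by_cases hθP : algebraMap A B θ ∈ P
  · obtain ⟨e, -, he, -, hD⟩ := exists_ramification A hchar hP
    have h1 : emultiplicity P (differentIdeal A B) < e := emultiplicity_lt_iff_not_dvd.mpr hD
    have h2 : emultiplicity P I.radical ≤ 1 := emultiplicity_radical_le_one hI0 hP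
    have h3 : (e : ℕ∞) ≤ emultiplicity P I := by
      apply le_emultiplicity_of_pow_dvd
      refine he.trans ?_
      rw [Ideal.dvd_iff_le, hI, Ideal.span_singleton_le_iff_mem]
      exact Ideal.mem_map_of_mem _ hθP
    calc emultiplicity P (differentIdeal A B) + emultiplicity P I.radical
        ≤ emultiplicity P (differentIdeal A B) + 1 := by gcongr
      _ ≤ e := Order.add_one_le_of_lt h1
      _ ≤ _ := h3
  · have h1 : emultiplicity P (differentIdeal A B) = 0 :=
      emultiplicity_eq_zero.mpr (hBr P hPprime hPbot hθP)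
    have h2 : emultiplicity P I.radical = 0 := by
      rw [emultiplicity_eq_zero, Ideal.dvd_iff_le]
      intro h
      exact hθP (h (Ideal.le_radical (Ideal.mem_span_singleton_self _)))
    rw [h1, h2]
    exact zero_le

end C2

section C3

variable (A K : Type*) {L B : Type*} [CommRing A] [Field K] [CommRing B] [Field L]
  [Algebra A K] [Algebra B L] [Algebra A B] [Algebra K L] [Algebra A L]
  [IsScalarTower A K L] [IsScalarTower A B L]
  [IsFractionRing A K] [IsFractionRing B L] [IsIntegralClosure B A L]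
  [FiniteDimensional K L] [Algebra.IsSeparable K L]
  [IsDedekindDomain A] [IsDedekindDomain B] [Module.IsTorsionFree A B] [Module.Finite A B]

include K L in
omit [IsIntegralClosure B A L] [FiniteDimensional K L] in
theorem isSeparable_fractionRing :
    Algebra.IsSeparable (FractionRing A) (FractionRing B) := by
  have H : RingHom.comp (algebraMap (FractionRing A) (FractionRing B))
      ↑(FractionRing.algEquiv A K).symm.toRingEquiv =
        RingHom.comp ↑(FractionRing.algEquiv B L).symm.toRingEquiv (algebraMap K L) := by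
    apply IsLocalization.ringHom_ext A⁰
    ext
    simp only [RingHom.coe_comp, RingHom.coe_coe,
      AlgEquiv.coe_ringEquiv, Function.comp_apply, AlgEquiv.commutes,
      ← IsScalarTower.algebraMap_apply]
    rw [IsScalarTower.algebraMap_apply A B L, AlgEquiv.commutes, ← IsScalarTower.algebraMap_apply]
  exact Algebra.IsSeparable.of_equiv_equiv _ _ H

include K L in
omit [IsIntegralClosure B A L] [FiniteDimensional K L] in
/-- AKLB version of `not_dvd_differentIdeal_of_notMem_sq` -/
theorem not_dvd_differentIdeal_of_notMem_sq'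
    (hchar : ∀ p : Ideal A, p.IsMaximal → CharZero (A ⧸ p)) {P : Ideal B} (hP : P.IsPrime)
    (hP0 : P ≠ ⊥) (a : A) (ha : algebraMap A B a ∈ P) (ha2 : algebraMap A B a ∉ P ^ 2) :
    ¬ P ∣ differentIdeal A B := by
  have : Algebra.IsSeparable (FractionRing A) (FractionRing B) :=
    isSeparable_fractionRing A K (L := L) (B := B)
  exact not_dvd_differentIdeal_of_notMem_sq A hchar hP hP0 a ha ha2

/-- **(c2)** `θ • Bᵛ ⊆ rad (θ B)`. -/
theorem exists_mem_radical
    (hchar : ∀ p : Ideal A, p.IsMaximal → CharZero (A ⧸ p))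
    (θ : A) (hθ : θ ≠ 0)
    (hBr : ∀ P : Ideal B, P.IsPrime → P ≠ ⊥ → algebraMap A B θ ∉ P → ¬ P ∣ differentIdeal A B)
    (w : L) (hw : ∀ b : B, Algebra.trace K L (w * algebraMap B L b) ∈ (algebraMap A K).range) :
    ∃ y : B, algebraMap B L y = algebraMap A L θ * w ∧
      y ∈ (Ideal.span {algebraMap A B θ}).radical := by
  have : Algebra.IsSeparable (FractionRing A) (FractionRing B) :=
    isSeparable_fractionRing A K (L := L) (B := B)
  obtain ⟨X, hX⟩ := differentIdeal_mul_radical_dvd A hchar θ hθ hBr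
  set I : Ideal B := Ideal.span {algebraMap A B θ} with hI
  have hD0 : differentIdeal A B ≠ ⊥ := differentIdeal_ne_bot
  have hD0' : ((differentIdeal A B : Ideal B) : FractionalIdeal B⁰ L) ≠ 0 := by
    simpa using hD0
  have hwd : w ∈ FractionalIdeal.dual A K (1 : FractionalIdeal B⁰ L) := by
    rw [FractionalIdeal.mem_dual (one_ne_zero' (FractionalIdeal B⁰ L))]
    intro a ha
    obtain ⟨b, rfl⟩ := (FractionalIdeal.mem_one_iff _).mp ha
    exact hw b
  have hdual : FractionalIdeal.dual A K (1 : FractionalIdeal B⁰ L) =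
      ((differentIdeal A B : Ideal B) : FractionalIdeal B⁰ L)⁻¹ := by
    rw [coeIdeal_differentIdeal A K L B, inv_inv]
  have hθI : algebraMap A L θ ∈ (I : FractionalIdeal B⁰ L) := by
    rw [FractionalIdeal.mem_coeIdeal]
    exact ⟨algebraMap A B θ, Ideal.mem_span_singleton_self _,
      (IsScalarTower.algebraMap_apply A B L θ).symm⟩
  have hmem := FractionalIdeal.mul_mem_mul hθI hwd
  have hprod : (I : FractionalIdeal B⁰ L) * ((differentIdeal A B : Ideal B) : FractionalIdeal B⁰ L)⁻¹
      = ((I.radical * X : Ideal B) : FractionalIdeal B⁰ L) := by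
    conv_lhs => rw [hX]
    rw [mul_assoc, FractionalIdeal.coeIdeal_mul, mul_comm, ← mul_assoc, inv_mul_cancel₀ hD0',
      one_mul]
  rw [hdual, hprod] at hmem
  obtain ⟨y, hy, hyw⟩ := (FractionalIdeal.mem_coeIdeal _).mp hmem
  exact ⟨y, hyw, Ideal.mul_le_left hy⟩

end C3

end Fermat.Agent.S18.KLDiff
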