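import Fermat.Agent.S18.KLSat

/-!
# S18 / KL / (b2)(iii) : `C₀` is a finite `A[X]`-module
-/

set_option autoImplicit false

namespace Fermat.Agent.S18.KLGauss

open Polynomial IsLocalRing

section Aux

variable {A : Type*} [CommRing A] [IsDomain A] [ValuationRing A]

/-- `d₁ ≡ u ≠ 0` modulo `𝔪` implies `v₀ d₁ = 1 - π H` with `π ∈ 𝔪` -/
theorem exists_eq_one_sub (d1 : A[X]) (u : ResidueField A) (hu : u ≠ 0)
    (hd1 : d1.map (residue A) = C u) :
    ∃ (v0 π : A) (H : A[X]), π ∈ maximalIdeal A ∧ C v0 * d1 = 1 - C π * H := by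
  have hu0 : residue A (d1.coeff 0) = u := by
    have := congrArg (fun p => p.coeff 0) hd1
    simpa using this
  have hunit : IsUnit (d1.coeff 0) := by
    by_contra h
    apply hu
    rw [← hu0, residue_eq_zero_iff, mem_maximalIdeal, mem_nonunits_iff]
    exact h
  obtain ⟨u0, hu0'⟩ := hunit
  have hv : (↑u0⁻¹ : A) * d1.coeff 0 = 1 := by rw [← hu0', Units.inv_mul]
  set e : A[X] := d1 - C (d1.coeff 0) with he
  have hemap : e.map (residue A) = 0 := by
    rw [he, Polynomial.map_sub, hd1, map_C, hu0, sub_self]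
  by_cases he0 : e = 0
  · refine ⟨(↑u0⁻¹ : A), 0, 0, Ideal.zero_mem _, ?_⟩
    have : d1 = C (d1.coeff 0) := by rw [he, sub_eq_zero] at he0; exact he0
    conv_lhs => rw [this]
    rw [← C_mul, hv, C_1, mul_zero, sub_zero]
  · obtain ⟨a, r', -, hr', j, hj⟩ := exists_common_factor (fun _ : Unit => e) ⟨(), he0⟩
    have hr := hr' ()
    have hj' : (r' ()).map (residue A) ≠ 0 := hj
    have ha : residue A a = 0 := by
      have h1 := hemap
      rw [hr, Polynomial.map_mul, map_C] at h1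
      have := (mul_eq_zero.mp h1).resolve_right hj'
      exact C_eq_zero.mp this
    refine ⟨(↑u0⁻¹ : A), a, -(C (↑u0⁻¹ : A) * r' ()), (residue_eq_zero_iff a).mp ha, ?_⟩
    have hd : d1 = C (d1.coeff 0) + C a * r' () := by rw [← hr, he]; ring
    conv_lhs => rw [hd]
    rw [mul_add, ← C_mul, hv, C_1]
    ring

/-- clearing denominators by a power of `π` (rank one) -/
theorem exists_pow_mul_mem {K : Type*} [Field K] [Algebra A K] [IsFractionRing A K]
    (harch : ∀ b ∈ maximalIdeal A, ∀ c : A, c ≠ 0 → ∃ n : ℕ, c ∣ b ^ n)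
    {π : A} (hπ : π ∈ maximalIdeal A) {τ : Type*} (T : Finset τ) (f : τ → K) :
    ∃ (k : ℕ) (a : τ → A), ∀ v ∈ T, algebraMap A K (a v) = algebraMap A K π ^ k * f v := by
  classical
  have h1 : ∀ v, ∃ (n : ℕ) (a : A), algebraMap A K a = algebraMap A K π ^ n * f v := by
    intro v
    obtain ⟨x, c, hc, hxc⟩ := IsFractionRing.div_surjective (A := A) (f v)
    have hc0 : c ≠ 0 := nonZeroDivisors.ne_zero hc
    have hcK : algebraMap A K c ≠ 0 := by
      rw [Ne, map_eq_zero_iff _ (IsFractionRing.injective A K)]; exact hc0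
    obtain ⟨n, r, hr⟩ := harch π hπ c hc0
    refine ⟨n, r * x, ?_⟩
    rw [← hxc, ← map_pow, hr, map_mul, map_mul]
    field_simp
  choose n a ha using h1
  refine ⟨T.sup n, fun v => π ^ (T.sup n - n v) * a v, fun v hv => ?_⟩
  have hle : n v ≤ T.sup n := Finset.le_sup hv
  rw [map_mul, ha v, map_pow, ← mul_assoc, ← pow_add, Nat.sub_add_cancel hle]

end Aux

section Finite

variable {A K : Type*} [CommRing A] [IsDomain A] [ValuationRing A] [Field K] [Algebra A K]
  [IsFractionRing A K]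
variable {E : Type*} [Field E] [Algebra K[X] E] [FaithfulSMul K[X] E]
  [Algebra A E] [IsScalarTower A K[X] E]

omit [IsDomain A] [ValuationRing A] [IsFractionRing A K] [FaithfulSMul K[X] E] in
theorem phi_C (a : A) : phi A K E (C a) = algebraMap A E a := by
  rw [phi_apply, map_C, IsScalarTower.algebraMap_apply A K[X] E]
  rfl

omit [IsDomain A] [ValuationRing A] [IsFractionRing A K] [FaithfulSMul K[X] E] in
/-- `φ p * g` lies in the `A`-span of the `t ^ e * g` -/
theorem phi_mul_mem_span (G : Set E) {g : E} (hg : g ∈ G) (p : A[X]) :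
    phi A K E p * g ∈ Submodule.span A {y | ∃ g ∈ G, ∃ e : ℕ, y = phi A K E X ^ e * g} := by
  induction p using Polynomial.induction_on' with
  | add p q hp hq => rw [map_add, add_mul]; exact Submodule.add_mem _ hp hq
  | monomial n a =>
    rw [← C_mul_X_pow_eq_monomial, map_mul, map_pow, phi_C, mul_assoc, ← Algebra.smul_def]
    exact Submodule.smul_mem _ _ (Submodule.subset_span ⟨g, hg, n, rfl⟩)

/-- **(iii)** `C₀` is a finite `A[X]`-module. -/
theorem exists_finset_span {ι : Type*} [Fintype ι] (w : ι → E)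
    (hw : ∀ i, (phi A K E).IsIntegralElem (w i))
    (harch : ∀ b ∈ maximalIdeal A, ∀ c : A, c ≠ 0 → ∃ n : ℕ, c ∣ b ^ n)
    (d1 : A[X]) (u : ResidueField A) (hu : u ≠ 0) (hd1 : d1.map (residue A) = C u)
    (hS1 : ∀ x, (phi A K E).IsIntegralElem x →
      ∃ q : ι → A[X], phi A K E d1 * x = ∑ i, phi A K E (q i) * w i) :
    ∃ G : Finset E, (∀ g ∈ G, (phi A K E).IsIntegralElem g) ∧
      ∀ x, (phi A K E).IsIntegralElem x →
        x ∈ Submodule.span A {y | ∃ g ∈ G, ∃ e : ℕ, y = phi A K E X ^ e * g} := by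
  classical
  set φ := phi A K E with hφ
  have hφinj : Function.Injective φ := phi_injective
  have hinj := IsFractionRing.injective A K
  obtain ⟨v0, π, H, hπ, hH⟩ := exists_eq_one_sub d1 u hu hd1
  have hprim : d1.map (residue A) ≠ 0 := by rw [hd1, Ne, C_eq_zero]; exact hu
  have hd10 : d1 ≠ 0 := by rintro rfl; simp at hprim
  set D : K[X] := d1.map (algebraMap A K) with hD
  have hD0 : D ≠ 0 := by
    rw [hD, Ne, Polynomial.map_eq_zero_iff hinj]; exact hd10
  have : Module.Finite K (AdjoinRoot D) := (AdjoinRoot.powerBasis hD0).finite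
  -- the set of coordinate vectors
  let S : Set (ι → AdjoinRoot D) := {v | ∃ (x : E) (q : ι → A[X]), φ.IsIntegralElem x ∧
    φ d1 * x = ∑ i, φ (q i) * w i ∧ v = fun i => AdjoinRoot.mk D ((q i).map (algebraMap A K))}
  obtain ⟨T, hTS, hT⟩ := (Submodule.fg_span_iff_fg_span_finset_subset (R := K) S).mp
    (IsNoetherian.noetherian _)
  have hTS' : ∀ v, v ∈ T → ∃ (x : E) (q : ι → A[X]), φ.IsIntegralElem x ∧
    φ d1 * x = ∑ i, φ (q i) * w i ∧ v = fun i => AdjoinRoot.mk D ((q i).map (algebraMap A K)) :=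
    fun v hv => hTS hv
  choose! gx gq hgint hgeq hgv using hTS'
  refine ⟨Finset.univ.image w ∪ T.image gx, ?_, ?_⟩
  · intro g hg
    rcases Finset.mem_union.mp hg with hg | hg
    · obtain ⟨i, -, rfl⟩ := Finset.mem_image.mp hg
      exact hw i
    · obtain ⟨v, hv, rfl⟩ := Finset.mem_image.mp hg
      exact hgint v hv
  intro x hx
  set W := Submodule.span A {y | ∃ g ∈ (↑(Finset.univ.image w ∪ T.image gx) : Set E),
    ∃ e : ℕ, y = φ X ^ e * g} with hW
  have hwW : ∀ (i : ι) (p : A[X]), φ p * w i ∈ W := fun i p =>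
    phi_mul_mem_span _ (by simp) p
  have hgW : ∀ v ∈ T, ∀ p : A[X], φ p * gx v ∈ W := fun v hv p =>
    phi_mul_mem_span _ (by
      rw [Finset.mem_coe]
      exact Finset.mem_union_right _ (Finset.mem_image_of_mem _ hv)) p
  obtain ⟨q, hq⟩ := hS1 x hx
  have hvx : (fun i => AdjoinRoot.mk D ((q i).map (algebraMap A K))) ∈ Submodule.span K S :=
    Submodule.subset_span ⟨x, q, hx, hq, rfl⟩
  rw [hT] at hvx
  obtain ⟨f, -, hf⟩ := Submodule.mem_span_finset.mp hvx
  obtain ⟨k, a, ha⟩ := exists_pow_mul_mem harch hπ T f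
  -- the polynomials `Q i`
  set Qp : ι → A[X] := fun i => C (π ^ k) * q i - ∑ v ∈ T, C (a v) * gq v i with hQp
  have hQdvd : ∀ i, ∃ s : A[X], Qp i = d1 * s := by
    intro i
    have h1 : AdjoinRoot.mk D ((Qp i).map (algebraMap A K)) = 0 := by
      have hfi := congrFun hf i
      rw [Finset.sum_apply] at hfi
      simp only [hQp, Polynomial.map_sub, Polynomial.map_mul, map_C, Polynomial.map_sum, map_sub,
        map_mul, map_sum, AdjoinRoot.mk_C, map_pow]
      rw [← hfi, Finset.mul_sum, ← Finset.sum_sub_distrib]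
      refine Finset.sum_eq_zero fun v hv => ?_
      rw [ha v hv, Pi.smul_apply, Algebra.smul_def, AdjoinRoot.algebraMap_eq, map_mul, map_pow,
        congrFun (hgv v hv) i]
      have e0 : AdjoinRoot.mk D (map (algebraMap A K) (C π ^ k)) =
          AdjoinRoot.of D (algebraMap A K π) ^ k := by
        rw [Polynomial.map_pow, map_C, map_pow, AdjoinRoot.mk_C]
      rw [e0]
      ring
    obtain ⟨s', hs'⟩ := AdjoinRoot.mk_eq_zero.mp h1
    have hl : s' ∈ lifts (algebraMap A K) := by
      apply mem_lifts_of_mul_primitive hprim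
      rw [← hD, mul_comm, ← hs', mem_lifts]
      exact ⟨_, rfl⟩
    obtain ⟨s, rfl⟩ := (mem_lifts _).mp hl
    refine ⟨s, Polynomial.map_injective _ hinj ?_⟩
    rw [hs', Polynomial.map_mul]
  choose s hs using hQdvd
  have hd1φ : φ d1 ≠ 0 := by
    rw [Ne, map_eq_zero_iff _ hφinj]; exact hd10
  have hz : φ (C (π ^ k)) * x = ∑ i, φ (s i) * w i + ∑ v ∈ T, φ (C (a v)) * gx v := by
    apply mul_left_cancel₀ hd1φ
    have e1 : φ d1 * (φ (C (π ^ k)) * x) = ∑ i, φ (C (π ^ k) * q i) * w i := by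
      rw [mul_left_comm, hq, Finset.mul_sum]
      exact Finset.sum_congr rfl fun i _ => by rw [map_mul, mul_assoc]
    have e2 : φ d1 * ∑ v ∈ T, φ (C (a v)) * gx v =
        ∑ i, φ (∑ v ∈ T, C (a v) * gq v i) * w i := by
      rw [Finset.mul_sum]
      simp only [map_sum, Finset.sum_mul]
      rw [Finset.sum_comm]
      refine Finset.sum_congr rfl fun v hv => ?_
      rw [mul_left_comm, hgeq v hv, Finset.mul_sum]
      exact Finset.sum_congr rfl fun i _ => by rw [map_mul, mul_assoc]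
    have e3 : φ d1 * ∑ i, φ (s i) * w i = ∑ i, φ (Qp i) * w i := by
      rw [Finset.mul_sum]
      exact Finset.sum_congr rfl fun i _ => by rw [hs i, map_mul, mul_assoc]
    rw [mul_add, e1, e2, e3, ← Finset.sum_add_distrib]
    refine Finset.sum_congr rfl fun i _ => ?_
    rw [← add_mul, ← map_add, hQp]
    congr 2
    ring
  have hgeom : (1 : A[X]) - (C π * H) ^ k = C v0 * d1 * ∑ j ∈ Finset.range k, (C π * H) ^ j := by
    rw [hH, mul_neg_geom_sum]
  have hxeq : x = φ (C v0 * ∑ j ∈ Finset.range k, (C π * H) ^ j) * (φ d1 * x) +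
      φ (H ^ k) * (φ (C (π ^ k)) * x) := by
    have h1 : (1 : A[X]) = C v0 * (∑ j ∈ Finset.range k, (C π * H) ^ j) * d1 +
        H ^ k * C (π ^ k) := by
      have : (C π * H) ^ k = H ^ k * C (π ^ k) := by rw [mul_pow, C_pow, mul_comm]
      rw [← this]
      linear_combination hgeom
    calc x = φ 1 * x := by rw [map_one, one_mul]
      _ = _ := by rw [h1, map_add, map_mul, map_mul _ (H ^ k)]; ring
  rw [hxeq, hq, hz]
  simp only [mul_add, Finset.mul_sum]
  refine W.add_mem (W.sum_mem fun i _ => ?_) (W.add_mem (W.sum_mem fun i _ => ?_)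
    (W.sum_mem fun v hv => ?_))
  · rw [← mul_assoc, ← map_mul]; exact hwW i _
  · rw [← mul_assoc, ← map_mul]; exact hwW i _
  · rw [← mul_assoc, ← map_mul]; exact hgW v hv _

end Finite

end Fermat.Agent.S18.KLGauss
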