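import Mathlib

/-!
# S18 / KL-K3 : the different of a Kummer extension

`A` Dedekind, `K = Frac A`, `L = K(u)`, `u ^ p = f ∈ K`, `[L : K] = p`, `B` the integral closure.
If `p` is invertible at a prime `P` of `B` and the valuation of `f` at `P ∩ A` is divisible by `p`,
then `P` does not divide the different.  Together with transitivity of the different this gives
hypothesis `(Br)` for `F(u)` from `(Br)` for `F`.
-/

set_option autoImplicit false

open Polynomial IsDedekindDomain

namespace Fermat.Agent.S18.KLKummer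

section Normalizer

variable {A K : Type*} [CommRing A] [IsDedekindDomain A] [Field K] [Algebra A K]
  [IsFractionRing A K]

/-- If `v_q(f) ∈ p ℤ`, then `h ^ p * f` is an element of `A` outside `q` for a suitable `h`. -/
theorem exists_normalizer (q : HeightOneSpectrum A) (p : ℕ) (hp : 0 < p) (f : K) (n : ℤ)
    (hn : q.valuation K f = WithZero.exp ((p : ℤ) * n)) :
    ∃ h : K, h ≠ 0 ∧ ∃ c : A, algebraMap A K c = h ^ p * f ∧ c ∉ q.asIdeal := by
  obtain ⟨π, hπ⟩ := q.valuation_exists_uniformizer K
  have hπ0 : π ≠ 0 := by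
    intro h0; rw [h0, map_zero] at hπ; exact WithZero.exp_ne_zero.symm hπ
  set h₀ : K := π ^ n with hh₀
  have hh₀0 : h₀ ≠ 0 := zpow_ne_zero _ hπ0
  have hv : q.valuation K (h₀ ^ p * f) = 1 := by
    rw [map_mul, map_pow, hh₀, map_zpow₀, hπ, hn, ← WithZero.exp_zsmul, ← WithZero.exp_nsmul,
      ← WithZero.exp_add, ← WithZero.exp_zero]
    congr 1
    simp only [smul_eq_mul, nsmul_eq_mul]
    ring
  obtain ⟨a, d, had⟩ := q.exists_primeCompl_mul_eq_of_integer (h₀ ^ p * f) hv.le
  have hd : (d : A) ∉ q.asIdeal := d.2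
  have hd0 : algebraMap A K (d : A) ≠ 0 := by
    intro h0
    apply hd
    rw [(IsFractionRing.injective A K).eq_iff' (map_zero _) |>.mp h0]
    exact q.asIdeal.zero_mem
  obtain ⟨m, rfl⟩ : ∃ m, p = m + 1 := ⟨p - 1, by omega⟩
  refine ⟨algebraMap A K d * h₀, mul_ne_zero hd0 hh₀0, (d : A) ^ m * a, ?_, ?_⟩
  · rw [map_mul, map_pow, ← had]
    ring
  · have ha : a ∉ q.asIdeal := by
      rw [← HeightOneSpectrum.valuation_eq_one_iff_notMem (K := K), ← had, map_mul, hv, one_mul,
        HeightOneSpectrum.valuation_eq_one_iff_notMem]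
      exact hd
    intro hmem
    rcases q.isPrime.mem_or_mem hmem with h1 | h1
    · exact hd (q.isPrime.mem_of_pow_mem _ h1)
    · exact ha h1

end Normalizer

section Core

variable (A K L : Type*) {B : Type*} [CommRing A] [Field K] [CommRing B] [Field L]
  [Algebra A K] [Algebra B L] [Algebra A B] [Algebra K L] [Algebra A L]
  [IsScalarTower A K L] [IsScalarTower A B L] [IsDomain A] [IsFractionRing A K]
  [FiniteDimensional K L] [Algebra.IsSeparable K L] [IsIntegralClosure B A L]
  [IsIntegrallyClosed A] [IsDedekindDomain B] [Module.IsTorsionFree A B]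

omit [Algebra.IsSeparable K L] in
include K L in
/-- minimal polynomial of a generator `y` with `y ^ p = c`, `p = [L : K]` -/
theorem minpoly_eq_X_pow_sub_C (p : ℕ) (hp : 0 < p) (y : B) (c : A)
    (hy : y ^ p = algebraMap A B c) (hgen : Algebra.adjoin K {algebraMap B L y} = ⊤)
    (hdeg : Module.finrank K L = p) : minpoly A y = X ^ p - C c := by
  have hAy : IsIntegral A y := IsIntegralClosure.isIntegral A L y
  have h1 : (minpoly A y).natDegree = p := by
    have e := minpoly.isIntegrallyClosed_eq_field_fractions K L hAy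
    have e2 : (minpoly K (algebraMap B L y)).natDegree = Module.finrank K L :=
      (Field.primitive_element_iff_minpoly_natDegree_eq K _).mp
        (IntermediateField.adjoin_eq_top_of_algebra K _ hgen)
    rw [e, (minpoly.monic hAy).natDegree_map, hdeg] at e2
    exact e2
  have h2 : minpoly A y ∣ X ^ p - C c :=
    minpoly.isIntegrallyClosed_dvd hAy (by simp [hy])
  exact (Polynomial.eq_of_monic_of_dvd_of_natDegree_le (minpoly.monic hAy)
    (monic_X_pow_sub_C c hp.ne') h2 (by rw [natDegree_X_pow_sub_C, h1])).symm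

include K L in
/-- **k3a, core**. -/
theorem not_dvd_differentIdeal_of_pow_eq (p : ℕ) (hp : 0 < p) (y : B) (c : A)
    (hy : y ^ p = algebraMap A B c) (hgen : Algebra.adjoin K {algebraMap B L y} = ⊤)
    (hdeg : Module.finrank K L = p) (P : Ideal B) (hP : P.IsPrime) (hpP : (p : B) ∉ P)
    (hcP : algebraMap A B c ∉ P) : ¬ P ∣ differentIdeal A B := by
  intro hdvd
  have hmem := aeval_derivative_mem_differentIdeal A K L y hgen
  rw [minpoly_eq_X_pow_sub_C A K L p hp y c hy hgen hdeg] at hmem
  have hmem' : (p : B) * y ^ (p - 1) ∈ P := by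
    have := Ideal.le_of_dvd hdvd hmem
    simpa [derivative_X_pow] using this
  rcases hP.mem_or_mem hmem' with h | h
  · exact hpP h
  · apply hcP
    rw [← hy]
    exact Ideal.pow_mem_of_mem _ (hP.mem_of_pow_mem _ h) _ hp

set_option linter.overlappingInstances false in
include K in
/-- **k3a**.  Kummer extensions with `p`-divisible divisor are unramified where `p` is invertible. -/
theorem not_dvd_differentIdeal_kummer [IsDedekindDomain A] (p : ℕ) (hp : 0 < p) (u : L) (f : K)
    (hu : u ^ p = algebraMap K L f) (hgen : Algebra.adjoin K {u} = ⊤)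
    (hdeg : Module.finrank K L = p) (P : Ideal B) (hP : P.IsPrime) (hP0 : P ≠ ⊥)
    (hpP : (p : B) ∉ P)
    (hord : ∀ q : HeightOneSpectrum A, q.asIdeal = P.comap (algebraMap A B) →
      ∃ n : ℤ, q.valuation K f = WithZero.exp ((p : ℤ) * n)) :
    ¬ P ∣ differentIdeal A B := by
  have : Algebra.IsIntegral A B := IsIntegralClosure.isIntegral_algebra A L
  have hq0 : P.comap (algebraMap A B) ≠ ⊥ := Ideal.IsIntegral.comap_ne_bot A hP0
  let q : HeightOneSpectrum A := ⟨P.comap (algebraMap A B), hP.comap _, hq0⟩
  obtain ⟨n, hn⟩ := hord q rfl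
  obtain ⟨h, hh, c, hc, hcq⟩ := exists_normalizer q p hp f n hn
  set y' : L := algebraMap K L h * u with hy'
  have hy'p : y' ^ p = algebraMap A L c := by
    rw [hy', mul_pow, hu, ← map_pow, ← map_mul, ← hc, ← IsScalarTower.algebraMap_apply]
  have hint : IsIntegral A y' :=
    IsIntegral.of_pow hp (by rw [hy'p]; exact isIntegral_algebraMap)
  let y : B := IsIntegralClosure.mk' B y' hint
  have hyy' : algebraMap B L y = y' := IsIntegralClosure.algebraMap_mk' B y' hint
  have hyp : y ^ p = algebraMap A B c := by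
    apply IsIntegralClosure.algebraMap_injective B A L
    rw [map_pow, hyy', hy'p, ← IsScalarTower.algebraMap_apply]
  have hgen' : Algebra.adjoin K {algebraMap B L y} = ⊤ := by
    rw [hyy', eq_top_iff, ← hgen]
    apply Algebra.adjoin_le
    intro x hx
    rw [Set.mem_singleton_iff.mp hx]
    have : u = h⁻¹ • y' := by
      rw [hy', Algebra.smul_def, ← mul_assoc, ← map_mul, inv_mul_cancel₀ hh, map_one, one_mul]
    rw [this]
    exact Subalgebra.smul_mem _ (Algebra.self_mem_adjoin_singleton K y') _
  exact not_dvd_differentIdeal_of_pow_eq A K L p hp y c hyp hgen' hdeg P hP hpP hcq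

end Core

section Tower

attribute [local instance] FractionRing.liftAlgebra FractionRing.isScalarTower_liftAlgebra

set_option linter.overlappingInstances false in
/-- **k3b**.  Transitivity: a prime of the top ring which is unramified in both steps of a tower
does not divide the different of the tower. -/
theorem not_dvd_differentIdeal_tower (A₀ A B : Type*) [CommRing A₀] [CommRing A] [CommRing B]
    [Algebra A₀ A] [Algebra A B] [Algebra A₀ B] [IsScalarTower A₀ A B]
    [IsDomain A₀] [IsIntegrallyClosed A₀] [IsDedekindDomain A] [IsDedekindDomain B]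
    [Module.IsTorsionFree A₀ A] [Module.IsTorsionFree A₀ B] [Module.IsTorsionFree A B]
    [Module.Finite A₀ A] [Module.Finite A₀ B] [Module.Finite A B]
    [Algebra.IsSeparable (FractionRing A₀) (FractionRing B)]
    (P : Ideal B) (hP : P.IsPrime) (hP0 : P ≠ ⊥)
    (h1 : ¬ P.comap (algebraMap A B) ∣ differentIdeal A₀ A) (h2 : ¬ P ∣ differentIdeal A B) :
    ¬ P ∣ differentIdeal A₀ B := by
  rw [differentIdeal_eq_differentIdeal_mul_differentIdeal A₀ A B]
  intro h
  rcases (Ideal.prime_of_isPrime hP0 hP).dvd_or_dvd h with h | h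
  · exact h2 h
  · apply h1
    rw [Ideal.dvd_iff_le, ← Ideal.map_le_iff_le_comap]
    exact Ideal.le_of_dvd h

end Tower

end Fermat.Agent.S18.KLKummer
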