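import Mathlib

/-!
# S18 / KL-d2 : the normality trick, residue field half (abstract form)

`R` a PID, `Q = Frac R`, `E` a finite dimensional commutative `Q`-algebra, `w` a `Q`-basis of `E`
with trace-dual family `wd`, `Λ₀ = ∑ R w_i` a subalgebra, `θ ∈ R` squarefree such that
`θ wd_i ∈ Λ₀` and `(θ wd_i)^e ∈ θ Λ₀`.  Then `Λ₀` is integrally closed in `E`.
-/

set_option autoImplicit false

open Module Submodule

namespace Fermat.Agent.S18.KLNormal

variable {R Q E : Type*} [CommRing R] [IsDomain R] [IsPrincipalIdealRing R]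
  [Field Q] [Algebra R Q] [IsFractionRing R Q]
  [CommRing E] [Algebra Q E] [Algebra R E] [IsScalarTower R Q E]

omit [IsDomain R] [IsPrincipalIdealRing R] in
/-- coordinates of a lattice vector in the extended basis -/
theorem extend_repr {κ : Type*} {Λ : Submodule R E} [IsLattice Q Λ] (b : Basis κ R Λ) (x : Λ)
    (i : κ) : (b.extendOfIsLattice Q).repr (x : E) i = algebraMap R Q (b.repr x i) := by
  classical
  have hx : (x : E) = ((b.repr x).mapRange (algebraMap R Q) (map_zero _)).sum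
      fun j c => c • (b.extendOfIsLattice Q) j := by
    conv_lhs => rw [← b.linearCombination_repr x]
    rw [Finsupp.linearCombination_apply, Finsupp.sum_mapRange_index (by simp)]
    rw [Finsupp.sum, Finsupp.sum, Submodule.coe_sum]
    refine Finset.sum_congr rfl fun j _ => ?_
    rw [Basis.extendOfIsLattice_apply, algebraMap_smul, Submodule.coe_smul]
  rw [hx, ← Finsupp.linearCombination_apply, Basis.repr_linearCombination]
  simp

/-- If `z` stabilises the lattice `Λ` and `z ^ e Λ ⊆ θ Λ` with `θ` squarefree, then `θ ∣ Tr z`. -/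
theorem dvd_trace_of_pow_mem (Λ : Submodule R E) [IsLattice Q Λ] (z : E)
    (hz : ∀ x ∈ Λ, z * x ∈ Λ) (θ : R) (hθ : Squarefree θ) (e : ℕ)
    (hze : ∀ x ∈ Λ, ∃ y ∈ Λ, z ^ e * x = θ • y) :
    ∃ t : R, Algebra.trace Q E z = algebraMap R Q (θ * t) := by
  classical
  let b := Module.Free.chooseBasis R Λ
  let f : Λ →ₗ[R] Λ := (LinearMap.mulLeft R z).restrict hz
  have hf : ∀ x : Λ, ((f x : Λ) : E) = z * x := fun x => rfl
  have hfpow : ∀ (n : ℕ) (x : Λ), (((f ^ n) x : Λ) : E) = z ^ n * x := by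
    intro n
    induction n with
    | zero => intro x; simp
    | succ n ih => intro x; rw [pow_succ, Module.End.mul_apply, ih, hf, pow_succ]; ring
  set M := LinearMap.toMatrix b b f with hM
  -- the trace over `Q` is the trace of `M`
  have h1 : Algebra.trace Q E z = algebraMap R Q M.trace := by
    rw [Algebra.trace_eq_matrix_trace (b.extendOfIsLattice Q), Matrix.trace, Matrix.trace, map_sum]
    refine Finset.sum_congr rfl fun i _ => ?_
    rw [Matrix.diag_apply, Matrix.diag_apply, Algebra.leftMulMatrix_eq_repr_mul,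
      Basis.extendOfIsLattice_apply, ← hf, extend_repr, hM, LinearMap.toMatrix_apply]
  -- `M ^ e` is divisible by `θ`
  let φ := Ideal.Quotient.mk (Ideal.span {θ})
  have h2 : (φ.mapMatrix M) ^ e = 0 := by
    rw [← map_pow, hM, LinearMap.toMatrix_pow]
    ext i j
    rw [RingHom.mapMatrix_apply, Matrix.map_apply, LinearMap.toMatrix_apply, Matrix.zero_apply]
    obtain ⟨y, hy, hyz⟩ := hze (b j) (b j).2
    have : (f ^ e) (b j) = θ • (⟨y, hy⟩ : Λ) := Subtype.ext (by rw [hfpow, hyz]; rfl)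
    rw [this, map_smul, Finsupp.smul_apply, smul_eq_mul, Ideal.Quotient.eq_zero_iff_mem,
      Ideal.mem_span_singleton]
    exact dvd_mul_right _ _
  have h3 : IsNilpotent (φ M.trace) := by
    have := Matrix.isNilpotent_trace_of_isNilpotent (⟨e, h2⟩ : IsNilpotent (φ.mapMatrix M))
    rwa [RingHom.mapMatrix_apply, ← AddMonoidHom.map_trace φ] at this
  obtain ⟨m, hm⟩ := h3
  have h4 : θ ∣ M.trace ^ (m + 1) := by
    rw [← Ideal.mem_span_singleton, ← Ideal.Quotient.eq_zero_iff_mem, map_pow, pow_succ, hm,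
      zero_mul]
  obtain ⟨t, ht⟩ := (hθ.dvd_pow_iff_dvd (Nat.succ_ne_zero m)).mp h4
  exact ⟨t, by rw [h1, ht]⟩

/-- **KL-d2**.  The normality trick. -/
theorem mem_of_isIntegral {ι : Type*} [Fintype ι] [DecidableEq ι] (w : Basis ι Q E) (wd : ι → E)
    (hdual : ∀ i j, Algebra.trace Q E (w i * wd j) = if i = j then 1 else 0)
    (Λ₀ : Subalgebra R E) (hΛ₀ : Subalgebra.toSubmodule Λ₀ = span R (Set.range w))
    (θ : R) (hθ : Squarefree θ) (e : ℕ) (hx : ∀ i, θ • wd i ∈ Λ₀)
    (hxe : ∀ i, ∃ c ∈ Λ₀, (θ • wd i) ^ e = θ • c) (Y : E) (hY : IsIntegral R Y) : Y ∈ Λ₀ := by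
  classical
  -- the bigger lattice
  let Λ : Subalgebra R E := Λ₀ ⊔ Algebra.adjoin R {Y}
  have hΛ₀fg : (Subalgebra.toSubmodule Λ₀).FG := by
    rw [hΛ₀]; exact Submodule.fg_span (Set.finite_range w)
  have hfg : (Subalgebra.toSubmodule Λ).FG := by
    have h1 : (Subalgebra.toSubmodule (Algebra.adjoin R {Y})).FG := hY.fg_adjoin_singleton
    have : Subalgebra.toSubmodule Λ =
        Subalgebra.toSubmodule Λ₀ * Subalgebra.toSubmodule (Algebra.adjoin R {Y}) :=
      (Subalgebra.mul_toSubmodule Λ₀ _).symm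
    rw [this]
    exact hΛ₀fg.mul h1
  have hle : Λ₀ ≤ Λ := le_sup_left
  have hYΛ : Y ∈ Λ := (le_sup_right : Algebra.adjoin R {Y} ≤ Λ) (Algebra.self_mem_adjoin_singleton R Y)
  have : IsLattice Q (Subalgebra.toSubmodule Λ) := by
    refine ⟨hfg, ?_⟩
    rw [eq_top_iff, ← w.span_eq]
    refine Submodule.span_mono ?_
    rintro _ ⟨i, rfl⟩
    apply hle
    have : w i ∈ Subalgebra.toSubmodule Λ₀ := by rw [hΛ₀]; exact Submodule.subset_span ⟨i, rfl⟩
    exact this
  have hθ0 : algebraMap R Q θ ≠ 0 := by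
    rw [Ne, IsFractionRing.to_map_eq_zero_iff]; exact hθ.ne_zero
  -- the traces are integral
  have key : ∀ i, ∃ t : R, Algebra.trace Q E (Y * wd i) = algebraMap R Q t := by
    intro i
    obtain ⟨c, hc, hce⟩ := hxe i
    have hzΛ : Y * (θ • wd i) ∈ Λ := Λ.mul_mem hYΛ (hle (hx i))
    obtain ⟨t, ht⟩ := dvd_trace_of_pow_mem (Q := Q) (Subalgebra.toSubmodule Λ) (Y * (θ • wd i))
      (fun x hx' => Λ.mul_mem hzΛ hx') θ hθ e (fun x hx' => by
        refine ⟨Y ^ e * c * x, Λ.mul_mem (Λ.mul_mem (Λ.pow_mem hYΛ e) (hle hc)) hx', ?_⟩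
        rw [mul_pow, hce]
        simp only [mul_smul_comm, smul_mul_assoc])
    refine ⟨t, ?_⟩
    rw [mul_smul_comm, ← algebraMap_smul Q θ, map_smul, smul_eq_mul, (algebraMap R Q).map_mul] at ht
    exact mul_left_cancel₀ hθ0 ht
  choose t ht using key
  have hrepr : ∀ i, w.repr Y i = algebraMap R Q (t i) := by
    intro i
    rw [← ht i]
    conv_rhs => rw [← w.sum_repr Y]
    rw [Finset.sum_mul, map_sum]
    simp only [smul_mul_assoc, map_smul, hdual, smul_eq_mul, mul_ite, mul_one, mul_zero,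
      Finset.sum_ite_eq', Finset.mem_univ, if_true]
  have : Y ∈ Subalgebra.toSubmodule Λ₀ := by
    rw [hΛ₀, ← w.sum_repr Y]
    refine Submodule.sum_mem _ fun i _ => ?_
    rw [hrepr, algebraMap_smul]
    exact Submodule.smul_mem _ _ (Submodule.subset_span ⟨i, rfl⟩)
  exact this

end Fermat.Agent.S18.KLNormal
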