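import Fermat.Agent.S18.KLGauss

/-!
# S18 / KL / (b) : `d₁ • C₀ ⊆ ∑ A[X] wᵢ`

`C₀ = {x : E | (phi A K E).IsIntegralElem x}` is the integral closure of `A[X]` in `E`.
-/

set_option autoImplicit false

namespace Fermat.Agent.S18.KLGauss

open Polynomial IsLocalRing

section Normalise

variable {A : Type*} [CommRing A] [IsDomain A] [ValuationRing A]

/-- simultaneous normalisation of finitely many polynomials over `A` -/
theorem exists_common_factor {ι : Type*} [Fintype ι] (r : ι → A[X]) (hr : ∃ i, r i ≠ 0) :
    ∃ (a : A) (r' : ι → A[X]), a ≠ 0 ∧ (∀ i, r i = C a * r' i) ∧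
      ∃ i, (r' i).map (residue A) ≠ 0 := by
  classical
  let K := FractionRing A
  obtain ⟨i0, hi0⟩ := hr
  -- the finite index set of all coefficients
  let S : Finset (ι × ℕ) := Finset.univ.sigma (fun i => (r i).support) |>.image
    (fun x => (x.1, x.2))
  have hS : ∀ i n, (i, n) ∈ S ↔ (r i).coeff n ≠ 0 := by
    intro i n
    simp only [S, Finset.mem_image, Finset.mem_sigma, Finset.mem_univ, true_and, Sigma.exists,
      Prod.mk.injEq, mem_support_iff]
    constructor
    · rintro ⟨i', n', h, rfl, rfl⟩; exact h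
    · intro h; exact ⟨i, n, h, rfl, rfl⟩
  obtain ⟨⟨j, m⟩, hj, hj0, hdiv⟩ := exists_dominant (A := A) (K := K) S
    (fun x => algebraMap A K ((r x.1).coeff x.2))
    ⟨(i0, (r i0).natDegree), (hS _ _).mpr (by simpa using hi0), by
      simpa [map_eq_zero_iff _ (IsFractionRing.injective A K)] using hi0⟩
  set a : A := (r j).coeff m with ha
  have ha0 : a ≠ 0 := (hS j m).mp hj
  have haK : algebraMap A K a ≠ 0 := hj0
  -- every coefficient is divisible by `a`
  have hdvd : ∀ i n, a ∣ (r i).coeff n := by
    intro i n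
    by_cases h : (r i).coeff n = 0
    · rw [h]; exact dvd_zero _
    · obtain ⟨b, hb⟩ := hdiv (i, n) ((hS i n).mpr h)
      refine ⟨b, IsFractionRing.injective A K ?_⟩
      rw [map_mul, hb]
      exact (mul_div_cancel₀ _ haK).symm
  have hC : ∀ i, C a ∣ r i := fun i => (C_dvd_iff_dvd_coeff _ _).mpr (hdvd i)
  choose r' hr' using hC
  refine ⟨a, r', ha0, hr', j, ?_⟩
  intro h
  have h1 : (r' j).coeff m = 1 := by
    have := congrArg (fun p => p.coeff m) (hr' j)
    simp only [coeff_C_mul] at this
    rw [← ha] at this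
    exact (mul_left_cancel₀ ha0 (by rw [mul_one]; exact this)).symm
  have h2 := congrArg (fun p => p.coeff m) h
  simp only [coeff_map, h1, map_one, coeff_zero] at h2
  exact one_ne_zero h2

end Normalise

section S1

variable {A K : Type*} [CommRing A] [IsDomain A] [ValuationRing A] [Field K] [Algebra A K]
  [IsFractionRing A K]
variable {E : Type*} [Field E] [Algebra K[X] E] [FaithfulSMul K[X] E]

omit [IsDomain A] [ValuationRing A] in
theorem phi_injective : Function.Injective (phi A K E) :=
  (FaithfulSMul.algebraMap_injective K[X] E).comp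
    (Polynomial.map_injective _ (IsFractionRing.injective A K))

omit [IsDomain A] [ValuationRing A] [IsFractionRing A K] [FaithfulSMul K[X] E] in
theorem isIntegralElem_sum {ι : Type*} (s : Finset ι) (c : ι → A[X]) (w : ι → E)
    (hw : ∀ i, (phi A K E).IsIntegralElem (w i)) :
    (phi A K E).IsIntegralElem (∑ i ∈ s, phi A K E (c i) * w i) := by
  classical
  induction s using Finset.induction_on with
  | empty =>
    rw [Finset.sum_empty, ← map_zero (phi A K E)]
    exact (phi A K E).isIntegralElem_map
  | insert a s ha ih =>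
    rw [Finset.sum_insert ha]
    exact RingHom.IsIntegralElem.add _
      (RingHom.IsIntegralElem.mul _ (phi A K E).isIntegralElem_map (hw a)) ih

/-- **(b), (S1)**: if the reductions of the `wᵢ` form a `k[X]`-basis of `C₀ / 𝔪 C₀` and
`d₀ d₁ x ∈ ∑ A[X] wᵢ` with `d₀` monic, then `d₁ x ∈ ∑ A[X] wᵢ`. -/
theorem exists_coord_of_monic_mul {ι : Type*} [Fintype ι] (w : ι → E)
    (hw : ∀ i, (phi A K E).IsIntegralElem (w i))
    (hspan : ∀ x, (phi A K E).IsIntegralElem x → ∃ c : ι → A[X], ∃ b ∈ maximalIdeal A, ∃ y,
      (phi A K E).IsIntegralElem y ∧ x = ∑ i, phi A K E (c i) * w i + phi A K E (C b) * y)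
    (hind : ∀ c : ι → A[X], (∃ b ∈ maximalIdeal A, ∃ y, (phi A K E).IsIntegralElem y ∧
      ∑ i, phi A K E (c i) * w i = phi A K E (C b) * y) → ∀ i, (c i).map (residue A) = 0)
    (d0 d1 : A[X]) (hd0 : d0.Monic) (x : E) (hx : (phi A K E).IsIntegralElem x) (c : ι → A[X])
    (hc : phi A K E (d0 * d1) * x = ∑ i, phi A K E (c i) * w i) :
    ∃ q : ι → A[X], phi A K E d1 * x = ∑ i, phi A K E (q i) * w i := by
  set φ := phi A K E with hφ
  have hφinj : Function.Injective φ := phi_injective
  refine ⟨fun i => c i /ₘ d0, ?_⟩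
  set x3 : E := φ d1 * x - ∑ i, φ (c i /ₘ d0) * w i with hx3
  have hx3int : φ.IsIntegralElem x3 :=
    RingHom.IsIntegralElem.sub _ (RingHom.IsIntegralElem.mul _ φ.isIntegralElem_map hx)
      (isIntegralElem_sum _ _ _ hw)
  have hd0φ : φ d0 ≠ 0 := by
    rw [Ne, map_eq_zero_iff _ hφinj]; exact hd0.ne_zero
  have hmul : φ d0 * x3 = ∑ i, φ (c i %ₘ d0) * w i := by
    rw [hx3, mul_sub, ← mul_assoc, ← map_mul, hc, Finset.mul_sum, ← Finset.sum_sub_distrib]
    refine Finset.sum_congr rfl fun i _ => ?_
    rw [← mul_assoc, ← map_mul, ← sub_mul, ← map_sub]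
    congr 2
    rw [sub_eq_iff_eq_add]
    exact (modByMonic_add_div (c i) d0).symm
  suffices h : x3 = 0 by
    rw [hx3, sub_eq_zero] at h; exact h
  by_contra hx30
  have hr : ∃ i, c i %ₘ d0 ≠ 0 := by
    by_contra hall
    push Not at hall
    apply hx30
    have : φ d0 * x3 = 0 := by
      rw [hmul]
      exact Finset.sum_eq_zero fun i _ => by rw [hall i, map_zero, zero_mul]
    exact (mul_eq_zero.mp this).resolve_left hd0φ
  obtain ⟨a, r', ha, hr', j, hj⟩ := exists_common_factor (fun i => c i %ₘ d0) hr
  have haφ : φ (C a) ≠ 0 := by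
    rw [Ne, map_eq_zero_iff _ hφinj, C_eq_zero]; exact ha
  set y : E := (φ (C a))⁻¹ * x3 with hy
  have hyK : IsIntegral K[X] y := by
    have h1 : (φ (C a))⁻¹ = algebraMap K[X] E (C (algebraMap A K a)⁻¹) := by
      have haK : algebraMap A K a ≠ 0 := by
        rw [Ne, map_eq_zero_iff _ (IsFractionRing.injective A K)]; exact ha
      apply inv_eq_of_mul_eq_one_left
      rw [hφ, phi_apply, map_C, ← map_mul, ← C_mul, inv_mul_cancel₀ haK, C_1, map_one]
    rw [hy, h1]
    exact isIntegral_algebraMap.mul (isIntegral_of_phi hx3int)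
  have hd0y : φ d0 * y = ∑ i, φ (r' i) * w i := by
    rw [hy, mul_left_comm, hmul, Finset.mul_sum]
    refine Finset.sum_congr rfl fun i _ => ?_
    rw [hr' i, map_mul, ← mul_assoc, ← mul_assoc, inv_mul_cancel₀ haφ, one_mul]
  have hyint : φ.IsIntegralElem y := by
    refine isIntegralElem_of_primitive_mul hyK (s := d0) (hd0.map _).ne_zero ?_
    rw [← hφ, hd0y]
    exact isIntegralElem_sum _ _ _ hw
  obtain ⟨c', b, hb, y', hy', hyc⟩ := hspan y hyint
  have hred := hind (fun i => r' i - d0 * c' i) ⟨b, hb, φ d0 * y',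
    RingHom.IsIntegralElem.mul _ φ.isIntegralElem_map hy', by
      simp only [map_sub, map_mul, sub_mul, Finset.sum_sub_distrib]
      rw [← hd0y, hyc, mul_add, Finset.mul_sum]
      simp only [mul_assoc]
      ring⟩
  apply hj
  have hj' := hred j
  rw [Polynomial.map_sub, Polynomial.map_mul, sub_eq_zero] at hj'
  by_contra hne
  have hc'0 : (c' j).map (residue A) ≠ 0 := by
    intro h0
    rw [h0, mul_zero] at hj'
    exact hne hj'
  have hdeg1 : ((r' j).map (residue A)).degree < d0.degree := by
    refine lt_of_le_of_lt degree_map_le ?_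
    have h1 : (c j %ₘ d0).degree < d0.degree := degree_modByMonic_lt _ hd0
    rw [hr' j, degree_C_mul ha] at h1
    exact h1
  have hdeg2 : d0.degree ≤ ((r' j).map (residue A)).degree := by
    rw [hj', degree_mul, (hd0.degree_map (residue A))]
    exact le_add_of_nonneg_right (zero_le_degree_iff.mpr hc'0)
  exact absurd hdeg1 (not_lt.mpr hdeg2)

end S1

section Factor

variable {A K : Type*} [CommRing A] [IsDomain A] [ValuationRing A] [Field K] [Algebra A K]
  [IsFractionRing A K] [IsAlgClosed K]

include K in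
/-- **factorisation** `d = d₀ d₁`, `d₀` monic, `d₁ ≡` a nonzero constant modulo `𝔪`
(`d₀` collects the roots in the closed unit disc). -/
theorem exists_monic_mul_unit (n : ℕ) : ∀ d : A[X], d.natDegree = n → d.map (residue A) ≠ 0 →
    ∃ d0 d1 : A[X], d = d0 * d1 ∧ d0.Monic ∧ ∃ u : ResidueField A, u ≠ 0 ∧
      d1.map (residue A) = C u := by
  induction n with
  | zero =>
    intro d hd hprim
    rw [eq_C_of_natDegree_eq_zero hd] at hprim ⊢
    rw [map_C] at hprim
    exact ⟨1, C (d.coeff 0), (one_mul _).symm, monic_one, residue A (d.coeff 0),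
      fun h => hprim (by rw [h, C_0]), map_C _⟩
  | succ n ih =>
    intro d hd hprim
    have hinj := IsFractionRing.injective A K
    have hdeg : (d.map (algebraMap A K)).degree ≠ 0 := by
      rw [degree_map_eq_of_injective hinj, degree_eq_natDegree (by rintro rfl; simp at hd), hd]
      exact_mod_cast Nat.succ_ne_zero n
    obtain ⟨ρ, hρ⟩ := IsAlgClosed.exists_root _ hdeg
    have hd0 : d ≠ 0 := by rintro rfl; simp at hd
    by_cases hint : ∃ r : A, algebraMap A K r = ρ
    · -- the root is integral
      obtain ⟨r, hr⟩ := hint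
      have hroot : d.IsRoot r := by
        rw [IsRoot.def]
        apply hinj
        rw [map_zero, ← eval_map_apply, hr]
        exact hρ
      obtain ⟨d', hd'⟩ := dvd_iff_isRoot.mpr hroot
      have hd'0 : d' ≠ 0 := by rintro rfl; exact hd0 (by rw [hd', mul_zero])
      have hdeg' : d'.natDegree = n := by
        have := congrArg natDegree hd'
        rw [natDegree_mul (X_sub_C_ne_zero r) hd'0, natDegree_X_sub_C, hd] at this
        omega
      have hprim' : d'.map (residue A) ≠ 0 := by
        intro h
        apply hprim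
        rw [hd', Polynomial.map_mul, h, mul_zero]
      obtain ⟨d0, d1, h1, h2, h3⟩ := ih d' hdeg' hprim'
      exact ⟨(X - C r) * d0, d1, by rw [hd', h1, mul_assoc], (monic_X_sub_C r).mul h2, h3⟩
    · -- the root is outside the unit disc
      obtain ⟨r, hr⟩ : ∃ r : A, algebraMap A K r = ρ⁻¹ :=
        (ValuationRing.isInteger_or_isInteger A ρ).resolve_left hint
      have hρ0 : ρ ≠ 0 := by
        rintro rfl
        exact hint ⟨0, map_zero _⟩
      have hr0 : r ≠ 0 := by
        rintro rfl
        rw [map_zero] at hr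
        exact inv_ne_zero hρ0 hr.symm
      have hres : residue A r = 0 := by
        rw [residue_eq_zero_iff, mem_maximalIdeal, mem_nonunits_iff]
        rintro ⟨u, rfl⟩
        apply hint
        refine ⟨(↑u⁻¹ : A), ?_⟩
        have h1 : algebraMap A K (↑u⁻¹ : A) * algebraMap A K (u : A) = 1 := by
          rw [← map_mul, Units.inv_mul, map_one]
        rw [hr] at h1
        exact eq_of_mul_inv_eq_one h1
      obtain ⟨g, hg⟩ := dvd_iff_isRoot.mpr hρ
      set s : A[X] := 1 - C r * X with hs
      have hsmap : s.map (algebraMap A K) = 1 - C ρ⁻¹ * X := by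
        rw [hs, Polynomial.map_sub, Polynomial.map_one, Polynomial.map_mul, map_C, map_X, hr]
      have hsres : s.map (residue A) = 1 := by
        rw [hs, Polynomial.map_sub, Polynomial.map_one, Polynomial.map_mul, map_C, hres, C_0,
          zero_mul, sub_zero]
      have hfac : (C (-ρ) * g) * s.map (algebraMap A K) = d.map (algebraMap A K) := by
        rw [hg, hsmap]
        have : (X - C ρ : K[X]) = C (-ρ) * (1 - C ρ⁻¹ * X) := by
          rw [mul_sub, mul_one, ← mul_assoc, ← C_mul, neg_mul, mul_inv_cancel₀ hρ0, C_neg, C_neg,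
            C_1]
          ring
        rw [this]; ring
      have hl : C (-ρ) * g ∈ lifts (algebraMap A K) := by
        apply mem_lifts_of_mul_primitive (s := s) (by rw [hsres]; exact one_ne_zero)
        rw [hfac, mem_lifts]
        exact ⟨d, rfl⟩
      obtain ⟨d', hd'⟩ := (mem_lifts _).mp hl
      have hdd : d = d' * s := by
        apply Polynomial.map_injective _ hinj
        rw [Polynomial.map_mul, hd', hfac]
      have hd'0 : d' ≠ 0 := by rintro rfl; exact hd0 (by rw [hdd, zero_mul])
      have hsdeg : s.natDegree = 1 := by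
        have : s = C (-r) * X + C 1 := by rw [hs, C_neg, C_1]; ring
        rw [this]
        exact natDegree_linear (neg_ne_zero.mpr hr0)
      have hs0 : s ≠ 0 := by rintro h; rw [h] at hsdeg; simp at hsdeg
      have hdeg' : d'.natDegree = n := by
        have := congrArg natDegree hdd
        rw [natDegree_mul hd'0 hs0, hsdeg, hd] at this
        omega
      have hprim' : d'.map (residue A) ≠ 0 := by
        intro h
        apply hprim
        rw [hdd, Polynomial.map_mul, h, zero_mul]
      obtain ⟨d0, d1, h1, h2, u, hu, h3⟩ := ih d' hdeg' hprim'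
      exact ⟨d0, d1 * s, by rw [hdd, h1, mul_assoc], h2, u, hu, by
        rw [Polynomial.map_mul, h3, hsres, mul_one]⟩

end Factor

end Fermat.Agent.S18.KLGauss
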