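import Fermat.Agent.S18.KLSat

/-!
# S18 / KL / (b2) : traces of integral elements, Cramer's rule
-/

set_option autoImplicit false

namespace Fermat.Agent.S18.KLGauss

open Polynomial IsLocalRing

section Trace

variable {A K : Type*} [CommRing A] [IsDomain A] [ValuationRing A] [Field K] [Algebra A K]
  [IsFractionRing A K]
variable {E : Type*} [Field E] [Algebra K[X] E] [FaithfulSMul K[X] E]
variable (Q : Type*) [Field Q] [Algebra K[X] Q] [IsFractionRing K[X] Q] [Algebra Q E]
  [IsScalarTower K[X] Q E] [FiniteDimensional Q E]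

/-- the structure map `A[X] → K[X] → Q` -/
noncomputable def psi (A K Q : Type*) [CommRing A] [Field K] [Algebra A K] [Field Q]
    [Algebra K[X] Q] : A[X] →+* Q :=
  (algebraMap K[X] Q).comp (mapRingHom (algebraMap A K))

omit [IsDomain A] [ValuationRing A] [IsFractionRing A K] [FaithfulSMul K[X] E]
  [IsFractionRing K[X] Q] [FiniteDimensional Q E] in
theorem algebraMap_psi (a : A[X]) : algebraMap Q E (psi A K Q a) = phi A K E a := by
  rw [psi, phi, RingHom.comp_apply, RingHom.comp_apply, ← IsScalarTower.algebraMap_apply]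

omit [FaithfulSMul K[X] E] in
/-- **(i)** the trace of an element integral over `A[X]` lies in `A[X]` -/
theorem exists_trace_eq {x : E} (hx : (phi A K E).IsIntegralElem x) :
    ∃ a : A[X], psi A K Q a = Algebra.trace Q E x := by
  let _ : Algebra A[X] Q := (psi A K Q).toAlgebra
  let _ : Algebra A[X] E := (phi A K E).toAlgebra
  have : IsScalarTower A[X] Q E := .of_algebraMap_eq fun a => (algebraMap_psi Q a).symm
  have : IsFractionRing A[X] Q := isFractionRing_polynomial A K Q rfl
  have hx' : IsIntegral A[X] x := hx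
  have h := Algebra.isIntegral_trace (L := Q) hx'
  exact IsIntegrallyClosed.isIntegral_iff.mp h

omit [FaithfulSMul K[X] E] in
/-- **(ii)** Cramer's rule: `det (Tr (bᵢ bⱼ)) • C₀ ⊆ ∑ A[X] bᵢ`. -/
theorem exists_cramer {ι : Type*} [Fintype ι] [DecidableEq ι] (b : Module.Basis ι Q E)
    (hb : ∀ i, (phi A K E).IsIntegralElem (b i)) (g : Matrix ι ι A[X])
    (hg : ∀ i j, psi A K Q (g i j) = Algebra.trace Q E (b i * b j)) {x : E}
    (hx : (phi A K E).IsIntegralElem x) :
    ∃ c : ι → A[X], phi A K E g.det * x = ∑ i, phi A K E (c i) * b i := by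
  choose t ht using fun j => exists_trace_eq Q (RingHom.IsIntegralElem.mul _ hx (hb j))
  set ψ := psi A K Q with hψ
  set G : Matrix ι ι Q := g.map ψ with hG
  set ξ : ι → Q := fun i => b.repr x i with hξ
  have hxsum : x = ∑ i, ξ i • b i := (b.sum_repr x).symm
  have hτ : (fun j => ψ (t j)) = Matrix.vecMul ξ G := by
    funext j
    rw [ht j]
    conv_lhs => rw [hxsum]
    rw [Finset.sum_mul, map_sum, Matrix.vecMul, dotProduct]
    refine Finset.sum_congr rfl fun i _ => ?_
    rw [smul_mul_assoc, map_smul, smul_eq_mul, hG, Matrix.map_apply, hg]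
  refine ⟨Matrix.vecMul t g.adjugate, ?_⟩
  have hc : ∀ i, ψ (Matrix.vecMul t g.adjugate i) = ψ g.det * ξ i := by
    intro i
    have h1 : ψ (Matrix.vecMul t g.adjugate i) =
        Matrix.vecMul (fun j => ψ (t j)) G.adjugate i := by
      rw [hG, ← RingHom.mapMatrix_apply, ← RingHom.map_adjugate, RingHom.mapMatrix_apply]
      simp only [Matrix.vecMul, dotProduct, map_sum, map_mul, Matrix.map_apply]
    rw [h1, hτ, Matrix.vecMul_vecMul, Matrix.mul_adjugate, Matrix.vecMul_smul, Matrix.vecMul_one,
      Pi.smul_apply, smul_eq_mul, hG, ← RingHom.mapMatrix_apply, ← RingHom.map_det]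
  conv_lhs => rw [hxsum]
  rw [Finset.mul_sum]
  refine Finset.sum_congr rfl fun i _ => ?_
  rw [← algebraMap_psi Q, ← algebraMap_psi Q, ← hψ, hc i, map_mul, Algebra.smul_def, mul_assoc]

end Trace

end Fermat.Agent.S18.KLGauss
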