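import Mathlib

/-!
# S18 / (KL), modular input: general lemmas (Mathlib only)  (helper13)
-/

set_option autoImplicit false

open Polynomial
noncomputable section
namespace Fermat.Agent.S18

theorem algebraMap_laurent_eq_single {K : Type*} [Field K] (c : K) :
    algebraMap K (LaurentSeries K) c = HahnSeries.single 0 c := by
  have h1 : algebraMap K (PowerSeries K) c = PowerSeries.C c := by simp
  rw [HahnSeries.algebraMap_apply', h1, HahnSeries.ofPowerSeries_C]
  rfl

theorem transcendental_of_order_neg {K : Type*} [Field K] {x : LaurentSeries K}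
    (hx : x.order < 0) : Transcendental K x := by
  rw [transcendental_iff]
  intro p hp
  by_contra hp0
  have hx0 : x ≠ 0 := by
    rintro rfl
    simp at hx
  set n := p.natDegree with hn
  have h1 := congrArg (fun s : LaurentSeries K => s.coeff (n • x.order)) hp
  simp only [HahnSeries.coeff_zero] at h1
  rw [aeval_def, eval₂_eq_sum_range, HahnSeries.coeff_sum, Finset.sum_eq_single n] at h1
  · rw [algebraMap_laurent_eq_single, HahnSeries.coeff_single_zero_mul, ← HahnSeries.order_pow] at h1
    rcases mul_eq_zero.mp h1 with h | h
    · exact hp0 (leadingCoeff_eq_zero.mp h)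
    · exact (pow_ne_zero n hx0) (HahnSeries.coeff_order_eq_zero.mp h)
  · intro i hi hin
    rw [algebraMap_laurent_eq_single, HahnSeries.coeff_single_zero_mul,
      HahnSeries.coeff_eq_zero_of_lt_order, mul_zero]
    rw [HahnSeries.order_pow]
    have hi' : i < n := by
      have := Finset.mem_range.mp hi
      omega
    simp only [nsmul_eq_mul]
    have : (i : ℤ) < n := by exact_mod_cast hi'
    nlinarith
  · intro h
    exact absurd (Finset.mem_range.mpr (Nat.lt_succ_self n)) h

theorem card_le_natDegree_minpoly {E F W : Type*} [Field E] [Field F] [Field W] [Algebra E F]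
    (x : F) (hx : IsIntegral E x) {X : Type*} [Finite X] (σ : X → F →+* W)
    (hE : ∀ i j (a : E), σ i (algebraMap E F a) = σ j (algebraMap E F a))
    (hinj : Function.Injective fun i => σ i x) : Nat.card X ≤ (minpoly E x).natDegree := by
  classical
  rcases isEmpty_or_nonempty X with hX | ⟨⟨i₀⟩⟩
  · simp
  have := Fintype.ofFinite X
  by_contra hlt
  push Not at hlt
  let p : W[X] := (minpoly E x).map ((σ i₀).comp (algebraMap E F))
  have hroot : ∀ i, p.eval (σ i x) = 0 := by
    intro i
    have h1 : (σ i₀).comp (algebraMap E F) = (σ i).comp (algebraMap E F) :=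
      RingHom.ext fun a => hE i₀ i a
    show ((minpoly E x).map ((σ i₀).comp (algebraMap E F))).eval (σ i x) = 0
    rw [h1, eval_map, ← hom_eval₂, ← aeval_def, minpoly.aeval, map_zero]
  have hdeg : p.natDegree < Fintype.card X := by
    rw [← Nat.card_eq_fintype_card]
    exact (natDegree_map_le).trans_lt hlt
  have hp : p = 0 := eq_zero_of_natDegree_lt_card_of_eval_eq_zero p hinj hroot hdeg
  exact (minpoly.ne_zero hx) ((Polynomial.map_eq_zero _).mp hp)

theorem trace_eq_sum_of_card {E F L : Type*} [Field E] [Field F] [Field L] [Algebra E F]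
    [FiniteDimensional E F] [Algebra.IsSeparable E F]
    {X : Type*} [Fintype X] (σ : X → F →+* L) (hσ : Function.Injective σ)
    (hcard : Fintype.card X = Module.finrank E F)
    (hE : ∀ i j (a : E), σ i (algebraMap E F a) = σ j (algebraMap E F a)) (i : X) (x : F) :
    σ i (algebraMap E F (Algebra.trace E F x)) = ∑ j, σ j x := by
  let Lbar := AlgebraicClosure L
  let _ : Algebra E Lbar := ((algebraMap L Lbar).comp ((σ i).comp (algebraMap E F))).toAlgebra
  let τ : X → (F →ₐ[E] Lbar) := fun j =>
    { toRingHom := (algebraMap L Lbar).comp (σ j)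
      commutes' := fun a => by
        show algebraMap L Lbar (σ j (algebraMap E F a)) = algebraMap L Lbar (σ i (algebraMap E F a))
        rw [hE j i] }
  have hτ : Function.Injective τ := by
    intro j k hjk
    apply hσ
    ext z
    have := DFunLike.congr_fun hjk z
    exact (algebraMap L Lbar).injective this
  have hbij : Function.Bijective τ := by
    rw [Fintype.bijective_iff_injective_and_card]
    exact ⟨hτ, by rw [hcard, AlgHom.card]⟩
  apply (algebraMap L Lbar).injective
  have h := trace_eq_sum_embeddings (K := E) (L := F) Lbar (x := x)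
  rw [map_sum]
  calc algebraMap L Lbar (σ i (algebraMap E F (Algebra.trace E F x)))
      = algebraMap E Lbar (Algebra.trace E F x) := rfl
    _ = ∑ σ' : F →ₐ[E] Lbar, σ' x := h
    _ = ∑ j, τ j x := (Fintype.sum_bijective τ hbij _ _ (fun _ => rfl)).symm
    _ = _ := rfl

end Fermat.Agent.S18
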