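import Fermat.Agent.S18.ModInvHaupt
import Fermat.Agent.S18.Arch
import Fermat.Agent.S24.Degree
import Fermat.Prelude.Def_FLTPrelim_Ramification
import Fermat.Prelude.Thm_ModularCurve_coeffMap_qExpand

/-!
# S18 / (KL), modular input: the bridge `Zb ⊂ ℂ` ↔ `A ⊂ Kb`, and `AL M` ↔ `FN M`  (helper13)

* `zk : Zb →+* Kb` (inverse of `S24.kappa` on algebraic integers), `zkA A : Zb →+* A`,
  `phiA A : Zb →+* ResidueField A` (surjective if `A` lies over a prime);
* `Corr M x f` : `x : FN M` and `f : AL M` are the same modular function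
  (same meromorphic function, same `q`-expansion);
* `exists_corr` : every `Γ₀(M)`-invariant element of `AL M` comes from `FN M`
  (Lagrange interpolation).
-/

set_option autoImplicit false

open UpperHalfPlane ModularForm EisensteinSeries ModularCurve Polynomial
open scoped MatrixGroups Manifold Real

noncomputable section

namespace Fermat.Agent.S18

open Fermat.Agent.S24 Fermat.Agent.S28

/-! ### algebraic integers -/

theorem mem_fieldRange_kappa (c : Zb) : (c : ℂ) ∈ kappa.fieldRange := by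
  let _ : Algebra Kb ℂ := kappa.toAlgebra
  have h1 : IsIntegral ℤ (c : ℂ) := c.2
  have h2 : IsIntegral Kb (c : ℂ) := h1.tower_top
  have h3 := IsAlgClosed.degree_eq_one_of_irreducible Kb (minpoly.irreducible h2)
  obtain ⟨a, ha⟩ := minpoly.mem_range_of_degree_eq_one Kb (c : ℂ) h3
  exact ⟨a, ha⟩

/-- algebraic integers of `ℂ`, seen in `Kb` -/
def zk : Zb →+* Kb :=
  (kappa.rangeRestrictFieldEquiv.symm : kappa.fieldRange →+* Kb).comp
    { toFun := fun c => ⟨(c : ℂ), mem_fieldRange_kappa c⟩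
      map_one' := rfl
      map_mul' := fun _ _ => rfl
      map_zero' := rfl
      map_add' := fun _ _ => rfl }

theorem kappa_zk (c : Zb) : kappa (zk c) = (c : ℂ) :=
  RingHom.rangeRestrictFieldEquiv_apply_symm_apply kappa ⟨(c : ℂ), mem_fieldRange_kappa c⟩

theorem zk_injective : Function.Injective zk := fun a b h =>
  Subtype.ext (by rw [← kappa_zk, ← kappa_zk, h])

theorem isIntegral_zk (c : Zb) : IsIntegral ℤ (zk c) := by
  have h1 : IsIntegral ℤ (kappa.toIntAlgHom (zk c)) := by
    show IsIntegral ℤ (kappa (zk c))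
    rw [kappa_zk]; exact c.2
  exact (isIntegral_algHom_iff kappa.toIntAlgHom kappa.injective).mp h1

theorem zk_mem (A : ValuationSubring Kb) (c : Zb) : zk c ∈ A := by
  have h1 : IsIntegral A (zk c) := (isIntegral_zk c).tower_top
  obtain ⟨y, hy⟩ := IsIntegrallyClosed.algebraMap_eq_of_integral h1
  rw [← hy]
  exact y.2

/-- algebraic integers inside a valuation ring -/
def zkA (A : ValuationSubring Kb) : Zb →+* A := zk.codRestrict A.toSubring (zk_mem A)

theorem coe_zkA (A : ValuationSubring Kb) (c : Zb) : ((zkA A c : A) : Kb) = zk c := rfl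

/-- reduction of algebraic integers -/
def phiA (A : ValuationSubring Kb) : Zb →+* IsLocalRing.ResidueField A :=
  (IsLocalRing.residue A).comp (zkA A)

theorem exists_root_Zb (Q : Zb[X]) (hQ : Q.Monic) (hd : Q.natDegree ≠ 0) :
    ∃ y : Zb, Q.eval y = 0 := by
  have hdeg : (Q.map (algebraMap Zb ℂ)).degree ≠ 0 := by
    rw [hQ.degree_map, degree_eq_natDegree hQ.ne_zero]
    exact_mod_cast hd
  obtain ⟨y, hy⟩ := IsAlgClosed.exists_root _ hdeg
  have hy' : IsIntegral Zb y := ⟨Q, hQ, by rwa [IsRoot.def, eval_map] at hy⟩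
  have hy'' : IsIntegral ℤ y := isIntegral_trans y hy'
  refine ⟨⟨y, hy''⟩, ?_⟩
  apply Subtype.val_injective
  rw [IsRoot.def, eval_map] at hy
  have h := Polynomial.hom_eval₂ Q (RingHom.id Zb) (algebraMap Zb ℂ) ⟨y, hy''⟩
  rw [RingHom.comp_id] at h
  rw [eval₂_id] at h
  show algebraMap Zb ℂ (Q.eval ⟨y, hy''⟩) = _
  rw [h]
  exact hy

theorem mem_range_of_root {k : Type*} [Field k] (φ : Zb →+* k) : ∀ (n : ℕ) (Q : Zb[X]), Q.Monic →
    Q.natDegree = n → ∀ ξ : k, (Q.map φ).eval ξ = 0 → ξ ∈ Set.range φ := by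
  intro n
  induction n with
  | zero =>
    intro Q hQ hd ξ h
    have h1 : Q = 1 := hQ.natDegree_eq_zero.mp hd
    subst h1
    simp at h
  | succ n ih =>
    intro Q hQ hd ξ h
    obtain ⟨y, hy⟩ := exists_root_Zb Q hQ (by omega)
    obtain ⟨Q', hQ'⟩ := dvd_iff_isRoot.mpr hy
    have hm : Q'.Monic := Monic.of_mul_monic_left (monic_X_sub_C y) (hQ' ▸ hQ)
    have hd' : Q'.natDegree = n := by
      have := (monic_X_sub_C y).natDegree_mul hm
      rw [← hQ', hd, natDegree_X_sub_C] at this
      omega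
    rw [hQ', Polynomial.map_mul, eval_mul] at h
    rcases mul_eq_zero.mp h with h | h
    · refine ⟨y, ?_⟩
      simp only [Polynomial.map_sub, map_X, map_C, eval_sub, eval_X, eval_C] at h
      exact (sub_eq_zero.mp h).symm
    · exact ih Q' hm hd' ξ h

theorem phiA_surjective (A : ValuationSubring Kb) {l : ℕ} (hl : l.Prime) (hA : A.LiesOverPrime l) :
    Function.Surjective (phiA A) := by
  intro ξ
  obtain ⟨x, rfl⟩ := IsLocalRing.residue_surjective ξ
  have : Fact l.Prime := ⟨hl⟩
  obtain ⟨p, hp, h0⟩ := Arch.exists_int_poly A x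
  -- primitive part
  have hpp : aeval x p.primPart = 0 := by
    have h1 := p.eq_C_content_mul_primPart
    rw [h1, map_mul, aeval_C] at h0
    rcases mul_eq_zero.mp h0 with h | h
    · exfalso
      have h2 : (algebraMap ℤ A) p.content = ((p.content : ℤ) : A) := rfl
      rw [h2] at h
      have h3 : p.content = 0 := by exact_mod_cast h
      exact hp (content_eq_zero_iff.mp h3)
    · exact h
  set P := p.primPart with hP
  have hprim : P.IsPrimitive := p.isPrimitive_primPart
  have hPl : P.map (Int.castRingHom (ZMod l)) ≠ 0 := by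
    intro h
    have h1 : C (l : ℤ) ∣ P := by
      rw [C_dvd_iff_dvd_coeff]
      intro i
      have := congrArg (fun q => q.coeff i) h
      simp only [coeff_map, coeff_zero, eq_intCast] at this
      exact (ZMod.intCast_zmod_eq_zero_iff_dvd _ _).mp this
    have h2 := hprim _ h1
    have h3 := Int.isUnit_iff.mp h2
    have := hl.one_lt
    omega
  set Pl := P.map (Int.castRingHom (ZMod l)) with hPldef
  set μ := C (Pl.leadingCoeff)⁻¹ * Pl with hμ
  have hμm : μ.Monic := by
    rw [hμ, mul_comm]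
    exact monic_mul_leadingCoeff_inv hPl
  have hlift : μ ∈ lifts (Int.castRingHom (ZMod l)) := by
    rw [lifts_iff_coeff_lifts]
    intro n
    exact ZMod.intCast_surjective _
  obtain ⟨Q0, hQ0, -, hQ0m⟩ := lifts_and_natDegree_eq_and_monic hlift hμm
  have hchar : CharP (IsLocalRing.ResidueField A) l := by
    have h1 : ((l : ℕ) : IsLocalRing.ResidueField A) = 0 := by
      have := (IsLocalRing.residue_eq_zero_iff (l : A)).mpr (Arch.natCast_mem_maximalIdeal A hA)
      rwa [map_natCast] at this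
    exact (CharP.charP_iff_prime_eq_zero hl).mpr h1
  let ι : ZMod l →+* IsLocalRing.ResidueField A := ZMod.castHom dvd_rfl _
  have hcomp : ι.comp (Int.castRingHom (ZMod l)) = Int.castRingHom _ := RingHom.ext_int _ _
  refine mem_range_of_root (phiA A) _ (Q0.map (Int.castRingHom Zb)) (hQ0m.map _) rfl _ ?_
  rw [Polynomial.map_map, show (phiA A).comp (Int.castRingHom Zb) = Int.castRingHom _ from
    RingHom.ext_int _ _, ← hcomp, ← Polynomial.map_map, hQ0, hμ, Polynomial.map_mul, eval_mul,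
    hPldef, Polynomial.map_map, hcomp]
  have h5 : (P.map (Int.castRingHom (IsLocalRing.ResidueField A))).eval (IsLocalRing.residue A x)
      = IsLocalRing.residue A (aeval x P) := by
    rw [eval_map, aeval_def, hom_eval₂]
    congr 1
  rw [h5, hpp, map_zero, mul_zero]

theorem phiA_natCast_ne_zero (A : ValuationSubring Kb) {l : ℕ} (hl : l.Prime)
    (hA : A.LiesOverPrime l) {M : ℕ} (hlM : ¬ l ∣ M) (r : ℕ) (hr : r.Prime) (hrM : r ∣ M) :
    phiA A (r : Zb) ≠ 0 := by
  intro h
  rw [map_natCast] at h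
  have h1 : ¬ (l : ℤ) ∣ (r : ℤ) := by
    intro h2
    have h3 : l ∣ r := by exact_mod_cast h2
    exact hlM (((Nat.prime_dvd_prime_iff_eq hl hr).mp h3) ▸ hrM)
  have h2 := Arch.isUnit_intCast A hl hA h1
  have h3 : IsLocalRing.residue A ((r : ℤ) : A) = 0 := by
    rw [map_intCast]; exact_mod_cast h
  exact ((IsLocalRing.residue_eq_zero_iff _).mp h3) h2


/-! ### correspondence between `FN M` and `AL M` -/

/-- `x : FN M` and `f : AL M` are the same modular function -/
structure Corr (M : ℕ) [NeZero M] (x : FN M) (f : AL M) : Prop where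
  iota_eq : iota M x = algebraMap Hol Mer f.1
  qexp_eq : qExpand Kb M (x : LaurentSeries Kb) = coeffMap zk (eps M f)

variable {M : ℕ} [NeZero M]

theorem Corr.add {x y : FN M} {f g : AL M} (h : Corr M x f) (h' : Corr M y g) :
    Corr M (x + y) (f + g) :=
  ⟨by rw [(iota M).map_add, h.iota_eq, h'.iota_eq, ← map_add]; rfl,
   by rw [map_add, map_add, ← h.qexp_eq, ← h'.qexp_eq, ← map_add]; rfl⟩

theorem Corr.mul {x y : FN M} {f g : AL M} (h : Corr M x f) (h' : Corr M y g) :
    Corr M (x * y) (f * g) :=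
  ⟨by rw [(iota M).map_mul, h.iota_eq, h'.iota_eq, ← map_mul]; rfl,
   by rw [map_mul, map_mul, ← h.qexp_eq, ← h'.qexp_eq, ← map_mul]; rfl⟩

theorem Corr.neg {x : FN M} {f : AL M} (h : Corr M x f) : Corr M (-x) (-f) :=
  ⟨by rw [(iota M).map_neg, h.iota_eq, ← map_neg]; rfl,
   by rw [map_neg, map_neg, ← h.qexp_eq, ← map_neg]; rfl⟩

theorem Corr.sub {x y : FN M} {f g : AL M} (h : Corr M x f) (h' : Corr M y g) :
    Corr M (x - y) (f - g) := by
  rw [sub_eq_add_neg, sub_eq_add_neg]; exact h.add h'.neg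

theorem Corr.const (c : Zb) : Corr M (algebraMap Kb (FN M) (zk c)) (cA M c) := by
  refine ⟨?_, ?_⟩
  · rw [iota_algebraMap, kappa_zk]
    exact IsScalarTower.algebraMap_apply ℂ Hol Mer _
  · rw [eps_cA]
    have h1 : ((algebraMap Kb (FN M) (zk c) : FN M) : LaurentSeries Kb) = HahnSeries.C (zk c) := by
      show algebraMap Kb (LaurentSeries Kb) (zk c) = _
      rw [P2MW.S_ModularCurve_coeff_jqModC_neg_one.ModularCurve.CharLRows.algebraMap_laurentSeries_eq_single]
      rfl
    rw [h1, qExpand_C]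
    show _ = coeffMap zk (HahnSeries.single 0 c)
    rw [coeffMap_single]
    rfl

theorem Corr.one : Corr M (1 : FN M) (1 : AL M) := by
  have := Corr.const (M := M) 1
  simpa using this

theorem Corr.zero : Corr M (0 : FN M) (0 : AL M) := by
  have := Corr.const (M := M) 0
  simpa using this

theorem Corr.pow {x : FN M} {f : AL M} (h : Corr M x f) (n : ℕ) : Corr M (x ^ n) (f ^ n) := by
  induction n with
  | zero => simpa using Corr.one
  | succ n ih => rw [pow_succ, pow_succ]; exact ih.mul h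

theorem Corr.jF (d : ℕ) [NeZero d] (hd : d ∣ M) : Corr M (jF M d hd) (jA M d hd) := by
  refine ⟨iota_jF M d hd, ?_⟩
  rw [eps_jA, coeffMap_qExpand, coeffMap_jqModC]
  show qExpand Kb M (coeffEmb Kb (qExpand ℚ d jq)) = _
  rw [coeffEmb, coeffMap_qExpand, ← jqModC_rat, coeffMap_jqModC, qExpand_qExpand]

theorem Corr.sum {ι : Type*} (s : Finset ι) (x : ι → FN M) (f : ι → AL M)
    (h : ∀ i ∈ s, Corr M (x i) (f i)) : Corr M (∑ i ∈ s, x i) (∑ i ∈ s, f i) := by
  classical
  induction s using Finset.induction_on with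
  | empty => simpa using Corr.zero
  | insert a s ha ih =>
    rw [Finset.sum_insert ha, Finset.sum_insert ha]
    exact (h a (Finset.mem_insert_self a s)).add
      (ih fun i hi => h i (Finset.mem_insert_of_mem hi))

theorem Corr.eval₂ {x : FN M} {f : AL M} (h : Corr M x f) (P : Zb[X]) :
    Corr M (aeval x (P.map zk)) (P.eval₂ (cA M) f) := by
  rw [aeval_def, eval₂_map, eval₂_eq_sum_range, eval₂_eq_sum_range]
  exact Corr.sum _ _ _ fun i _ => (Corr.const _).mul (h.pow i)

theorem Corr.unique_left {x y : FN M} {f : AL M} (h : Corr M x f) (h' : Corr M y f) : x = y :=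
  (iota M).injective (by rw [h.iota_eq, h'.iota_eq])

theorem Corr.unique_right {x : FN M} {f g : AL M} (h : Corr M x f) (h' : Corr M x g) : f = g :=
  Subtype.ext (IsFractionRing.injective Hol Mer (by rw [← h.iota_eq, ← h'.iota_eq]))

theorem Corr.eq_zero_iff {x : FN M} {f : AL M} (h : Corr M x f) : x = 0 ↔ f = 0 :=
  ⟨fun h0 => (h0 ▸ h).unique_right Corr.zero, fun h0 => (h0 ▸ h).unique_left Corr.zero⟩

theorem Corr.div {x y : FN M} {f g k : AL M} (h : Corr M x f) (h' : Corr M y g) (hg : g ≠ 0)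
    (hk : k * g = f) : Corr M (x / y) k := by
  have hy : y ≠ 0 := fun h0 => hg (h'.eq_zero_iff.mp h0)
  refine ⟨?_, ?_⟩
  · rw [map_div₀, h.iota_eq, h'.iota_eq, ← hk]
    have h1 : algebraMap Hol Mer g.1 ≠ 0 := by
      rw [← h'.iota_eq]; exact (_root_.map_ne_zero (iota M)).mpr hy
    rw [div_eq_iff h1, ← map_mul]; rfl
  · have h1 : qExpand Kb M (y : LaurentSeries Kb) ≠ 0 := by
      rw [Ne, map_eq_zero_iff _ (qExpand_injective M)]
      exact fun h0 => hy (Subtype.ext h0)
    apply mul_right_cancel₀ h1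
    rw [← map_mul]
    have h2 : ((x / y : FN M) : LaurentSeries Kb) * (y : LaurentSeries Kb) = x := by
      have : x / y * y = x := div_mul_cancel₀ x hy
      exact congrArg Subtype.val this
    rw [h2, h.qexp_eq, h'.qexp_eq, ← map_mul, ← map_mul, hk]

theorem Corr.sigma {x : FN M} {f : AL M} (h : Corr M x f) (g : SL(2, ℤ)) :
    S24.sigma M (g : QN M) x = algebraMap Hol Mer (g • f : AL M).1 := by
  rw [sigma_mk, h.iota_eq, merAct_algebraMap]
  rfl


namespace Lag

variable {Γ B : Type*} [Group Γ] [CommRing B] [MulSemiringAction Γ B] (K : Subgroup Γ)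

/-- the conjugates of a `K`-invariant element, indexed by cosets -/
def orb (b : B) (hb : ∀ k ∈ K, k • b = b) : Γ ⧸ K → B :=
  fun x => Quotient.liftOn' x (fun g => g • b) (by
    intro g g' h
    have h1 : g⁻¹ * g' ∈ K := QuotientGroup.leftRel_apply.mp h
    have h2 := hb _ h1
    rw [mul_smul] at h2
    show g • b = g' • b
    calc g • b = g • (g⁻¹ • g' • b) := by rw [h2]
      _ = g' • b := smul_inv_smul _ _)

theorem orb_mk (b : B) (hb : ∀ k ∈ K, k • b = b) (g : Γ) : orb K b hb (g : Γ ⧸ K) = g • b := rfl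

theorem orb_smul (b : B) (hb : ∀ k ∈ K, k • b = b) (g : Γ) (x : Γ ⧸ K) :
    orb K b hb (g • x) = g • orb K b hb x := by
  induction x using QuotientGroup.induction_on with
  | H h =>
    show orb K b hb ((g * h : Γ) : Γ ⧸ K) = g • orb K b hb (h : Γ ⧸ K)
    rw [orb_mk, orb_mk, mul_smul]

theorem orb_eq_out (b : B) (hb : ∀ k ∈ K, k • b = b) (x : Γ ⧸ K) : orb K b hb x = x.out • b := by
  conv_lhs => rw [← QuotientGroup.out_eq' x]
  rfl

variable [Fintype (Γ ⧸ K)] [DecidableEq (Γ ⧸ K)]

/-- the Lagrange interpolation polynomial -/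
def lag (b x : B) (hb : ∀ k ∈ K, k • b = b) (hx : ∀ k ∈ K, k • x = x) : B[X] :=
  ∑ q : Γ ⧸ K, C (orb K b hb q) * ∏ q' : Γ ⧸ K, if q' = q then 1 else (X - C (orb K x hx q'))

theorem lag_map (b x : B) (hb : ∀ k ∈ K, k • b = b) (hx : ∀ k ∈ K, k • x = x) (g : Γ) :
    (lag K b x hb hx).map (MulSemiringAction.toRingHom Γ B g) = lag K b x hb hx := by
  rw [lag, Polynomial.map_sum]
  refine Fintype.sum_equiv (MulAction.toPerm g) _ _ fun q => ?_
  rw [Polynomial.map_mul, map_C, Polynomial.map_prod, MulAction.toPerm_apply, orb_smul]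
  congr 1
  refine Fintype.prod_equiv (MulAction.toPerm g) _ _ fun q' => ?_
  rw [MulAction.toPerm_apply]
  by_cases h : q' = q
  · rw [if_pos h, if_pos (by rw [h]), Polynomial.map_one]
  · rw [if_neg h, if_neg (fun h' => h (smul_left_cancel g h')), Polynomial.map_sub, map_X, map_C,
      orb_smul]
    rfl

theorem smul_coeff_lag (b x : B) (hb : ∀ k ∈ K, k • b = b) (hx : ∀ k ∈ K, k • x = x) (n : ℕ)
    (g : Γ) : g • (lag K b x hb hx).coeff n = (lag K b x hb hx).coeff n := by
  conv_rhs => rw [← lag_map K b x hb hx g, coeff_map]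
  rfl

theorem eval_lag (b x : B) (hb : ∀ k ∈ K, k • b = b) (hx : ∀ k ∈ K, k • x = x) :
    (lag K b x hb hx).eval x =
      b * ∏ q' : Γ ⧸ K, if q' = ((1 : Γ) : Γ ⧸ K) then 1 else (x - orb K x hx q') := by
  rw [lag, eval_finsetSum, Finset.sum_eq_single ((1 : Γ) : Γ ⧸ K)]
  · rw [eval_mul, eval_C, orb_mk, one_smul, eval_prod]
    congr 1
    refine Finset.prod_congr rfl fun q' _ => ?_
    split_ifs <;> simp
  · intro q _ hq
    rw [eval_mul, eval_prod, Finset.prod_eq_zero (Finset.mem_univ ((1 : Γ) : Γ ⧸ K)), mul_zero]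
    rw [if_neg (Ne.symm hq), eval_sub, eval_X, eval_C, orb_mk, one_smul, sub_self]
  · intro h; exact absurd (Finset.mem_univ _) h

end Lag


theorem exists_corr_of_invariant (c : AL M) (hc : ∀ g : SL(2, ℤ), g • c = c) :
    ∃ x : FN M, Corr M x c := by
  obtain ⟨P, hP⟩ := exists_poly_of_invariant M c hc
  exact ⟨_, hP ▸ (Corr.jF 1 (one_dvd M)).eval₂ P⟩

theorem exists_corr_eval (L : (AL M)[X]) (hL : ∀ n, ∃ x, Corr M x (L.coeff n)) {y : FN M}
    {f : AL M} (h : Corr M y f) : ∃ x, Corr M x (L.eval f) := by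
  choose c hc using hL
  rw [eval_eq_sum_range]
  exact ⟨_, Corr.sum _ (fun i => c i * y ^ i) _ fun i _ => (hc i).mul (h.pow i)⟩

theorem exists_corr (f : AL M) (hf : ∀ g ∈ CongruenceSubgroup.Gamma0 M, g • f = f) :
    ∃ x : FN M, Corr M x f := by
  classical
  have : Finite (QN M) := Subgroup.finite_quotient_of_finiteIndex
  have : Fintype (QN M) := Fintype.ofFinite _
  have hx : ∀ k ∈ CongruenceSubgroup.Gamma0 M, k • jA M M dvd_rfl = jA M M dvd_rfl :=
    fun k hk => smul_jA_of_mem_Gamma0 M hk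
  have h1 : ∀ k ∈ CongruenceSubgroup.Gamma0 M, k • (1 : AL M) = 1 := fun k _ => smul_one k
  obtain ⟨X, hX⟩ := exists_corr_eval (Lag.lag _ f _ hf hx)
    (fun n => exists_corr_of_invariant _ (Lag.smul_coeff_lag _ f _ hf hx n)) (Corr.jF M dvd_rfl)
  obtain ⟨Y, hY⟩ := exists_corr_eval (Lag.lag _ 1 _ h1 hx)
    (fun n => exists_corr_of_invariant _ (Lag.smul_coeff_lag _ 1 _ h1 hx n)) (Corr.jF M dvd_rfl)
  rw [Lag.eval_lag] at hX hY
  rw [one_mul] at hY
  refine ⟨X / Y, hX.div hY ?_ rfl⟩
  rw [Finset.prod_ne_zero_iff]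
  intro q _
  split_ifs with h
  · exact one_ne_zero
  · rw [sub_ne_zero]
    intro h2
    apply h
    induction q using QuotientGroup.induction_on with
    | H g =>
      rw [Lag.orb_mk] at h2
      have h3 : g ∈ CongruenceSubgroup.Gamma0 M :=
        mem_Gamma0_of_holAct M (congrArg Subtype.val h2.symm)
      rw [eq_comm, QuotientGroup.eq]
      simpa using h3

end Fermat.Agent.S18
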