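import Fermat.Agent.S18.ModQuot
import Fermat.Agent.S18.Z.Basis

/-!
# S18 / (KL), modular input M-F : hypothesis (R) of Theorem Z (helper20)
-/

set_option autoImplicit false
set_option linter.unusedSectionVars false

open UpperHalfPlane ModularForm EisensteinSeries ModularCurve Polynomial IntermediateField
open scoped MatrixGroups Manifold Real

noncomputable section

namespace Fermat.Agent.S18.ModDisc

open Fermat.Agent.S24 Fermat.Agent.S28

variable {M r : ℕ} [NeZero M]

/-- an enumeration of the cosets -/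
def eX (M r : ℕ) [NeZero M] : Fin (Nat.card (X0 M r)) ≃ X0 M r := (Finite.equivFin (X0 M r)).symm

/-- the conjugates of `j_M` over `Kb(t)` -/
def vv (M r : ℕ) [NeZero M] (i : Fin (Nat.card (X0 M r))) : AL M := xq M (eX M r i).1

/-- the discriminant -/
def DD (M r : ℕ) [NeZero M] : AL M := (Matrix.vandermonde (vv M r)).det ^ 2

/-- `AL M → Mer` -/
def psiM (M : ℕ) [NeZero M] : AL M →+* Mer := (algebraMap Hol Mer).comp (AL M).subtype

theorem psiM_apply (f : AL M) : psiM M f = algebraMap Hol Mer (f : Hol) := rfl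

theorem psiM_injective : Function.Injective (psiM M) := fun _ _ h =>
  Subtype.ext (IsFractionRing.injective Hol Mer h)

theorem sigX_jF (k : Fin (Nat.card (X0 M r))) :
    sigX M r (eX M r k) (jF M M dvd_rfl) = psiM M (vv M r k) := by
  show sigma M (eX M r k).1 _ = _
  rw [sigma_of_corr (Corr.jF M dvd_rfl), vv, xq_eq_out]
  rfl

theorem sigX_one (hrM : r ∣ M) (y : FN M) :
    sigX M r ⟨((1 : SL(2, ℤ)) : QN M), isX0_one hrM⟩ y = iota M y := by
  show sigma M ((1 : SL(2, ℤ)) : QN M) y = _
  rw [sigma_mk, merAct_one]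
  rfl

theorem iota_trace (H : Haupt M r) (hrM : r ∣ M) (x : FN M) :
    iota M (algebraMap (LT H hrM) (FN M) (Algebra.trace (LT H hrM) (FN M) x)) =
      ∑ k, sigX M r (eX M r k) x := by
  have := finiteDimensional_LT H hrM
  have : CharZero (LT H hrM) :=
    charZero_of_injective_algebraMap (algebraMap Kb (LT H hrM)).injective
  have := Fintype.ofFinite (X0 M r)
  have h := trace_eq_sum_of_card (E := LT H hrM) (F := FN M) (sigX M r) sigX_injective
    (by rw [← Nat.card_eq_fintype_card, finrank_LT]) (sigX_LT H hrM)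
    ⟨((1 : SL(2, ℤ)) : QN M), isX0_one hrM⟩ x
  rw [sigX_one hrM] at h
  rw [h]
  exact (Fintype.sum_equiv (eX M r) _ _ fun _ => rfl).symm

theorem iota_det (H : Haupt M r) (hrM : r ∣ M)
    (β : Module.Basis (Fin (Nat.card (X0 M r))) (LT H hrM) (FN M))
    (hβ : ∀ i, β i = jF M M dvd_rfl ^ (i : ℕ)) :
    iota M (algebraMap (LT H hrM) (FN M) (Algebra.traceMatrix (LT H hrM) β).det) =
      psiM M (DD M r) := by
  let φ : LT H hrM →+* Mer := (iota M).comp (algebraMap (LT H hrM) (FN M))
  have h1 : φ.mapMatrix (Algebra.traceMatrix (LT H hrM) β) =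
      ((psiM M).mapMatrix (Matrix.vandermonde (vv M r))).transpose *
        (psiM M).mapMatrix (Matrix.vandermonde (vv M r)) := by
    ext i j
    rw [RingHom.mapMatrix_apply, Matrix.map_apply, Algebra.traceMatrix_apply,
      Algebra.traceForm_apply, Matrix.mul_apply]
    show iota M (algebraMap (LT H hrM) (FN M) _) = _
    rw [iota_trace]
    refine Finset.sum_congr rfl fun k _ => ?_
    rw [Matrix.transpose_apply, RingHom.mapMatrix_apply, Matrix.map_apply, Matrix.map_apply,
      Matrix.vandermonde_apply, Matrix.vandermonde_apply, hβ, hβ, map_mul, map_pow, map_pow,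
      sigX_jF, map_pow, map_pow]
  show φ _ = _
  rw [RingHom.map_det, h1, Matrix.det_mul, Matrix.det_transpose, ← RingHom.map_det, DD, map_pow,
    pow_two]


theorem corr_det (H : Haupt M r) (hrM : r ∣ M)
    (β : Module.Basis (Fin (Nat.card (X0 M r))) (LT H hrM) (FN M))
    (hβ : ∀ i, β i = jF M M dvd_rfl ^ (i : ℕ)) :
    Corr M (((Algebra.traceMatrix (LT H hrM) β).det : LT H hrM) : FN M) (DD M r) := by
  have h1 := iota_det H hrM β hβ
  have hinv : ∀ g ∈ CongruenceSubgroup.Gamma0 M, g • DD M r = DD M r := by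
    intro g hg
    apply psiM_injective
    have h2 : psiM M (g • DD M r) = merAct g (psiM M (DD M r)) :=
      (merAct_algebraMap g _).symm
    rw [h2, ← h1, merAct_iota_of_mem M hg]
  obtain ⟨x, hx⟩ := exists_corr (DD M r) hinv
  have : x = (((Algebra.traceMatrix (LT H hrM) β).det : LT H hrM) : FN M) :=
    (iota M).injective (by rw [hx.iota_eq]; exact h1.symm)
  rwa [this] at hx

theorem smul_DD (H : Haupt M r) (hrM : r ∣ M) (g : SL(2, ℤ)) (hg : (r : ℤ) ∣ g 1 0) :
    g • DD M r = DD M r := by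
  obtain ⟨β, hβ⟩ := exists_basis H hrM
  have hc := corr_det H hrM β hβ
  apply psiM_injective
  have h1 := hc.sigma g
  have h2 := hc.sigma 1
  have h3 := sigX_LT H hrM ⟨(g : QN M), (isX0_mk hrM g).mpr hg⟩
    ⟨((1 : SL(2, ℤ)) : QN M), isX0_one hrM⟩ (Algebra.traceMatrix (LT H hrM) β).det
  rw [one_smul] at h2
  exact h1.symm.trans (h3.trans h2)

theorem red_eval₂_tA {Fb : Type} [Field Fb] (φ : Zb →+* Fb) (f : AL M) (P : Zb[X]) :
    red M φ (P.eval₂ (cA M) f) = aeval (red M φ f) (P.map φ) := by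
  rw [Polynomial.hom_eval₂, aeval_def, eval₂_map]
  congr 1
  ext c : 1
  rw [RingHom.comp_apply, RingHom.comp_apply, red_cA, algebraMap_laurentSeries_eq_single]
  rfl

theorem red_DD_ne_zero {Fb : Type} [Field Fb] (φ : Zb →+* Fb)
    (hφ : ∀ r : ℕ, r.Prime → r ∣ M → φ (r : Zb) ≠ 0) : red M φ (DD M r) ≠ 0 := by
  rw [DD, map_pow, RingHom.map_det]
  apply pow_ne_zero
  have h1 : (red M φ).mapMatrix (Matrix.vandermonde (vv M r)) =
      Matrix.vandermonde (fun k => red M φ (vv M r k)) := by
    ext i j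
    rw [RingHom.mapMatrix_apply, Matrix.map_apply, Matrix.vandermonde_apply,
      Matrix.vandermonde_apply, map_pow]
  rw [h1, Matrix.det_vandermonde_ne_zero_iff]
  intro i j hij
  have h2 : rootOf M φ (eX M r i).1 = rootOf M φ (eX M r j).1 := by
    simp only [vv, xq_eq_out] at hij
    exact hij
  exact (eX M r).injective (Subtype.ext (rootOf_injective M φ hφ h2))

/-- **M-F** : hypothesis (R) of Theorem Z. -/
theorem exists_goodRed (H : Haupt M r) (hrM : r ∣ M) (A : ValuationSubring Kb) {l : ℕ}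
    (hl : l.Prime) (hA : A.LiesOverPrime l) (hlM : ¬ l ∣ M) :
    Nonempty (KL.GoodRed A (tauL H hrM) (FN M) (Fin (Nat.card (X0 M r)))) := by
  obtain ⟨β, hβ⟩ := exists_basis H hrM
  have := finiteDimensional_LT H hrM
  have hτ := transcendental_tauL H hrM
  have hc := corr_det H hrM β hβ
  obtain ⟨x', hx', b, P, h1, h2⟩ := exists_LT_of_invariant H hrM (DD M r) (smul_DD H hrM)
  have hxx : (Algebra.traceMatrix (LT H hrM) β).det = x' := Subtype.ext (hc.unique_left hx')
  have hφ := phiA_natCast_ne_zero A hl hA hlM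
  have hprim : KL.redP A (P.map (zkA A)) ≠ 0 := by
    intro h0
    have h3 : P.map (phiA A) = 0 := by
      rw [KL.redP_apply, Polynomial.map_map] at h0
      exact h0
    have h4 := congrArg (red M (phiA A)) h2
    rw [red_eval₂_tA, h3, map_zero, map_mul, map_pow] at h4
    rcases mul_eq_zero.mp h4 with h5 | h5
    · exact red_DD_ne_zero (phiA A) hφ h5
    · have h7 : red M (phiA A) H.tA = 0 := by
        by_contra hne
        exact pow_ne_zero b hne h5
      have h8 := congrArg (fun s => s.coeff (-(M : ℤ))) h7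
      simp only [red_coeff, H.coeff_eps, map_one, HahnSeries.coeff_zero] at h8
      exact one_ne_zero h8
  have hdet0 : x' ≠ 0 := by
    rw [← hxx]
    have : CharZero (LT H hrM) :=
      charZero_of_injective_algebraMap (algebraMap Kb (LT H hrM)).injective
    have := Algebra.discr_not_zero_of_basis (LT H hrM) β
    rwa [Algebra.discr_def] at this
  obtain ⟨g, -⟩ := KL.GoodRed.ofDet (A := A) hτ (isGen_tauL H hrM) β
    (fun i => by rw [hβ i]; exact Subring.pow_mem _ (ModQuot.jF_mem_VV H hrM A) _) (by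
      rw [hxx]
      refine ⟨X ^ b, P.map (zkA A), hprim, ?_⟩
      rw [ModQuot.evL_map_zkA, ← h1, map_pow, KL.evL_X, mul_comm x', mul_assoc,
        mul_inv_cancel₀ hdet0, mul_one])
  exact ⟨g⟩

end Fermat.Agent.S18.ModDisc
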