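import Fermat.Agent.S18.KLAssembly
import Fermat.Agent.S18.Haupt
import Fermat.Agent.S18.ModGood
import Fermat.Agent.S18.Branch

/-!
# S18 : the modular input, assembled from M-B … M-H (helper27)

Fields of `ModInput A M` (see `KLAssembly.lean`):
`t, htr, hfin` (M-E), `n, good` (M-F), `c0, hc0, br` (M-G), `small, unit` (M-H).
-/

set_option autoImplicit false
set_option synthInstance.maxHeartbeats 400000

open ModularCurve

namespace Fermat.Agent.S18

open Fermat.Agent.S24

theorem exists_modInput (M r : ℕ) [NeZero M] (hr : r = 2 ∨ r = 3) (hrM : r ∣ M) {ℓ : ℕ}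
    (hℓ : ℓ.Prime) (hℓM : ¬ ℓ ∣ M) (A : ValuationSubring Kb) (hA : A.LiesOverPrime ℓ) :
    Nonempty (ModInput A M) := by
  haveI : NeZero r := ⟨by rcases hr with rfl | rfl <;> norm_num⟩
  set H : Haupt M r := haupt M r hr hrM with hH
  obtain ⟨g⟩ := exists_goodRed H hrM A hℓ hA hℓM
  have hrA : ((r : Kb))⁻¹ ∈ A := by
    have hu := Arch.isUnit_intCast A hℓ hA (m := (r : ℤ)) (by
      intro h
      have h1 : ℓ ∣ r := by exact_mod_cast h
      exact hℓM (h1.trans hrM))
    obtain ⟨v, hv⟩ := hu
    have h3 : ((v : A) : Kb) * (((v⁻¹ : Aˣ) : A) : Kb) = 1 := congrArg Subtype.val v.mul_inv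
    have h4 : ((v : A) : Kb) = (r : Kb) := by rw [hv]; simp
    rw [h4] at h3
    rw [← eq_inv_of_mul_eq_one_right h3]
    exact ((v⁻¹ : Aˣ) : A).2
  obtain ⟨c0, hc0, hbr⟩ := Branch.exists_unit_Br hr hrM H A hrA (tauF H hrM)
    (corr_tauF H hrM).iota_eq
  refine ⟨{ t := tauF H hrM
            htr := transcendental_tauF H hrM
            hfin := finiteDimensional_LT H hrM
            n := _
            good := g
            c0 := c0
            hc0 := hc0
            br := hbr
            small := ?_
            unit := ?_ }⟩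
  · intro y hy h0
    refine smV_of_quot H hrM A hℓ hA hℓM _ y 1 ?_ h0 ?_
    · rw [map_one, mul_one]
    · rw [map_one]; exact one_ne_zero
  · intro y hy h0
    have hne : coeffMap A.subtype y ≠ 0 := by
      intro h
      apply h0
      have : y = 0 := by
        ext n
        have := congrArg (fun s => s.coeff n) h
        exact this
      rw [this, map_zero]
    refine mem_VV_of_quot H hrM A hℓ hA hℓM _ 1 y ?_ h0
    rw [map_one]
    show (coeffMap A.subtype y)⁻¹ * coeffMap A.subtype y = 1
    exact inv_mul_cancel₀ hne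

end Fermat.Agent.S18
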