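import Fermat.Agent.S18.ModInv
import Fermat.Agent.S18.HauptDef

/-!
# S18/M-D for the interface structure `Haupt M r`
-/

set_option autoImplicit false

open UpperHalfPlane ModularForm ModularCurve
open scoped MatrixGroups

noncomputable section

namespace Fermat.Agent.S18.ModInv

open Fermat.Agent.S28 Fermat.Agent.S24

theorem exists_low (s : LaurentSeries Zb) : ∃ a : ℕ, Low (-(a : ℤ)) s := by
  by_cases h0 : s = 0
  · exact ⟨0, fun n _ => by rw [h0]; rfl⟩
  · refine ⟨(-s.order).toNat, fun n hn => HahnSeries.coeff_eq_zero_of_lt_order ?_⟩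
    have h1 : -s.order ≤ ((-s.order).toNat : ℤ) := Int.self_le_toNat _
    omega

variable {M : ℕ} [NeZero M]

/-- a uniform bound for the pole orders of all the translates -/
theorem exists_low_smul (f : AL M) : ∃ b : ℕ, ∀ g : SL(2, ℤ), Low (-(b : ℤ)) (eps M (g • f)) := by
  classical
  have hK : ∀ k ∈ CongruenceSubgroup.Gamma M, ∀ b : AL M, k • b = b :=
    fun k hk b => smul_eq_of_mem_Gamma M hk b
  have : Fintype (SL(2, ℤ) ⧸ CongruenceSubgroup.Gamma M) := Fintype.ofFinite _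
  choose β hβ using fun x : SL(2, ℤ) ⧸ CongruenceSubgroup.Gamma M =>
    exists_low (eps M (Stab.orb (CongruenceSubgroup.Gamma M) hK f x))
  refine ⟨Finset.univ.sup β, fun g => ?_⟩
  have h1 := hβ (g : SL(2, ℤ) ⧸ CongruenceSubgroup.Gamma M)
  rw [Stab.orb_mk] at h1
  refine h1.mono ?_
  have h2 : β (g : SL(2, ℤ) ⧸ CongruenceSubgroup.Gamma M) ≤ Finset.univ.sup β :=
    Finset.le_sup (Finset.mem_univ _)
  have h3 : (β (g : SL(2, ℤ) ⧸ CongruenceSubgroup.Gamma M) : ℤ) ≤ (Finset.univ.sup β : ℕ) := by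
    exact_mod_cast h2
  omega

end Fermat.Agent.S18.ModInv

namespace Fermat.Agent.S18

open Fermat.Agent.S28 Fermat.Agent.S24 ModInv

variable {M r : ℕ} [NeZero M]

/-- **S18/M-D** with explicit pole bounds. -/
theorem Haupt.exists_poly_of_low (h : Haupt M r) (f : AL M)
    (hf : ∀ g : SL(2, ℤ), (r : ℤ) ∣ g 1 0 → g • f = f) (a b : ℕ)
    (hfa : ∀ n : ℤ, n < -((a : ℤ) * M) → (eps M f).coeff n = 0)
    (hfb : ∀ g : SL(2, ℤ), ¬ (r : ℤ) ∣ g 1 0 → ∀ n : ℤ, n < -(b : ℤ) →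
      (eps M (g • f)).coeff n = 0) :
    ∃ P : Polynomial Zb, P.natDegree ≤ a + b ∧ f * h.tA ^ b = P.eval₂ (cA M) h.tA :=
  exists_poly r 1 one_pos h.tA h.smul_tA h.coeff_eps h.coeff_eps_lt
    (fun g hg n hn => h.coeff_eps_smul g hg n (by omega)) f hf a b hfa
    (fun g hg n hn => hfb g hg n (by simpa using hn))

/-- **S18/M-D** : every `Γ₀(r)`-invariant element of `AL M` is a polynomial in `t` divided by a
power of `t`. -/
theorem Haupt.exists_poly (h : Haupt M r) (f : AL M)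
    (hf : ∀ g : SL(2, ℤ), (r : ℤ) ∣ g 1 0 → g • f = f) :
    ∃ (b : ℕ) (P : Polynomial Zb), f * h.tA ^ b = P.eval₂ (cA M) h.tA := by
  obtain ⟨b, hb⟩ := exists_low_smul f
  have hM : (1 : ℤ) ≤ M := by exact_mod_cast Nat.pos_of_ne_zero (NeZero.ne M)
  obtain ⟨P, -, hP⟩ := h.exists_poly_of_low f hf b b (fun n hn => by
      have h1 := hb 1
      rw [one_smul] at h1
      apply h1
      have : (b : ℤ) * 1 ≤ (b : ℤ) * M := mul_le_mul_of_nonneg_left hM (by positivity)
      omega) (fun g _ n hn => hb g n hn)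
  exact ⟨b, P, hP⟩

end Fermat.Agent.S18
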