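import Fermat.Agent.S18.ModTau
import Fermat.Agent.S18.Z.Sat

/-!
# S18 / (KL), modular input M-H (helper20)

`smV_of_quot`, `mem_VV_of_quot` from the independence statement `indep_mod` (M-F) and
`j_M ∈ VV`, both taken as hypotheses.
-/

set_option autoImplicit false
set_option linter.unusedSectionVars false

open UpperHalfPlane ModularForm EisensteinSeries ModularCurve Polynomial IntermediateField
open scoped MatrixGroups Manifold Real

noncomputable section

namespace Fermat.Agent.S18.ModQuot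

open Fermat.Agent.S24 Fermat.Agent.S28

variable {M r : ℕ} [NeZero M]

theorem exists_lift (A : ValuationSubring Kb) (x : LaurentSeries Kb) (h : ∀ n, x.coeff n ∈ A) :
    ∃ y : LaurentSeries A, coeffMap A.subtype y = x := by
  refine ⟨⟨fun n => ⟨x.coeff n, h n⟩, x.isPWO_support.mono fun n hn h0 => hn ?_⟩, ?_⟩
  · exact Subtype.ext h0
  · ext n
    rfl

theorem coeffMap_subtype_injective (A : ValuationSubring Kb) :
    Function.Injective (coeffMap A.subtype) := by
  intro y y' h
  ext n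
  have := congrArg (fun s => s.coeff n) h
  simpa using this

theorem coeff_of_corr {x : FN M} {f : AL M} (h : Corr M x f) (n : ℤ) :
    (x : LaurentSeries Kb).coeff n = zk ((eps M f).coeff ((M : ℤ) * n)) := by
  rw [← qExpand_coeff_mul M, h.qexp_eq, coeffMap_coeff]

/-- the Hauptmodul as a series over `A` -/
def yt (H : Haupt M r) (hrM : r ∣ M) (A : ValuationSubring Kb) : LaurentSeries A :=
  (exists_lift A (tauF H hrM : LaurentSeries Kb) (coeff_tauF_mem H hrM A)).choose

theorem coe_yt (H : Haupt M r) (hrM : r ∣ M) (A : ValuationSubring Kb) :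
    coeffMap A.subtype (yt H hrM A) = (tauF H hrM : LaurentSeries Kb) :=
  (exists_lift A (tauF H hrM : LaurentSeries Kb) (coeff_tauF_mem H hrM A)).choose_spec

/-- `j_M` as a series over `A` -/
def yj (M : ℕ) [NeZero M] (A : ValuationSubring Kb) : LaurentSeries A :=
  (exists_lift A (jF M M dvd_rfl : LaurentSeries Kb) (fun n => by
    rw [coeff_of_corr (Corr.jF M dvd_rfl)]; exact zk_mem A _)).choose

theorem coe_yj (A : ValuationSubring Kb) :
    coeffMap A.subtype (yj M A) = (jF M M dvd_rfl : LaurentSeries Kb) :=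
  (exists_lift A (jF M M dvd_rfl : LaurentSeries Kb) (fun n => by
    rw [coeff_of_corr (Corr.jF M dvd_rfl)]; exact zk_mem A _)).choose_spec

/-- `P(t)` as a series over `A` -/
def serP (H : Haupt M r) (hrM : r ∣ M) (A : ValuationSubring Kb) (P : (↥A)[X]) : LaurentSeries A :=
  P.eval₂ HahnSeries.C (yt H hrM A)

theorem coe_serP (H : Haupt M r) (hrM : r ∣ M) (A : ValuationSubring Kb) (P : (↥A)[X]) :
    coeffMap A.subtype (serP H hrM A P) =
      ((KL.evE A (tauL H hrM) (FN M) P : FN M) : LaurentSeries Kb) := by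
  have h1 : ((KL.evE A (tauL H hrM) (FN M) P : FN M) : LaurentSeries Kb) =
      P.eval₂ ((algebraMap Kb (LaurentSeries Kb)).comp A.subtype)
        (tauF H hrM : LaurentSeries Kb) := by
    have := Polynomial.hom_eval₂ P ((algebraMap Kb (LT H hrM)).comp A.subtype)
      ((algebraMap (FN M) (LaurentSeries Kb)).comp (algebraMap (LT H hrM) (FN M))) (tauL H hrM)
    exact this
  rw [h1, serP, Polynomial.hom_eval₂, coe_yt]
  congr 1
  ext a : 1
  show coeffMap A.subtype (HahnSeries.single 0 a) = algebraMap Kb (LaurentSeries Kb) (a : Kb)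
  rw [coeffMap_single, algebraMap_laurent_eq_single]
  rfl

theorem red_serP (H : Haupt M r) (hrM : r ∣ M) (A : ValuationSubring Kb) (P : (↥A)[X]) :
    coeffMap (IsLocalRing.residue A) (serP H hrM A P) =
      aeval (coeffMap (IsLocalRing.residue A) (yt H hrM A)) (KL.redP A P) := by
  rw [serP, Polynomial.hom_eval₂, KL.redP_apply, aeval_def, eval₂_map]
  congr 1
  ext a : 1
  show coeffMap (IsLocalRing.residue A) (HahnSeries.single 0 a) =
    algebraMap _ (LaurentSeries _) (IsLocalRing.residue A a)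
  rw [coeffMap_single, algebraMap_laurent_eq_single]

theorem order_red_yt (H : Haupt M r) (hrM : r ∣ M) (A : ValuationSubring Kb) :
    (coeffMap (IsLocalRing.residue A) (yt H hrM A)).order < 0 := by
  have h1 : (yt H hrM A).coeff (-1) = 1 := by
    apply Subtype.ext
    have := congrArg (fun s => s.coeff (-1)) (coe_yt H hrM A)
    simp only [coeffMap_coeff, coeff_tauF_neg_one] at this
    exact this
  have h2 : (coeffMap (IsLocalRing.residue A) (yt H hrM A)).coeff (-1) ≠ 0 := by
    rw [coeffMap_coeff, h1, map_one]; exact one_ne_zero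
  have := HahnSeries.order_le_of_coeff_ne_zero h2
  omega

theorem red_serP_ne_zero (H : Haupt M r) (hrM : r ∣ M) (A : ValuationSubring Kb) {P : (↥A)[X]}
    (hP : KL.redP A P ≠ 0) : coeffMap (IsLocalRing.residue A) (serP H hrM A P) ≠ 0 := by
  rw [red_serP]
  intro h
  exact hP ((transcendental_iff.mp (transcendental_of_order_neg (order_red_yt H hrM A))) _ h)


/-- the statement of `indep_mod` (M-F) -/
def Indep (H : Haupt M r) (hrM : r ∣ M) (A : ValuationSubring Kb) : Prop :=
  ∀ (P : Fin (Nat.card (X0 M r)) → (↥A)[X]) (y : LaurentSeries A),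
    coeffMap A.subtype y = ((∑ i, KL.evE A (tauL H hrM) (FN M) (P i) *
      jF M M dvd_rfl ^ (i : ℕ) : FN M) : LaurentSeries Kb) →
    coeffMap (IsLocalRing.residue A) y = 0 → ∀ i, KL.redP A (P i) = 0

theorem evE_C (H : Haupt M r) (hrM : r ∣ M) (A : ValuationSubring Kb) (a : A) :
    KL.evE A (tauL H hrM) (FN M) (C a) = algebraMap Kb (FN M) (a : Kb) := by
  rw [KL.evE_apply, KL.evL_C, ← IsScalarTower.algebraMap_apply]

theorem exists_scale (H : Haupt M r) (hrM : r ∣ M) (A : ValuationSubring Kb)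
    (hind : Indep H hrM A) (hj : jF M M dvd_rfl ∈ KL.VV A (tauL H hrM) (FN M))
    (x : FN M) (hx : x ≠ 0) :
    ∃ (a : Kb) (S : (↥A)[X]) (z : FN M) (yz : LaurentSeries A), a ≠ 0 ∧ KL.redP A S ≠ 0 ∧
      z ∈ KL.VV A (tauL H hrM) (FN M) ∧
      KL.evE A (tauL H hrM) (FN M) S * x = algebraMap Kb (FN M) a * z ∧
      coeffMap A.subtype yz = (z : LaurentSeries Kb) ∧
      coeffMap (IsLocalRing.residue A) yz ≠ 0 := by
  obtain ⟨β, hβ⟩ := exists_basis H hrM
  have hne : ∃ i, β.repr x i ≠ 0 := by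
    by_contra hcon
    push Not at hcon
    apply hx
    rw [← β.sum_repr x]
    exact Finset.sum_eq_zero fun i _ => by rw [hcon i, zero_smul]
  obtain ⟨a, ha, S, P, hS, ⟨i0, hi0⟩, hrel⟩ := KL.exists_scale_L_family A
    (transcendental_tauL H hrM) (isGen_tauL H hrM) (fun i => β.repr x i) hne
  have hcoe : coeffMap A.subtype (∑ i, serP H hrM A (P i) * yj M A ^ (i : ℕ)) =
      ((∑ i, KL.evE A (tauL H hrM) (FN M) (P i) * jF M M dvd_rfl ^ (i : ℕ) : FN M) :
        LaurentSeries Kb) := by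
    have e : ((∑ i, KL.evE A (tauL H hrM) (FN M) (P i) * jF M M dvd_rfl ^ (i : ℕ) : FN M) :
        LaurentSeries Kb) = ∑ i, ((KL.evE A (tauL H hrM) (FN M) (P i) : FN M) : LaurentSeries Kb) *
          (jF M M dvd_rfl : LaurentSeries Kb) ^ (i : ℕ) := by
      have := map_sum (algebraMap (FN M) (LaurentSeries Kb))
        (fun i : Fin (Nat.card (X0 M r)) =>
          KL.evE A (tauL H hrM) (FN M) (P i) * jF M M dvd_rfl ^ (i : ℕ)) Finset.univ
      simp only [map_mul, map_pow] at this
      exact this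
    rw [e, map_sum]
    refine Finset.sum_congr rfl fun i _ => ?_
    rw [map_mul, map_pow, coe_serP, coe_yj]
  refine ⟨a, S, ∑ i, KL.evE A (tauL H hrM) (FN M) (P i) * jF M M dvd_rfl ^ (i : ℕ),
    ∑ i, serP H hrM A (P i) * yj M A ^ (i : ℕ), ha, hS, ?_, ?_, hcoe, ?_⟩
  · exact Subring.sum_mem _ fun i _ => Subring.mul_mem _
      (KL.C0_le_VV A _ _ (KL.evE_mem_C0 A _ _ _)) (Subring.pow_mem _ hj _)
  · conv_lhs => rw [← β.sum_repr x]
    rw [Finset.mul_sum, Finset.mul_sum]
    refine Finset.sum_congr rfl fun i _ => ?_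
    rw [hβ i, Algebra.smul_def, ← mul_assoc, KL.evE_apply, ← map_mul, hrel i, map_mul,
      ← IsScalarTower.algebraMap_apply, KL.evE_apply, mul_assoc]
  · intro h0
    exact hi0 (hind P _ hcoe h0 i0)

/-- the basic identity -/
theorem key_eq (H : Haupt M r) (hrM : r ∣ M) (A : ValuationSubring Kb) (x z : FN M)
    (y1 y2 yz : LaurentSeries A) (S : (↥A)[X]) (a : Kb) (ha : a ≠ 0) (b : A) (hb : (b : Kb) = a⁻¹)
    (hmul : (x : LaurentSeries Kb) * coeffMap A.subtype y2 = coeffMap A.subtype y1)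
    (hrel : KL.evE A (tauL H hrM) (FN M) S * x = algebraMap Kb (FN M) a * z)
    (hz : coeffMap A.subtype yz = (z : LaurentSeries Kb)) :
    yz * y2 = HahnSeries.C b * (serP H hrM A S * y1) := by
  apply coeffMap_subtype_injective A
  rw [map_mul, map_mul, map_mul, hz, coe_serP, ← hmul]
  have h1 : coeffMap A.subtype (HahnSeries.C b) = algebraMap Kb (LaurentSeries Kb) a⁻¹ := by
    show coeffMap A.subtype (HahnSeries.single 0 b) = _
    rw [coeffMap_single, algebraMap_laurent_eq_single, ← hb]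
    rfl
  have h2 : ((KL.evE A (tauL H hrM) (FN M) S : FN M) : LaurentSeries Kb) * (x : LaurentSeries Kb) =
      algebraMap Kb (LaurentSeries Kb) a * (z : LaurentSeries Kb) :=
    congrArg (algebraMap (FN M) (LaurentSeries Kb)) hrel
  have h3 : algebraMap Kb (LaurentSeries Kb) a⁻¹ * algebraMap Kb (LaurentSeries Kb) a = 1 := by
    rw [← map_mul, inv_mul_cancel₀ ha, map_one]
  rw [h1, ← mul_assoc (((KL.evE A (tauL H hrM) (FN M) S : FN M) : LaurentSeries Kb)), h2]
  linear_combination (-(z : LaurentSeries Kb) * coeffMap A.subtype y2) * h3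

theorem red_C (A : ValuationSubring Kb) (b : A) :
    coeffMap (IsLocalRing.residue A) (HahnSeries.C b) =
      HahnSeries.C (IsLocalRing.residue A b) := by
  show coeffMap (IsLocalRing.residue A) (HahnSeries.single 0 b) = _
  rw [coeffMap_single]
  rfl

/-- **M-H** -/
theorem smV_of_quot (H : Haupt M r) (hrM : r ∣ M) (A : ValuationSubring Kb)
    (hind : Indep H hrM A) (hj : jF M M dvd_rfl ∈ KL.VV A (tauL H hrM) (FN M))
    (x : FN M) (y1 y2 : LaurentSeries A)
    (hmul : (x : LaurentSeries Kb) * coeffMap A.subtype y2 = coeffMap A.subtype y1)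
    (h1 : coeffMap (IsLocalRing.residue A) y1 = 0)
    (h2 : coeffMap (IsLocalRing.residue A) y2 ≠ 0) :
    KL.SmV A (tauL H hrM) (FN M) x := by
  by_cases hx : x = 0
  · exact ⟨0, zero_mem _, 0, Subring.zero_mem _, by rw [hx, mul_zero]⟩
  obtain ⟨a, S, z, yz, ha, hS, hzV, hrel, hz, hzne⟩ := exists_scale H hrM A hind hj x hx
  have hninv : a⁻¹ ∉ A := by
    intro hb
    have h := congrArg (coeffMap (IsLocalRing.residue A))
      (key_eq H hrM A x z y1 y2 yz S a ha ⟨a⁻¹, hb⟩ rfl hmul hrel hz)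
    rw [map_mul, map_mul, map_mul, h1, mul_zero, mul_zero] at h
    exact (mul_ne_zero hzne h2) h
  have haA : a ∈ A := (A.mem_or_inv_mem a).resolve_right hninv
  have hm : (⟨a, haA⟩ : A) ∈ IsLocalRing.maximalIdeal A := by
    rw [IsLocalRing.mem_maximalIdeal, mem_nonunits_iff]
    rintro ⟨u, hu⟩
    apply hninv
    have h3 : a * ((u⁻¹ : (↥A)ˣ) : A) = 1 := by
      have := congrArg Subtype.val u.mul_inv
      rw [hu] at this
      exact this
    rw [← eq_inv_of_mul_eq_one_right h3]
    exact Subtype.property _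
  refine KL.SmV_of_evE_mul A (transcendental_tauL H hrM) hS ⟨⟨a, haA⟩, hm, z, hzV, ?_⟩
  rw [hrel, evE_C]

/-- **M-H** -/
theorem mem_VV_of_quot (H : Haupt M r) (hrM : r ∣ M) (A : ValuationSubring Kb)
    (hind : Indep H hrM A) (hj : jF M M dvd_rfl ∈ KL.VV A (tauL H hrM) (FN M))
    (x : FN M) (y1 y2 : LaurentSeries A)
    (hmul : (x : LaurentSeries Kb) * coeffMap A.subtype y2 = coeffMap A.subtype y1)
    (h2 : coeffMap (IsLocalRing.residue A) y2 ≠ 0) :
    x ∈ KL.VV A (tauL H hrM) (FN M) := by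
  by_cases hx : x = 0
  · rw [hx]; exact Subring.zero_mem _
  obtain ⟨a, S, z, yz, ha, hS, hzV, hrel, hz, hzne⟩ := exists_scale H hrM A hind hj x hx
  have haA : a ∈ A := by
    by_contra hna
    have hb : a⁻¹ ∈ A := (A.mem_or_inv_mem a).resolve_left hna
    have hm : (⟨a⁻¹, hb⟩ : A) ∈ IsLocalRing.maximalIdeal A := by
      rw [IsLocalRing.mem_maximalIdeal, mem_nonunits_iff]
      rintro ⟨u, hu⟩
      apply hna
      have h3 : a⁻¹ * ((u⁻¹ : (↥A)ˣ) : A) = 1 := by
        have := congrArg Subtype.val u.mul_inv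
        rw [hu] at this
        exact this
      have h4 : a = ((u⁻¹ : (↥A)ˣ) : A) := by
        have := eq_inv_of_mul_eq_one_right h3
        rw [inv_inv] at this
        exact this.symm
      rw [h4]
      exact Subtype.property _
    have h := congrArg (coeffMap (IsLocalRing.residue A))
      (key_eq H hrM A x z y1 y2 yz S a ha ⟨a⁻¹, hb⟩ rfl hmul hrel hz)
    rw [map_mul, map_mul, red_C, (IsLocalRing.residue_eq_zero_iff _).mpr hm, map_zero,
      zero_mul] at h
    exact (mul_ne_zero hzne h2) h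
  have h3 : KL.evE A (tauL H hrM) (FN M) S * x ∈ KL.VV A (tauL H hrM) (FN M) := by
    rw [hrel, ← evE_C H hrM A ⟨a, haA⟩]
    exact Subring.mul_mem _ (KL.C0_le_VV A _ _ (KL.evE_mem_C0 A _ _ _)) hzV
  obtain ⟨S', hS', h4⟩ := h3
  refine ⟨S' * S, by rw [map_mul]; exact mul_ne_zero hS' hS, ?_⟩
  rw [map_mul, mul_assoc]
  exact h4

theorem evL_map_zkA (H : Haupt M r) (hrM : r ∣ M) (A : ValuationSubring Kb) (P : Zb[X]) :
    KL.evL A (tauL H hrM) (P.map (zkA A)) = aeval (tauL H hrM) (P.map zk) := by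
  rw [KL.evL_eq_aeval, KL.incP_apply, Polynomial.map_map]
  rfl

/-- `Γ₀(r)`-invariant elements of `AL M` lie in the Gauss ring. -/
theorem mem_OG_of_corr (H : Haupt M r) (hrM : r ∣ M) (A : ValuationSubring Kb) (f : AL M)
    (hf : ∀ g : SL(2, ℤ), (r : ℤ) ∣ g 1 0 → g • f = f) (x : LT H hrM)
    (hx : Corr M (x : FN M) f) : x ∈ KL.OG A (tauL H hrM) := by
  obtain ⟨x', hx', b, P, h1, -⟩ := exists_LT_of_invariant H hrM f hf
  have : x = x' := Subtype.ext (hx.unique_left hx')
  subst this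
  refine ⟨P.map (zkA A), X ^ b, by rw [KL.redP_X_pow]; exact pow_ne_zero _ X_ne_zero, ?_⟩
  rw [evL_map_zkA, ← h1, map_pow, KL.evL_X, mul_comm]

theorem jF_mem_VV (H : Haupt M r) (hrM : r ∣ M) (A : ValuationSubring Kb) :
    jF M M dvd_rfl ∈ KL.VV A (tauL H hrM) (FN M) := by
  obtain ⟨p, hp, -, h0, hc⟩ := exists_chiL H hrM
  apply KL.mem_VV_of_isIntegralElem A (transcendental_tauL H hrM)
  have hlift : p ∈ lifts (KL.OG A (tauL H hrM)).subtype := by
    rw [lifts_iff_coeff_lifts]
    intro n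
    exact ⟨⟨p.coeff n, mem_OG_of_corr H hrM A _ (smul_coeff_chiA hrM n) _ (hc n)⟩, rfl⟩
  obtain ⟨q, hq, -, hqm⟩ := lifts_and_natDegree_eq_and_monic hlift hp
  refine ⟨q, hqm, ?_⟩
  rw [← eval₂_map, hq]
  exact h0

end Fermat.Agent.S18.ModQuot
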