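import Fermat.Agent.S18.ModBridge
import Fermat.Agent.S18.ModAux
import Fermat.Agent.S18.Z.Defs
import Fermat.Agent.S24.Embed

/-!
# S18 / (KL), modular input M-E : the Hauptmodul inside `FN M`, the base field `Kb(t)`  (helper13)

`tauF H hrM : FN M` is the Hauptmodul, `LT H hrM = Kb⟮tauF⟯`, `tauL H hrM : LT H hrM` the generator
(this is the `τ` of Theorem Z).
-/

set_option autoImplicit false
set_option synthInstance.maxHeartbeats 400000
set_option linter.unusedSectionVars false

open UpperHalfPlane ModularForm EisensteinSeries ModularCurve Polynomial IntermediateField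
open scoped MatrixGroups Manifold Real

noncomputable section

namespace Fermat.Agent.S18

open Fermat.Agent.S24 Fermat.Agent.S28

variable {M r : ℕ} [NeZero M]

theorem dvd_of_mem_Gamma0 {g : SL(2, ℤ)} (hg : g ∈ CongruenceSubgroup.Gamma0 M) :
    (M : ℤ) ∣ g 1 0 :=
  (ZMod.intCast_zmod_eq_zero_iff_dvd _ _).mp (CongruenceSubgroup.Gamma0_mem.mp hg)

theorem Haupt.exists_tau (H : Haupt M r) (hrM : r ∣ M) : ∃ x : FN M, Corr M x H.tA :=
  exists_corr H.tA fun g hg => H.smul_tA g
    ((Int.natCast_dvd_natCast.mpr hrM).trans (dvd_of_mem_Gamma0 hg))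

/-- the Hauptmodul as an element of the function field -/
def tauF (H : Haupt M r) (hrM : r ∣ M) : FN M := (H.exists_tau hrM).choose

theorem corr_tauF (H : Haupt M r) (hrM : r ∣ M) : Corr M (tauF H hrM) H.tA :=
  (H.exists_tau hrM).choose_spec

/-- the base field `Kb(t)` -/
abbrev LT (H : Haupt M r) (hrM : r ∣ M) : IntermediateField Kb (FN M) := Kb⟮tauF H hrM⟯

/-- the generator of the base field -/
def tauL (H : Haupt M r) (hrM : r ∣ M) : LT H hrM := AdjoinSimple.gen Kb (tauF H hrM)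

theorem algebraMap_tauL (H : Haupt M r) (hrM : r ∣ M) :
    algebraMap (LT H hrM) (FN M) (tauL H hrM) = tauF H hrM := rfl

/-- the cosets of `Γ₀(r)` modulo `Γ₀(M)` -/
def X0 (M r : ℕ) : Type := {q : QN M // (r : ℤ) ∣ (q.out : SL(2, ℤ)) 1 0}

instance : Finite (X0 M r) := by
  have : Finite (QN M) := Subgroup.finite_quotient_of_finiteIndex
  exact Subtype.finite

theorem coeff_tauF (H : Haupt M r) (hrM : r ∣ M) (n : ℤ) :
    (tauF H hrM : LaurentSeries Kb).coeff n = zk ((eps M H.tA).coeff ((M : ℤ) * n)) := by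
  rw [← qExpand_coeff_mul M, (corr_tauF H hrM).qexp_eq, coeffMap_coeff]

theorem coeff_tauF_neg_one (H : Haupt M r) (hrM : r ∣ M) :
    (tauF H hrM : LaurentSeries Kb).coeff (-1) = 1 := by
  rw [coeff_tauF, show (M : ℤ) * -1 = -(M : ℤ) by ring, H.coeff_eps, map_one]

theorem coeff_tauF_of_lt (H : Haupt M r) (hrM : r ∣ M) {n : ℤ} (hn : n < -1) :
    (tauF H hrM : LaurentSeries Kb).coeff n = 0 := by
  rw [coeff_tauF, H.coeff_eps_lt, map_zero]
  have hM : (0 : ℤ) < M := by exact_mod_cast Nat.pos_of_ne_zero (NeZero.ne M)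
  nlinarith

theorem coeff_tauF_mem (H : Haupt M r) (hrM : r ∣ M) (A : ValuationSubring Kb) (n : ℤ) :
    (tauF H hrM : LaurentSeries Kb).coeff n ∈ A := by
  rw [coeff_tauF]; exact zk_mem A _

theorem order_tauF (H : Haupt M r) (hrM : r ∣ M) : (tauF H hrM : LaurentSeries Kb).order = -1 := by
  have h0 : (tauF H hrM : LaurentSeries Kb) ≠ 0 := by
    intro h
    have := coeff_tauF_neg_one H hrM
    rw [h] at this
    simp at this
  apply le_antisymm
  · apply HahnSeries.order_le_of_coeff_ne_zero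
    rw [coeff_tauF_neg_one]; exact one_ne_zero
  · by_contra hlt
    push Not at hlt
    have := coeff_tauF_of_lt H hrM hlt
    exact h0 (HahnSeries.coeff_order_eq_zero.mp this)

theorem transcendental_tauF (H : Haupt M r) (hrM : r ∣ M) : Transcendental Kb (tauF H hrM) := by
  have h := transcendental_of_order_neg (x := (tauF H hrM : LaurentSeries Kb))
    (by rw [order_tauF]; norm_num)
  intro halg
  apply h
  exact (isAlgebraic_algebraMap_iff
    (algebraMap (FN M) (LaurentSeries Kb)).injective).mpr halg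

theorem transcendental_tauL (H : Haupt M r) (hrM : r ∣ M) : Transcendental Kb (tauL H hrM) := by
  intro halg
  apply transcendental_tauF H hrM
  exact (isAlgebraic_algebraMap_iff
    (algebraMap (LT H hrM) (FN M)).injective).mpr halg

theorem isGen_tauL (H : Haupt M r) (hrM : r ∣ M) : KL.IsGen Kb (tauL H hrM) := by
  intro x
  obtain ⟨P, Q, hx⟩ := (IntermediateField.mem_adjoin_simple_iff Kb (x : FN M)).mp x.2
  have hco : ∀ R : Kb[X], ((aeval (tauL H hrM) R : LT H hrM) : FN M) = aeval (tauF H hrM) R := by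
    intro R
    exact (Polynomial.aeval_algebraMap_apply (FN M) (tauL H hrM) R).symm
  by_cases hQ : aeval (tauF H hrM) Q = 0
  · refine ⟨0, 1, one_ne_zero, ?_⟩
    rw [hQ, div_zero] at hx
    have : x = 0 := Subtype.ext hx
    simp [this]
  · refine ⟨P, Q, fun h => hQ (by rw [h, map_zero]), Subtype.ext ?_⟩
    show (x : FN M) * ((aeval (tauL H hrM) Q : LT H hrM) : FN M) = _
    rw [hco, hco, hx, div_mul_cancel₀ _ hQ]

theorem tA_ne_zero (H : Haupt M r) : H.tA ≠ 0 := by
  intro h
  have := H.coeff_eps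
  rw [h, map_zero] at this
  simp at this

theorem coe_aeval_tauL (H : Haupt M r) (hrM : r ∣ M) (R : Kb[X]) :
    ((aeval (tauL H hrM) R : LT H hrM) : FN M) = aeval (tauF H hrM) R :=
  (Polynomial.aeval_algebraMap_apply (FN M) (tauL H hrM) R).symm

/-- `Γ₀(r)`-invariant elements of `AL M` lie in `Kb(t)` (M-D). -/
theorem exists_LT_of_invariant (H : Haupt M r) (hrM : r ∣ M) (f : AL M)
    (hf : ∀ g : SL(2, ℤ), (r : ℤ) ∣ g 1 0 → g • f = f) :
    ∃ x : LT H hrM, Corr M (x : FN M) f ∧ ∃ (b : ℕ) (P : Zb[X]),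
      x * tauL H hrM ^ b = aeval (tauL H hrM) (P.map zk) ∧
      f * H.tA ^ b = P.eval₂ (cA M) H.tA := by
  obtain ⟨b, P, hP⟩ := H.exists_poly f hf
  have h0 : tauL H hrM ≠ 0 := by
    intro h
    exact transcendental_tauL H hrM (h ▸ isAlgebraic_zero)
  refine ⟨aeval (tauL H hrM) (P.map zk) / tauL H hrM ^ b, ?_, b, P,
    div_mul_cancel₀ _ (pow_ne_zero b h0), hP⟩
  have h1 := ((corr_tauF H hrM).eval₂ P).div ((corr_tauF H hrM).pow b)
    (pow_ne_zero b (tA_ne_zero H)) hP
  have h2 : ((aeval (tauL H hrM) (P.map zk) / tauL H hrM ^ b : LT H hrM) : FN M) =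
      aeval (tauF H hrM) (P.map zk) / tauF H hrM ^ b := by
    rw [← coe_aeval_tauL]; rfl
  rw [h2]; exact h1

theorem jN_mem_LT (H : Haupt M r) (hrM : r ∣ M) : jN M ∈ LT H hrM := by
  obtain ⟨x, hx, -⟩ := exists_LT_of_invariant H hrM (jA M 1 (one_dvd M))
    (fun g _ => smul_jA_one M g)
  have : jN M = (x : FN M) := (Corr.jF 1 (one_dvd M)).unique_left hx
  rw [this]; exact x.2

theorem adjoin_jN_le (H : Haupt M r) (hrM : r ∣ M) : Kb⟮jN M⟯ ≤ LT H hrM := by
  rw [IntermediateField.adjoin_simple_le_iff]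
  exact jN_mem_LT H hrM

theorem finiteDimensional_LT (H : Haupt M r) (hrM : r ∣ M) :
    FiniteDimensional (LT H hrM) (FN M) := by
  have h := adjoin_jN_le H hrM
  have := finiteDimensional_FN M
  let _ : Algebra Kb⟮jN M⟯ (LT H hrM) := (IntermediateField.inclusion h).toRingHom.toAlgebra
  have : IsScalarTower Kb⟮jN M⟯ (LT H hrM) (FN M) := IsScalarTower.of_algebraMap_eq fun x => rfl
  exact Module.Finite.of_restrictScalars_finite Kb⟮jN M⟯ (LT H hrM) (FN M)


theorem mem_Gamma0_iff {n : ℕ} {g : SL(2, ℤ)} :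
    g ∈ CongruenceSubgroup.Gamma0 n ↔ (n : ℤ) ∣ g 1 0 := by
  rw [CongruenceSubgroup.Gamma0_mem, ZMod.intCast_zmod_eq_zero_iff_dvd]

theorem Gamma0_le (hrM : r ∣ M) : CongruenceSubgroup.Gamma0 M ≤ CongruenceSubgroup.Gamma0 r := by
  intro g hg
  rw [mem_Gamma0_iff] at hg ⊢
  exact (Int.natCast_dvd_natCast.mpr hrM).trans hg

/-- membership of a coset in `Γ₀(r)/Γ₀(M)` -/
def IsX0 (M r : ℕ) (q : QN M) : Prop := (r : ℤ) ∣ (q.out : SL(2, ℤ)) 1 0

theorem isX0_mk (hrM : r ∣ M) (g : SL(2, ℤ)) : IsX0 M r (g : QN M) ↔ (r : ℤ) ∣ g 1 0 := by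
  obtain ⟨h, hh⟩ := QuotientGroup.mk_out_eq_mul (CongruenceSubgroup.Gamma0 M) g
  unfold IsX0
  rw [hh, ← mem_Gamma0_iff, ← mem_Gamma0_iff]
  exact Subgroup.mul_mem_cancel_right _ (Gamma0_le hrM h.2)

theorem isX0_smul (hrM : r ∣ M) {g : SL(2, ℤ)} (hg : (r : ℤ) ∣ g 1 0) (q : QN M) :
    IsX0 M r (g • q) ↔ IsX0 M r q := by
  induction q using QuotientGroup.induction_on with
  | H g' =>
    have : g • (g' : QN M) = ((g * g' : SL(2, ℤ)) : QN M) := rfl
    rw [this, isX0_mk hrM, isX0_mk hrM, ← mem_Gamma0_iff, ← mem_Gamma0_iff]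
    exact Subgroup.mul_mem_cancel_left _ (mem_Gamma0_iff.mpr hg)

theorem isX0_one (hrM : r ∣ M) : IsX0 M r ((1 : SL(2, ℤ)) : QN M) := by
  rw [isX0_mk hrM]; simp

/-- the embeddings over `Kb(t)` -/
def sigX (M r : ℕ) [NeZero M] (q : X0 M r) : FN M →+* Mer := sigma M q.1

theorem sigX_injective : Function.Injective (sigX M r) := fun _ _ h =>
  Subtype.ext (sigma_injective M h)

theorem sigma_of_corr {x : FN M} {f : AL M} (h : Corr M x f) (q : QN M) :
    sigma M q x = algebraMap Hol Mer (q.out • f : AL M).1 := by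
  conv_lhs => rw [← QuotientGroup.out_eq' q]
  exact h.sigma q.out

theorem sigX_tauF (H : Haupt M r) (hrM : r ∣ M) (q : X0 M r) :
    sigX M r q (tauF H hrM) = algebraMap Hol Mer H.tA.1 := by
  show sigma M q.1 _ = _
  rw [sigma_of_corr (corr_tauF H hrM), H.smul_tA _ q.2]

theorem sigX_algebraMap (q : X0 M r) (a : Kb) :
    sigX M r q (algebraMap Kb (FN M) a) = algebraMap ℂ Mer (kappa a) := sigma_eq_const M q.1 a

theorem sigX_LT (H : Haupt M r) (hrM : r ∣ M) (q q' : X0 M r) (a : LT H hrM) :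
    sigX M r q (algebraMap (LT H hrM) (FN M) a) = sigX M r q' (algebraMap (LT H hrM) (FN M) a) :=
  eq_on_adjoin (K := Kb) (tauF H hrM) _ _
    (fun a => by rw [sigX_algebraMap, sigX_algebraMap]) (by rw [sigX_tauF, sigX_tauF]) a

theorem card_X0_le_finrank (H : Haupt M r) (hrM : r ∣ M) :
    Nat.card (X0 M r) ≤ Module.finrank (LT H hrM) (FN M) :=
  card_le_finrank_of_embeddings (tauF H hrM) (finiteDimensional_LT H hrM) (sigX M r)
    sigX_injective (fun i j a => by rw [sigX_algebraMap, sigX_algebraMap])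
    (fun i j => by rw [sigX_tauF, sigX_tauF])

theorem sigma_jM_injective : Function.Injective fun q : QN M => sigma M q (jF M M dvd_rfl) := by
  intro q q' h
  induction q using QuotientGroup.induction_on with
  | H g =>
    induction q' using QuotientGroup.induction_on with
    | H g' =>
      simp only [sigma_mk] at h
      rw [QuotientGroup.eq]
      apply mem_Gamma0_of_merAct
      rw [merAct_mul, ← h, ← merAct_mul, inv_mul_cancel, merAct_one]
      rfl

theorem adjoin_jM_eq_top : (Kb⟮jN M⟯)⟮jF M M dvd_rfl⟯ = ⊤ := by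
  have hfin := finiteDimensional_FN M
  have : Finite (QN M) := Subgroup.finite_quotient_of_finiteIndex
  have hint : IsIntegral Kb⟮jN M⟯ (jF M M dvd_rfl) := IsIntegral.of_finite _ _
  have h1 := card_le_natDegree_minpoly (E := Kb⟮jN M⟯) (jF M M dvd_rfl) hint (sigma M)
    (fun i j a => eq_on_adjoin (K := Kb) (jN M) _ _
      (fun a => by rw [sigma_eq_const, sigma_eq_const]) (by rw [sigma_jF_one, sigma_jF_one]) a)
    sigma_jM_injective
  rw [← IntermediateField.adjoin.finrank hint, ← finrank_FN M] at h1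
  apply IntermediateField.eq_of_le_of_finrank_le le_top
  rw [IntermediateField.finrank_top']
  exact h1

theorem adjoin_LT_jM_eq_top (H : Haupt M r) (hrM : r ∣ M) :
    (LT H hrM)⟮jF M M dvd_rfl⟯ = ⊤ := by
  rw [eq_top_iff]
  intro y _
  have hy : y ∈ (Kb⟮jN M⟯)⟮jF M M dvd_rfl⟯ := by rw [adjoin_jM_eq_top]; trivial
  have h1 : y ∈ ((Kb⟮jN M⟯)⟮jF M M dvd_rfl⟯).restrictScalars Kb := hy
  rw [IntermediateField.adjoin_adjoin_left] at h1
  have h2 : IntermediateField.adjoin Kb ({jN M} ∪ {jF M M dvd_rfl} : Set (FN M)) ≤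
      ((LT H hrM)⟮jF M M dvd_rfl⟯).restrictScalars Kb := by
    rw [IntermediateField.adjoin_le_iff]
    rintro z (hz | hz)
    · rw [Set.mem_singleton_iff] at hz
      rw [hz]
      exact IntermediateField.algebraMap_mem ((LT H hrM)⟮jF M M dvd_rfl⟯)
        (⟨jN M, jN_mem_LT H hrM⟩ : LT H hrM)
    · rw [Set.mem_singleton_iff] at hz
      rw [hz]
      exact IntermediateField.mem_adjoin_simple_self (LT H hrM) _
  exact h2 h1

/-! ### the characteristic polynomial of `j_M` over `Kb(t)` -/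

theorem smul_jM_of_mem : ∀ k ∈ CongruenceSubgroup.Gamma0 M, k • jA M M dvd_rfl = jA M M dvd_rfl :=
  fun _ hk => smul_jA_of_mem_Gamma0 M hk

/-- the conjugates of `j_M` -/
def xq (M : ℕ) [NeZero M] : QN M → AL M := Lag.orb _ (jA M M dvd_rfl) smul_jM_of_mem

theorem xq_smul (g : SL(2, ℤ)) (q : QN M) : xq M (g • q) = g • xq M q := Lag.orb_smul _ _ _ g q

theorem xq_one : xq M ((1 : SL(2, ℤ)) : QN M) = jA M M dvd_rfl := by
  show (1 : SL(2, ℤ)) • jA M M dvd_rfl = _
  rw [one_smul]

theorem xq_eq_out (q : QN M) : xq M q = q.out • jA M M dvd_rfl := Lag.orb_eq_out _ _ _ q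

instance fintypeQN (M : ℕ) [NeZero M] : Fintype (QN M) :=
  have : Finite (QN M) := Subgroup.finite_quotient_of_finiteIndex
  Fintype.ofFinite _

open Classical in
/-- the characteristic polynomial of `j_M` over `Kb(t)`, in `AL M` -/
def chiA (M r : ℕ) [NeZero M] : (AL M)[X] :=
  ∏ q : QN M, if IsX0 M r q then (X - C (xq M q)) else 1

theorem chiA_monic : (chiA M r).Monic := by
  classical
  refine monic_prod_of_monic _ _ fun q _ => ?_
  split_ifs
  · exact monic_X_sub_C _
  · exact monic_one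

theorem natDegree_chiA : (chiA M r).natDegree = Nat.card (X0 M r) := by
  classical
  rw [chiA, natDegree_prod_of_monic]
  · have h1 : ∀ q : QN M, (if IsX0 M r q then (X - C (xq M q)) else (1 : (AL M)[X])).natDegree =
        if IsX0 M r q then 1 else 0 := by
      intro q
      split_ifs
      · exact natDegree_X_sub_C _
      · exact natDegree_one
    simp only [h1]
    rw [Finset.sum_boole, Nat.cast_id]
    show _ = Nat.card {q : QN M // IsX0 M r q}
    rw [Nat.card_eq_fintype_card, Fintype.card_subtype]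
  · intro q _
    split_ifs
    · exact monic_X_sub_C _
    · exact monic_one

theorem chiA_map (hrM : r ∣ M) {g : SL(2, ℤ)} (hg : (r : ℤ) ∣ g 1 0) :
    (chiA M r).map (MulSemiringAction.toRingHom SL(2, ℤ) (AL M) g) = chiA M r := by
  classical
  rw [chiA, Polynomial.map_prod]
  refine Fintype.prod_equiv (MulAction.toPerm g) _ _ fun q => ?_
  rw [MulAction.toPerm_apply]
  by_cases h : IsX0 M r q
  · rw [if_pos h, if_pos ((isX0_smul hrM hg q).mpr h), Polynomial.map_sub, map_X, map_C, xq_smul]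
    rfl
  · rw [if_neg h, if_neg (fun h' => h ((isX0_smul hrM hg q).mp h')), Polynomial.map_one]

theorem smul_coeff_chiA (hrM : r ∣ M) (n : ℕ) (g : SL(2, ℤ)) (hg : (r : ℤ) ∣ g 1 0) :
    g • (chiA M r).coeff n = (chiA M r).coeff n := by
  conv_rhs => rw [← chiA_map hrM hg, coeff_map]
  rfl

theorem eval_chiA (hrM : r ∣ M) : (chiA M r).eval (jA M M dvd_rfl) = 0 := by
  classical
  rw [chiA, eval_prod]
  refine Finset.prod_eq_zero (Finset.mem_univ ((1 : SL(2, ℤ)) : QN M)) ?_
  rw [if_pos (isX0_one hrM), xq_one, eval_sub, eval_X, eval_C, sub_self]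

/-- the characteristic polynomial of `j_M` over `Kb(t)` -/
theorem exists_chiL (H : Haupt M r) (hrM : r ∣ M) : ∃ p : (LT H hrM)[X], p.Monic ∧
    p.natDegree = Nat.card (X0 M r) ∧ aeval (jF M M dvd_rfl) p = 0 ∧
    ∀ i, Corr M ((p.coeff i : LT H hrM) : FN M) ((chiA M r).coeff i) := by
  classical
  set n := Nat.card (X0 M r) with hn
  choose l hl _ using fun i => exists_LT_of_invariant H hrM ((chiA M r).coeff i)
    (smul_coeff_chiA hrM i)
  let p : (LT H hrM)[X] := ∑ i ∈ Finset.range (n + 1), C (l i) * X ^ i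
  have hcoeff : ∀ i, p.coeff i = if i < n + 1 then l i else 0 := by
    intro i
    simp only [p, finsetSum_coeff, coeff_C_mul_X_pow]
    rw [Finset.sum_ite_eq]
    simp only [Finset.mem_range]
  have hzero : ∀ i, n < i → l i = 0 := by
    intro i hi
    have h1 : (chiA M r).coeff i = 0 := coeff_eq_zero_of_natDegree_lt (by rw [natDegree_chiA]; exact hi)
    have h2 := hl i
    rw [h1] at h2
    exact Subtype.ext (h2.eq_zero_iff.mpr rfl)
  have hcoeff' : ∀ i, p.coeff i = l i := by
    intro i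
    rw [hcoeff]
    split_ifs with h
    · rfl
    · exact (hzero i (by omega)).symm
  have hone : l n = 1 := by
    have h1 : (chiA M r).coeff n = 1 := by
      have := (chiA_monic (M := M) (r := r)).coeff_natDegree
      rwa [natDegree_chiA] at this
    have h2 := hl n
    rw [h1] at h2
    exact Subtype.ext (h2.unique_left Corr.one)
  have hdeg : p.natDegree = n := by
    apply natDegree_eq_of_le_of_coeff_ne_zero
    · rw [natDegree_le_iff_coeff_eq_zero]
      intro i hi
      rw [hcoeff', hzero i hi]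
    · rw [hcoeff', hone]; exact one_ne_zero
  refine ⟨p, ?_, hdeg, ?_, fun i => by rw [hcoeff']; exact hl i⟩
  · rw [Monic, leadingCoeff, hdeg, hcoeff', hone]
  · have h1 : Corr M (aeval (jF M M dvd_rfl) p) ((chiA M r).eval (jA M M dvd_rfl)) := by
      rw [eval_eq_sum_range, natDegree_chiA]
      have h2 : aeval (jF M M dvd_rfl) p =
          ∑ i ∈ Finset.range (n + 1), ((l i : LT H hrM) : FN M) * jF M M dvd_rfl ^ i := by
        simp only [p, map_sum, map_mul, aeval_C, map_pow, aeval_X]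
        rfl
      rw [h2]
      exact Corr.sum _ _ _ fun i _ => (hl i).mul ((Corr.jF M dvd_rfl).pow i)
    rw [eval_chiA hrM] at h1
    exact h1.eq_zero_iff.mpr rfl

theorem natDegree_minpoly_le (H : Haupt M r) (hrM : r ∣ M) :
    (minpoly (LT H hrM) (jF M M dvd_rfl)).natDegree ≤ Nat.card (X0 M r) := by
  obtain ⟨p, hp, hd, h0, -⟩ := exists_chiL H hrM
  rw [← hd]
  exact natDegree_le_of_dvd (minpoly.dvd _ _ h0) hp.ne_zero

theorem finrank_LT (H : Haupt M r) (hrM : r ∣ M) :
    Module.finrank (LT H hrM) (FN M) = Nat.card (X0 M r) := by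
  apply le_antisymm _ (card_X0_le_finrank H hrM)
  have hfin := finiteDimensional_LT H hrM
  have hint : IsIntegral (LT H hrM) (jF M M dvd_rfl) := IsIntegral.of_finite _ _
  rw [← IntermediateField.finrank_top', ← adjoin_LT_jM_eq_top H hrM,
    IntermediateField.adjoin.finrank hint]
  exact natDegree_minpoly_le H hrM

theorem natDegree_minpoly (H : Haupt M r) (hrM : r ∣ M) :
    (minpoly (LT H hrM) (jF M M dvd_rfl)).natDegree = Nat.card (X0 M r) := by
  have hfin := finiteDimensional_LT H hrM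
  have hint : IsIntegral (LT H hrM) (jF M M dvd_rfl) := IsIntegral.of_finite _ _
  rw [← finrank_LT H hrM, ← IntermediateField.finrank_top', ← adjoin_LT_jM_eq_top H hrM,
    IntermediateField.adjoin.finrank hint]

theorem exists_basis (H : Haupt M r) (hrM : r ∣ M) :
    ∃ β : Module.Basis (Fin (Nat.card (X0 M r))) (LT H hrM) (FN M),
      ∀ i, β i = jF M M dvd_rfl ^ (i : ℕ) := by
  have hfin := finiteDimensional_LT H hrM
  have : Nonempty (X0 M r) := ⟨⟨_, isX0_one hrM⟩⟩
  have : Nonempty (Fin (Nat.card (X0 M r))) := ⟨⟨0, Nat.card_pos⟩⟩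
  have h1 := linearIndependent_pow (K := LT H hrM) (jF M M dvd_rfl)
  have h2 : LinearIndependent (LT H hrM)
      (fun i : Fin (Nat.card (X0 M r)) => jF M M dvd_rfl ^ (i : ℕ)) :=
    h1.comp (Fin.castLE (natDegree_minpoly H hrM).ge) (Fin.castLE_injective _)
  refine ⟨basisOfLinearIndependentOfCardEqFinrank h2 (by rw [Fintype.card_fin, finrank_LT]), ?_⟩
  intro i
  rw [coe_basisOfLinearIndependentOfCardEqFinrank]

end Fermat.Agent.S18
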